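/-
S59lib / LLsq / Descent  (helper4)  --  (D1): the orders of an inertia-fixed Kummer function of a
TORIC class along the two components are congruent mod `n`

Abstract nodal setting of `LSb/Core` (`D : NodalDatum A F F₁ F₂` over `(L, A)`, `C : NodalCtx D …`),
`σ` an inertial semilinear automorphism.

* `redF_smul_div_eq` : the refined Step 1 -- if `d · f` is a unit of the Gauss ring then
  `σ f / f` reduces to the residue of `d / σ d`;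
* `residue_eq_of_pow_mul_eq_const` : if `wⁿ · (σ u₀ / u₀)` is a constant (`u₀` a Kummer unit) and `w`
  reduces to the constants `r₁`, `r₂`, then `r₁ = r₂`  (the twist of `σ u₀ / u₀` is trivial,
  `NodalCtx.twist_eq_one`, read on the section `w` of `KLat n (σ u₀ / u₀) 0 0`);
* **`zpow_sub_one_mem_nonunits`** : `u = u₀ · f₁ⁿ` fixed by `σ`, `ϖⁿ = π`,
  `u π^{-w₁}` a `V₁`-unit and `u π^{-w₂}` a `V₂`-unit  ⟹  `(σ ϖ / ϖ)^(w₁ - w₂) ≡ 1` modulo the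
  maximal ideal of `A`.
-/
import Fermat.Agent.LSb.Core.Kummer2

set_option autoImplicit false
set_option linter.unusedSectionVars false

noncomputable section

namespace Fermat.Agent.S59lib.LLsq

open AlgebraicCurve Fermat.Agent.LSb

variable {L : Type*} [Field L] {A : ValuationSubring L}
variable {F : Type*} [Field F] [Algebra L F]

local notation "k" => IsLocalRing.ResidueField A

/-- **refined Step 1** for one Gauss datum: if `d · f` is a unit, then `σ f / f` reduces to the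
residue of `d / σ d`. -/
theorem redF_smul_div_eq {Fk : Type*} [Field Fk] [Algebra k Fk] (V : S18lib.GaussDatum A F Fk)
    (σ : SemilinearAut L F) (hmem : ∀ y : F, σ • y ∈ V.O ↔ y ∈ V.O)
    (hred : ∀ y : F, y ∈ V.O → V.redF (σ • y) = V.redF y) {f : F} {d : L} (hd : d ≠ 0)
    (hdA : d / SemilinearAut.baseAut σ d ∈ A)
    (hw : V.redF (algebraMap L F d * f) ≠ 0) :
    V.redF (σ • f * f⁻¹) = algebraMap k Fk (IsLocalRing.residue A ⟨_, hdA⟩) := by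
  set wF : F := algebraMap L F d * f with hwF
  have hwO : wF ∈ V.O := V.mem_of_redF_ne_zero hw
  have hw0 : wF ≠ 0 := by
    intro h0
    rw [h0, V.redF_zero] at hw
    exact hw rfl
  set d' : L := SemilinearAut.baseAut σ d with hd'
  have hd'0 : d' ≠ 0 := (map_ne_zero _).2 hd
  have hdF : algebraMap L F d ≠ 0 := (map_ne_zero _).2 hd
  have hd'F : algebraMap L F d' ≠ 0 := (map_ne_zero _).2 hd'0
  have hσd : σ • algebraMap L F d = algebraMap L F d' := SemilinearAut.smul_algebraMap σ d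
  have hf' : f = (algebraMap L F d)⁻¹ * wF := by
    rw [hwF, ← mul_assoc, inv_mul_cancel₀ hdF, one_mul]
  have hσf : σ • f = (algebraMap L F d')⁻¹ * σ • wF := by
    rw [hf', smul_mul', smul_inv'', hσd]
  have hσw0 : σ • wF ≠ 0 := by
    rw [SemilinearAut.smul_def]
    exact (map_ne_zero _).2 hw0
  have hf0 : f ≠ 0 := by
    intro h0
    rw [hwF, h0, mul_zero] at hw0
    exact hw0 rfl
  have hid : σ • f * f⁻¹ = algebraMap L F (((⟨d / d', hdA⟩ : A) : L)) * (σ • wF * wF⁻¹) := by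
    rw [hσf]
    conv_lhs => rw [hf']
    show _ = algebraMap L F (d / d') * _
    rw [map_div₀]
    field_simp
  have hσwO : σ • wF ∈ V.O := (hmem wF).2 hwO
  have hwinv : wF⁻¹ ∈ V.O := V.inv_mem_of_redF_ne_zero hw
  have hone : V.redF (σ • wF * wF⁻¹) = 1 := by
    rw [V.redF_mul hσwO hwinv, hred wF hwO, V.redF_inv hw, mul_inv_cancel₀ hw]
  rw [hid, V.redF_smul _ (V.O.mul_mem _ _ hσwO hwinv), hone, Algebra.smul_def, mul_one]

variable {F₁ F₂ : Type*} [Field F₁] [Field F₂]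
variable [Algebra (IsLocalRing.ResidueField A) F₁] [Algebra (IsLocalRing.ResidueField A) F₂]
variable {D : NodalDatum A F F₁ F₂} {g g₁ g₂ : ℕ}

/-- constants lie in `L(0)` -/
theorem algebraMap_mem_rr_zero (κ : L) :
    algebraMap L F κ ∈ riemannRochSpace (0 : Divisor L F) := by
  have h1 : (1 : F) ∈ riemannRochSpace (0 : Divisor L F) :=
    S18lib.Cech.one_mem_rr fun P => by simp
  have := Submodule.smul_mem _ κ h1
  rwa [Algebra.smul_def, mul_one] at this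

/-- **the glue**: a function `w` with `wⁿ · (σ u₀ / u₀)` constant which reduces to constants on both
components reduces to THE SAME constant on both. -/
theorem residue_eq_of_pow_mul_eq_const (C : NodalCtx D g g₁ g₂) {σ : SemilinearAut L F}
    (hσ : D.IsInertial σ) {n : ℕ} (hn : 0 < n) {u₀ : F} (hu₀ : IsKummerUnit D n u₀) {w : F}
    {κ : L} (hw : w ^ n * (σ • u₀ * u₀⁻¹) = algebraMap L F κ) {r₁ r₂ : k}
    (hw₁ : w ∈ D.V₁.O) (hw₂ : w ∈ D.V₂.O)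
    (hr₁ : D.V₁.redF w = algebraMap k F₁ r₁) (hr₂ : D.V₂.redF w = algebraMap k F₂ r₂) :
    r₁ = r₂ := by
  obtain ⟨Hsub, -⟩ := C.twist_eq_one hσ hn hu₀
  have hK : w ∈ D.KLat n (σ • u₀ * u₀⁻¹) ((0 : ℕ) : ℤ) ((0 : ℕ) : ℤ) := by
    refine ⟨NodalDatum.mem_O.2 ⟨hw₁, hw₂⟩, ?_⟩
    rw [hw]
    have e : (n : ℤ) • D.chartDiv ((0 : ℕ) : ℤ) ((0 : ℕ) : ℤ) = 0 := by
      unfold NodalDatum.chartDiv
      simp
    rw [e]
    exact algebraMap_mem_rr_zero κ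
  have hmem := Hsub 0 0 w hK
  obtain ⟨c₀⟩ : Nonempty (Fin D.s) := ⟨⟨0, C.s_pos⟩⟩
  have h3 := ((Core.gluedAt_iff C.hF₁.deg_eq_one C.hF₂.deg_eq_one c₀ _ _).1 (hmem.2.2 c₀)).2.2
  have e1 : (D.redF w).1 = D.V₁.redF w := rfl
  have e2 : (D.redF w).2 = D.V₂.redF w := rfl
  rw [e1, e2, hr₁, hr₂, Core.valAt_algebraMap, Core.valAt_algebraMap, Pi.one_apply, one_mul] at h3
  exact h3.symm

/-- a function whose `n`-th power is a unit of a valuation ring is a unit -/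
theorem redF_ne_zero_of_pow {Fk : Type*} [Field Fk] [Algebra k Fk] (V : S18lib.GaussDatum A F Fk)
    {n : ℕ} (hn : 0 < n) {y : F} (h : V.redF (y ^ n) ≠ 0) : V.redF y ≠ 0 := by
  have hy0 : y ≠ 0 := by
    rintro rfl
    rw [zero_pow hn.ne', V.redF_zero] at h
    exact h rfl
  have hyn : y ^ n ∈ V.O := V.mem_of_redF_ne_zero h
  have hyni : (y ^ n)⁻¹ ∈ V.O := V.inv_mem_of_redF_ne_zero h
  -- `y ∈ O` or `y⁻¹ ∈ O`
  have key : y ∈ V.O ∧ y⁻¹ ∈ V.O := by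
    obtain ⟨m, rfl⟩ : ∃ m, n = m + 1 := ⟨n - 1, by omega⟩
    rcases V.O.mem_or_inv_mem y with hy | hy
    · refine ⟨hy, ?_⟩
      have e : y⁻¹ = y ^ m * (y ^ (m + 1))⁻¹ := by
        rw [pow_succ, mul_inv, ← mul_assoc, mul_inv_cancel₀ (pow_ne_zero m hy0), one_mul]
      rw [e]
      exact V.O.mul_mem _ _ (V.O.pow_mem hy m) hyni
    · refine ⟨?_, hy⟩
      have e : y = y⁻¹ ^ m * y ^ (m + 1) := by
        rw [pow_succ, ← mul_assoc, inv_pow, inv_mul_cancel₀ (pow_ne_zero m hy0), one_mul]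
      rw [e]
      exact V.O.mul_mem _ _ (V.O.pow_mem hy m) hyn
  intro h0
  have h1 : V.redF (y * y⁻¹) = 1 := by rw [mul_inv_cancel₀ hy0, V.redF_one]
  rw [V.redF_mul key.1 key.2, h0, zero_mul] at h1
  exact zero_ne_one h1

/-- the units `d f₁`, `d = ϖ^{-w}` -/
theorem redF_root_mul_ne_zero {Fk : Type*} [Field Fk] [Algebra k Fk] (V : S18lib.GaussDatum A F Fk)
    {n : ℕ} (hn : 0 < n) {u₀ f₁ : F} {π ϖ : L} (hϖ : ϖ ^ n = π) (wi : ℤ)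
    (hV0 : V.redF u₀ ≠ 0) (hV : V.redF (u₀ * f₁ ^ n * algebraMap L F π ^ (-wi)) ≠ 0) :
    V.redF (algebraMap L F (ϖ ^ (-wi)) * f₁) ≠ 0 := by
  apply redF_ne_zero_of_pow V hn
  have hu0 : u₀ ≠ 0 := by
    rintro rfl
    rw [V.redF_zero] at hV0
    exact hV0 rfl
  have e : (algebraMap L F (ϖ ^ (-wi)) * f₁) ^ n =
      u₀⁻¹ * (u₀ * f₁ ^ n * algebraMap L F π ^ (-wi)) := by
    rw [mul_pow, ← map_pow, ← zpow_natCast (ϖ ^ (-wi)) n, ← zpow_mul, mul_comm (-wi) (n : ℤ),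
      zpow_mul, zpow_natCast, hϖ, map_zpow₀]
    field_simp
  rw [e, V.redF_mul (V.inv_mem_of_redF_ne_zero hV0) (V.mem_of_redF_ne_zero hV), V.redF_inv hV0]
  exact mul_ne_zero (inv_ne_zero hV0) hV

/-- **(D1), abstract form.**  `u = u₀ · f₁ⁿ` with `u₀` a Kummer unit is fixed by the inertial `σ`;
`ϖⁿ = π`; `u · π^{-w₁}` is a `V₁`-unit and `u · π^{-w₂}` is a `V₂`-unit.  Then
`ζ^(w₁ - w₂) ≡ 1` modulo the maximal ideal of `A`, `ζ = σ ϖ / ϖ`. -/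
theorem zpow_sub_one_mem_nonunits (C : NodalCtx D g g₁ g₂) {σ : SemilinearAut L F}
    (hσ : D.IsInertial σ) {n : ℕ} (hn : 0 < n) {u₀ f₁ : F} (hu₀ : IsKummerUnit D n u₀)
    (hf₁ : f₁ ≠ 0) (hfix : σ • (u₀ * f₁ ^ n) = u₀ * f₁ ^ n)
    {π ϖ : L} (hϖ : ϖ ^ n = π) (hπ0 : π ≠ 0) {w₁ w₂ : ℤ}
    (h₁ : D.V₁.redF (u₀ * f₁ ^ n * algebraMap L F π ^ (-w₁)) ≠ 0)
    (h₂ : D.V₂.redF (u₀ * f₁ ^ n * algebraMap L F π ^ (-w₂)) ≠ 0) :
    (SemilinearAut.baseAut σ ϖ / ϖ) ^ (w₁ - w₂) - 1 ∈ A.nonunits := by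
  have hϖ0 : ϖ ≠ 0 := by
    rintro rfl
    rw [zero_pow hn.ne'] at hϖ
    exact hπ0 hϖ.symm
  set ϖ' : L := SemilinearAut.baseAut σ ϖ with hϖ'
  have hϖ'0 : ϖ' ≠ 0 := (map_ne_zero _).2 hϖ0
  set ζ : L := ϖ' / ϖ with hζ
  have hζ0 : ζ ≠ 0 := div_ne_zero hϖ'0 hϖ0
  have hu00 : u₀ ≠ 0 := hu₀.ne_zero
  obtain ⟨b₁, hb₁0, hb₁⟩ := hu₀.red₁
  obtain ⟨b₂, hb₂0, hb₂⟩ := hu₀.red₂
  have hu₀1 : D.V₁.redF u₀ ≠ 0 := by
    rw [hb₁]; exact (map_ne_zero _).2 hb₁0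
  have hu₀2 : D.V₂.redF u₀ ≠ 0 := by
    rw [hb₂]; exact (map_ne_zero _).2 hb₂0
  -- `ζ` is a unit of `A`, and so are its integral powers
  have hζA : ∀ m : ℤ, ζ ^ m ∈ A := by
    intro m
    have h := hσ.base_div_mem (ϖ ^ m) (zpow_ne_zero m hϖ0)
    rwa [map_zpow₀, ← div_zpow] at h
  -- the section `w = σ f₁ / f₁`
  set w : F := σ • f₁ * f₁⁻¹ with hw
  have hσf0 : σ • f₁ ≠ 0 := by
    rw [SemilinearAut.smul_def]
    exact (map_ne_zero _).2 hf₁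
  have hσu0 : σ • u₀ ≠ 0 := by
    rw [SemilinearAut.smul_def]
    exact (map_ne_zero _).2 hu00
  have hwpow : w ^ n * (σ • u₀ * u₀⁻¹) = algebraMap L F 1 := by
    rw [map_one, hw, mul_pow, inv_pow]
    have e : σ • u₀ * (σ • f₁) ^ n = u₀ * f₁ ^ n := by
      rw [← hfix, smul_mul', smul_pow']
    have hfn : f₁ ^ n ≠ 0 := pow_ne_zero n hf₁
    calc (σ • f₁) ^ n * (f₁ ^ n)⁻¹ * (σ • u₀ * u₀⁻¹)
        = (σ • u₀ * (σ • f₁) ^ n) * ((f₁ ^ n)⁻¹ * u₀⁻¹) := by ring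
      _ = 1 := by
        rw [e]
        field_simp
  have hd : ∀ wi : ℤ, ϖ ^ (-wi) / SemilinearAut.baseAut σ (ϖ ^ (-wi)) = ζ ^ wi := by
    intro wi
    rw [map_zpow₀, ← hϖ', hζ, div_zpow, zpow_neg, zpow_neg]
    field_simp
  have hdA : ∀ wi : ℤ, ϖ ^ (-wi) / SemilinearAut.baseAut σ (ϖ ^ (-wi)) ∈ A := by
    intro wi
    rw [hd]
    exact hζA wi
  have r₁ := redF_smul_div_eq D.V₁ σ hσ.mem₁ hσ.red₁ (zpow_ne_zero (-w₁) hϖ0) (hdA w₁)
    (redF_root_mul_ne_zero D.V₁ hn hϖ w₁ hu₀1 h₁)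
  have r₂ := redF_smul_div_eq D.V₂ σ hσ.mem₂ hσ.red₂ (zpow_ne_zero (-w₂) hϖ0) (hdA w₂)
    (redF_root_mul_ne_zero D.V₂ hn hϖ w₂ hu₀2 h₂)
  have hres1 : IsLocalRing.residue A ⟨_, hdA w₁⟩ ≠ 0 := by
    intro h0
    have h1 : (⟨_, hdA w₁⟩ : A) * ⟨ζ ^ (-w₁), hζA (-w₁)⟩ = 1 := by
      apply Subtype.ext
      show ϖ ^ (-w₁) / SemilinearAut.baseAut σ (ϖ ^ (-w₁)) * ζ ^ (-w₁) = 1
      rw [hd, ← zpow_add₀ hζ0, add_neg_cancel, zpow_zero]
    have h2 := congrArg (IsLocalRing.residue A) h1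
    rw [map_mul, h0, zero_mul, map_one] at h2
    exact zero_ne_one h2
  have hres2 : IsLocalRing.residue A ⟨_, hdA w₂⟩ ≠ 0 := by
    intro h0
    have h1 : (⟨_, hdA w₂⟩ : A) * ⟨ζ ^ (-w₂), hζA (-w₂)⟩ = 1 := by
      apply Subtype.ext
      show ϖ ^ (-w₂) / SemilinearAut.baseAut σ (ϖ ^ (-w₂)) * ζ ^ (-w₂) = 1
      rw [hd, ← zpow_add₀ hζ0, add_neg_cancel, zpow_zero]
    have h2 := congrArg (IsLocalRing.residue A) h1
    rw [map_mul, h0, zero_mul, map_one] at h2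
    exact zero_ne_one h2
  have hwO₁ : w ∈ D.V₁.O := by
    apply D.V₁.mem_of_redF_ne_zero
    rw [r₁]
    exact (map_ne_zero _).2 hres1
  have hwO₂ : w ∈ D.V₂.O := by
    apply D.V₂.mem_of_redF_ne_zero
    rw [r₂]
    exact (map_ne_zero _).2 hres2
  have heq := residue_eq_of_pow_mul_eq_const C hσ hn hu₀ hwpow hwO₁ hwO₂ r₁ r₂
  -- `ζ^{w₁} - ζ^{w₂} ∈ 𝔪`
  have h4 : (⟨_, hdA w₁⟩ : A) - ⟨_, hdA w₂⟩ ∈ IsLocalRing.maximalIdeal A := by
    rw [← IsLocalRing.residue_eq_zero_iff, map_sub, heq, sub_self]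
  have h5 : ((⟨_, hdA w₁⟩ : A) - ⟨_, hdA w₂⟩) * ⟨ζ ^ (-w₂), hζA (-w₂)⟩ ∈
      IsLocalRing.maximalIdeal A := Ideal.mul_mem_right _ _ h4
  rw [← ValuationSubring.coe_mem_nonunits_iff] at h5
  have e : (((⟨_, hdA w₁⟩ : A) - ⟨_, hdA w₂⟩) * ⟨ζ ^ (-w₂), hζA (-w₂)⟩ : A) =
      (⟨ζ ^ (w₁ - w₂) - 1, sub_mem (hζA _) A.one_mem⟩ : A) := by
    apply Subtype.ext
    show (ϖ ^ (-w₁) / SemilinearAut.baseAut σ (ϖ ^ (-w₁)) -
      ϖ ^ (-w₂) / SemilinearAut.baseAut σ (ϖ ^ (-w₂))) * ζ ^ (-w₂) = ζ ^ (w₁ - w₂) - 1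
    rw [hd, hd, sub_mul, ← zpow_add₀ hζ0, ← zpow_add₀ hζ0, add_neg_cancel, zpow_zero, ← sub_eq_add_neg]
  rw [e] at h5
  exact h5

end Fermat.Agent.S59lib.LLsq
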