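/-
S59lib / LLsq / DescentArith  (helper4)  --  (D1), the arithmetic half and the modular instance

* `natCast_mem_nonunits_of_root` : `ξⁿ = 1`, `ξ ≠ 1`, `ξ ≡ 1` modulo the maximal ideal of a valuation
  ring `A`  ⟹  `n` is a non-unit of `A`;
* `dvd_of_zpow_sub_one_mem_nonunits` : `ζ` of exact prime order `n`, `n` a unit of `A`,
  `ζ^δ ≡ 1`  ⟹  `n ∣ δ`;
* `exists_inertia_moving_root` : `A ∣ q`, `ϖⁿ = q`, `n ≥ 2`  ⟹  some `σ` of the inertia group of `A`
  moves `ϖ` (the inertia field is unramified, `Desc.exists_zpow_mul_unit`);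
* **`dvd_sub_orders`** : modular level `M q` (`q ≥ 5`), `n ≠ q` prime, `u₀` a Kummer unit of
  `Kap.modNod`, `u = u₀ f₁ⁿ` fixed by the inertia group; if `u q^{-w₁}` is a unit of `v₁₀` and
  `u q^{-w₂}` a unit of `v₀₁` then `n ∣ w₁ - w₂`.
-/
import Fermat.Agent.S59lib.LLsq.Descent
import Fermat.Agent.S44lib.Kap.ModInst
import Fermat.Agent.S36lib.Desc.Kfix
import Fermat.Agent.S36lib.Desc2.SpeiserBar
import Fermat.Agent.S36lib.J.Val

set_option autoImplicit false
set_option linter.unusedSectionVars false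

noncomputable section

namespace Fermat.Agent.S59lib.LLsq

open AlgebraicCurve ModularCurve Fermat.Agent.S18lib Fermat.Agent.LSb Fermat.Agent.S37lib
open Fermat.Agent.S29lib.GH Fermat.Agent.S44lib Fermat.Agent.S36lib.Desc

local notation "Qb" => AlgebraicClosure ℚ
local notation "GQ" => (AlgebraicClosure ℚ ≃ₐ[ℚ] AlgebraicClosure ℚ)

section Roots

variable {L : Type*} [Field L] (A : ValuationSubring L)

/-- a non-trivial `n`-th root of unity congruent to `1` forces `n` to be a non-unit -/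
theorem natCast_mem_nonunits_of_root {n : ℕ} {ξ : L} (hξn : ξ ^ n = 1) (hξ1 : ξ ≠ 1)
    (hξ : ξ - 1 ∈ A.nonunits) : (n : L) ∈ A.nonunits := by
  have hξA : ξ ∈ A := by
    have h1 : ξ - 1 ∈ A := A.nonunits_subset hξ
    have := A.add_mem _ _ h1 A.one_mem
    rwa [sub_add_cancel] at this
  -- the geometric sum vanishes
  have hsum : ∑ i ∈ Finset.range n, ξ ^ i = 0 := by
    have h := geom_sum_mul ξ n
    rw [hξn, sub_self] at h
    exact (mul_eq_zero.1 h).resolve_right (sub_ne_zero.2 hξ1)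
  -- in the residue field
  have hres : IsLocalRing.residue A ⟨ξ, hξA⟩ = 1 := by
    have h1 : (⟨ξ, hξA⟩ : A) - 1 ∈ IsLocalRing.maximalIdeal A := by
      rw [← ValuationSubring.coe_mem_nonunits_iff]
      exact hξ
    rw [← IsLocalRing.residue_eq_zero_iff, map_sub, map_one, sub_eq_zero] at h1
    exact h1
  have hsumA : ∑ i ∈ Finset.range n, (⟨ξ, hξA⟩ : A) ^ i = 0 := by
    apply Subtype.ext
    rw [ZeroMemClass.coe_zero, ← hsum]
    push_cast
    rfl
  have h2 := congrArg (IsLocalRing.residue A) hsumA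
  rw [map_sum, map_zero] at h2
  simp only [map_pow, hres, one_pow, Finset.sum_const, Finset.card_range, nsmul_eq_mul,
    mul_one] at h2
  have h3 : IsLocalRing.residue A (n : A) = 0 := by rw [map_natCast]; exact h2
  rw [IsLocalRing.residue_eq_zero_iff, ← ValuationSubring.coe_mem_nonunits_iff] at h3
  simpa using h3

/-- **the tame character has exact order `n`.** -/
theorem dvd_of_zpow_sub_one_mem_nonunits {n : ℕ} (hn : n.Prime) (hnA : (n : L) ∉ A.nonunits)
    {ζ : L} (hζn : ζ ^ n = 1) (hζ1 : ζ ≠ 1) {δ : ℤ} (h : ζ ^ δ - 1 ∈ A.nonunits) :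
    (n : ℤ) ∣ δ := by
  have hζ0 : ζ ≠ 0 := by
    rintro rfl
    rw [zero_pow hn.ne_zero] at hζn
    exact zero_ne_one hζn
  set z : Lˣ := Units.mk0 ζ hζ0 with hz
  have hzn : z ^ n = 1 := by
    apply Units.ext
    rw [Units.val_pow_eq_pow_val, Units.val_mk0, hζn, Units.val_one]
  have hz1 : z ≠ 1 := by
    intro h1
    apply hζ1
    have := congrArg Units.val h1
    rwa [Units.val_mk0, Units.val_one] at this
  haveI : Fact n.Prime := ⟨hn⟩
  have hord : orderOf z = n := orderOf_eq_prime hzn hz1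
  rw [← hord, orderOf_dvd_iff_zpow_eq_one]
  by_contra hne
  have hξ1 : ζ ^ δ ≠ 1 := by
    intro h1
    apply hne
    apply Units.ext
    rw [Units.val_zpow_eq_zpow_val, Units.val_mk0, h1, Units.val_one]
  have hξn : (ζ ^ δ) ^ n = 1 := by
    rw [← zpow_natCast, ← zpow_mul, mul_comm, zpow_mul, zpow_natCast, hζn, one_zpow]
  exact hnA (natCast_mem_nonunits_of_root A hξn hξ1 h)

end Roots

section Inertia

variable {A : ValuationSubring Qb} {q : ℕ}

/-- **the inertia group moves the `n`-th roots of `q`.** -/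
theorem exists_inertia_moving_root (hq : q.Prime) (hA : A.LiesOverPrime q) {n : ℕ} (hn : 2 ≤ n)
    {ϖ : Qb} (hϖ : ϖ ^ n = (q : Qb)) : ∃ σ ∈ A.inertiaSubgroupIn ℚ, σ ϖ ≠ ϖ := by
  by_contra hcon
  push Not at hcon
  have hq0 : (q : Qb) ≠ 0 := by exact_mod_cast hq.ne_zero
  have hϖ0 : ϖ ≠ 0 := by
    rintro rfl
    rw [zero_pow (by omega)] at hϖ
    exact hq0 hϖ.symm
  obtain ⟨m, hm⟩ := exists_zpow_mul_unit A hq hA hϖ0 hcon
  have hv1 : A.valuation (q : Qb) < 1 := valuation_q_lt_one hA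
  -- `v(q) ^ (1 + m n) = 1`
  have e1 : A.valuation (q : Qb) = A.valuation ϖ ^ n := by rw [← map_pow, hϖ]
  have h1 : A.valuation (q : Qb) ^ ((1 : ℤ) + m * n) = A.valuation (q : Qb) ^ (0 : ℤ) := by
    calc A.valuation (q : Qb) ^ ((1 : ℤ) + m * n)
        = A.valuation (q : Qb) * (A.valuation (q : Qb) ^ m) ^ n := by
          rw [zpow_add₀ (valuation_q_ne_zero hq), zpow_one, zpow_mul, zpow_natCast]
      _ = A.valuation ϖ ^ n * (A.valuation (q : Qb) ^ m) ^ n := by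
          nth_rewrite 1 [e1]; rfl
      _ = (A.valuation ϖ * A.valuation (q : Qb) ^ m) ^ n := (mul_pow _ _ _).symm
      _ = 1 := by rw [← map_zpow₀, ← map_mul, hm, one_pow]
      _ = A.valuation (q : Qb) ^ (0 : ℤ) := (zpow_zero _).symm
  have h2 := Fermat.Agent.S36lib.J.zpow_valuation_injective A hq0 hv1 h1
  -- `n ∣ 1`
  have h3 : (n : ℤ) ∣ 1 := ⟨-m, by linarith⟩
  have h4 : n ∣ 1 := by exact_mod_cast h3
  have := Nat.le_of_dvd one_pos h4
  omega

end Inertia

section Modular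

variable {M q : ℕ} [NeZero M] [NeZero q] [hq : Fact q.Prime] {A : ValuationSubring Qb}
variable (hqM : ¬ q ∣ M) (hA : A.LiesOverPrime q) (h5 : 5 ≤ q)

include h5 in
/-- **(D1) for the modular curve of level `M q`.** -/
theorem dvd_sub_orders {n : ℕ} (hn : n.Prime) (hqn : ¬ q ∣ n) {u₀ f₁ : FBar (M * q)}
    (hu₀ : IsKummerUnit (Kap.modNod hqM hA) n u₀) (hf₁ : f₁ ≠ 0)
    (hfix : ∀ σ ∈ A.inertiaSubgroupIn ℚ, galAutBar (M * q) σ • (u₀ * f₁ ^ n) = u₀ * f₁ ^ n)
    {w₁ w₂ : ℤ}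
    (h₁ : (Kap.modNod hqM hA).V₁.redF
      (u₀ * f₁ ^ n * algebraMap Qb (FBar (M * q)) (q : Qb) ^ (-w₁)) ≠ 0)
    (h₂ : (Kap.modNod hqM hA).V₂.redF
      (u₀ * f₁ ^ n * algebraMap Qb (FBar (M * q)) (q : Qb) ^ (-w₂)) ≠ 0) :
    (n : ℤ) ∣ w₁ - w₂ := by
  have hq0 : (q : Qb) ≠ 0 := by exact_mod_cast hq.out.ne_zero
  obtain ⟨ϖ, hϖ⟩ := IsAlgClosed.exists_pow_nat_eq (q : Qb) hn.pos
  obtain ⟨σ, hσ, hσϖ⟩ := exists_inertia_moving_root hq.out hA hn.two_le hϖ
  have hϖ0 : ϖ ≠ 0 := by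
    rintro rfl
    rw [zero_pow hn.ne_zero] at hϖ
    exact hq0 hϖ.symm
  have hin := Kap.modInertial hqM hA h5 σ hσ
  have key := zpow_sub_one_mem_nonunits (Kap.modCtx hqM hA h5) hin hn.pos hu₀ hf₁ (hfix σ hσ)
    hϖ hq0 h₁ h₂
  have hb : SemilinearAut.baseAut (galAutBar (M * q) σ) ϖ = σ ϖ := rfl
  rw [hb] at key
  -- `n` is a unit of `A`
  have hnA : (n : Qb) ∉ A.nonunits := by
    intro h
    have hn0 : IsLocalRing.residue A (n : A) = 0 := by
      rw [IsLocalRing.residue_eq_zero_iff, ← ValuationSubring.coe_mem_nonunits_iff]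
      simpa using h
    rw [map_natCast] at hn0
    have := Old.charP_kRes hA
    exact hqn ((CharP.cast_eq_zero_iff (IsLocalRing.ResidueField A) q n).1 hn0)
  refine dvd_of_zpow_sub_one_mem_nonunits A hn hnA ?_ ?_ key
  · rw [div_pow, ← map_pow, hϖ, map_natCast, div_self hq0]
  · intro h1
    apply hσϖ
    rw [div_eq_one_iff_eq hϖ0] at h1
    exact h1

end Modular

end Fermat.Agent.S59lib.LLsq
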