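/-
S59lib / LLsq / ChartPull  (helper4)  --  Kummer functions and chart families under pullback

`H ≤ G_ℚ`, `fixF N H ⊆ FB N` (helper1/helper3's fixed fields, `S36lib/Fin/ChartFam`).

* `isKumFn_of_dvd_ord`, `IsKumFn.dvd_ord` : `IsKumFn H n z ↔ z ≠ 0 ∧ n ∣ ord_v z` for all places `v`;
* `isKumFn_map` : a homomorphism of fixed fields covered by a homomorphism of the function fields
  over `ℚ̄` (constants to constants) maps Kummer functions to Kummer functions
  (`S29lib.D.dvd_ord_map`); `isKumFn_alphaFix`, `isKumFn_betaFix`;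
* `exists_mem_chartE_of_regAway` : if `gⁿ · z` is regular off the poles of `y` then `g` lies in the
  Kummer chart space `chartE H (y)_∞ P₂ n z a 0 = L(div(z)/n + a (y)_∞)` for some `a`.
-/
import Fermat.Agent.S36lib.Fin.CuspInst
import Fermat.Agent.S36lib.Eis.DegRegular

set_option autoImplicit false
set_option linter.unusedSectionVars false

noncomputable section

namespace Fermat.Agent.S59lib.LLsq

open AlgebraicCurve ModularCurve Module
open Fermat.Agent.S29lib Fermat.Agent.S29lib.GH Fermat.Agent.S18lib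
open Fermat.Agent.S37lib.HeckeInst
open Fermat.Agent.S36lib.Desc2 Fermat.Agent.S36lib.Fin
open Fermat.Agent.LSb.Unit (regAway)
open Fermat.Agent.LSb.Core (lin2 lin2_apply)

local notation "Qb" => AlgebraicClosure ℚ
local notation "GQ" => (AlgebraicClosure ℚ ≃ₐ[ℚ] AlgebraicClosure ℚ)

variable {N N' : ℕ} [NeZero N] [NeZero N'] {H : Subgroup GQ}

/-- a non-zero function all of whose orders are divisible by `n` is a Kummer function -/
theorem isKumFn_of_dvd_ord {n : ℕ} {z : fixF N H} (hz : z ≠ 0)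
    (h : ∀ v : Place Qb (FB N), (n : ℤ) ∣ v.ord (z : FB N)) : IsKumFn H n z :=
  ⟨hz, kumDiv N n (z : FB N), fun v => by
    rw [kumDiv_apply]
    exact Int.mul_ediv_cancel' (h v)⟩

theorem IsKumFn.dvd_ord {n : ℕ} {z : fixF N H} (hz : IsKumFn H n z) (v : Place Qb (FB N)) :
    (n : ℤ) ∣ v.ord (z : FB N) := by
  obtain ⟨E, hE⟩ := hz.2
  exact ⟨E v, (hE v).symm⟩

/-- **Kummer functions are preserved by homomorphisms of function fields.** -/
theorem isKumFn_map (Φ : FB N →+* FB N')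
    (hΦ : ∀ a : Qb, ∃ b : Qb, Φ (algebraMap Qb (FB N) a) = algebraMap Qb (FB N') b)
    (ψ : fixF N H →+* fixF N' H) (hψ : ∀ x : fixF N H, ((ψ x : fixF N' H) : FB N') = Φ (x : FB N))
    {n : ℕ} {u : fixF N H} (hu : IsKumFn H n u) : IsKumFn H n (ψ u) := by
  refine isKumFn_of_dvd_ord ((map_ne_zero ψ).2 hu.1) fun v => ?_
  rw [hψ]
  exact D.dvd_ord_map Φ hΦ (fun P => IsKumFn.dvd_ord hu P) v

section Degeneracy

variable (M q : ℕ) [NeZero M] [NeZero q] [Fact q.Prime] (H)
variable [NeZero (M * q)] [NeZero (M * q * q)]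

/-- `α^*` preserves Kummer functions -/
theorem isKumFn_alphaFix {n : ℕ} {u : fixF (M * q) H} (hu : IsKumFn H n u) :
    IsKumFn H n (Fermat.Agent.S36lib.Norm.alphaFix M q H u) :=
  isKumFn_map (heckeAlphaBar Qb (M * q) q : FB (M * q) →+* FB (M * q * q))
    (fun a => ⟨a, (heckeAlphaBar Qb (M * q) q).commutes a⟩) _
    (fun x => Fermat.Agent.S36lib.Norm.coe_alphaFix M q H x) hu

/-- `β^*` preserves Kummer functions -/
theorem isKumFn_betaFix {n : ℕ} {u : fixF (M * q) H} (hu : IsKumFn H n u) :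
    IsKumFn H n (Fermat.Agent.S36lib.Norm.betaFix M q H u) :=
  isKumFn_map (heckeBetaBar Qb (M * q) q : FB (M * q) →+* FB (M * q * q))
    (fun a => ⟨a, (heckeBetaBar Qb (M * q) q).commutes a⟩) _
    (fun x => Fermat.Agent.S36lib.Norm.coe_betaFix M q H x) hu

end Degeneracy

/-- **sections of a Kummer family from regularity off the poles of `y`.** -/
theorem exists_mem_chartE_of_regAway (y : FB N) (P₂ : Divisor Qb (FB N)) {n : ℕ} (hn : n ≠ 0)
    {z : fixF N H} (hz : IsKumFn H n z) (g : fixF N H)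
    (hg : ((g ^ n * z : fixF N H) : FB N) ∈ regAway Qb y) :
    haveI := hasPrincipalDivisors_FB N
    ∃ a : ℕ, g ∈ chartE H (polesOf (K := Qb) y) P₂ n z a 0 := by
  have := hasPrincipalDivisors_FB N
  obtain ⟨a, ha⟩ := exists_mem_chartL_of_regAway y P₂ (g ^ n * z) hg
  refine ⟨a, ?_⟩
  rw [mem_chartL, mem_riemannRochSpace_iff] at ha
  rw [mem_chartE, mem_riemannRochSpace_iff]
  intro v
  rcases eq_or_ne g 0 with rfl | hg0
  · exact Or.inl rfl
  right
  have hg0' : (g : FB N) ≠ 0 := fun h => hg0 (Subtype.ext h)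
  have hz0 : (z : FB N) ≠ 0 := hz.coe_ne_zero
  have hf0 : ((g ^ n * z : fixF N H) : FB N) ≠ 0 := by
    show ((g : FB N) ^ n * (z : FB N)) ≠ 0
    exact mul_ne_zero (pow_ne_zero n hg0') hz0
  have h1 := (ha v).resolve_left hf0
  have e : v.ord ((g ^ n * z : fixF N H) : FB N) =
      (n : ℤ) * (v.ord (g : FB N) + kumDiv N n (z : FB N) v) := by
    show v.ord ((g : FB N) ^ n * (z : FB N)) = _
    rw [v.ord_mul (pow_ne_zero n hg0') hz0, Cech.ord_pow, mul_add, hz.mul_kumDiv hn v]
  rw [e, lin2_apply, Nat.cast_zero, zero_mul, add_zero] at h1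
  rw [Finsupp.add_apply, lin2_apply, Nat.cast_zero, zero_mul, add_zero]
  have hP : 0 ≤ polesOf (K := Qb) y v := by
    have := polesOf_nonneg (K := Qb) y
    rw [Finsupp.le_def] at this
    exact this v
  have hnpos : (1 : ℤ) ≤ n := by exact_mod_cast Nat.one_le_iff_ne_zero.2 hn
  have ha0 : (0 : ℤ) ≤ a := Int.natCast_nonneg a
  set t : ℤ := v.ord (g : FB N) + kumDiv N n (z : FB N) v with ht
  have hmul : 0 ≤ (a : ℤ) * polesOf (K := Qb) y v := mul_nonneg ha0 hP
  rcases le_or_gt 0 t with h0 | h0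
  · linarith
  · have : (n : ℤ) * t ≤ t := by nlinarith
    linarith

end Fermat.Agent.S59lib.LLsq
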