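/-
S59lib / LLsq / CoreStep  (helper4)  --  the thick toric readout, comparison form (`core_step'`)

Setting: the abstract chain context `X : S36lib.J.ChainCtx D L g g₁ g₂ g₃ g₁' g₂' n q KS ND` of
`S36lib/J/Setup.lean` (function field `F` of level `M q²` with its thick datum, Kummer system `KS`).

For a Kummer tri-unit `z` with constant reductions the THICK TWIST `(lam, mu)` (`Thick.IsTwist`) is

* unique                                      (`twist_unique`),
* multiplicative in `z`                       (`twist_mul`, `twist_pow`),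
* of exponent `n` up to constants             (`twist_pow_n` : `lam c ^ n = b₂ / b₁`, `mu c ^ n = b₂ / b₃`),
* constrained by the two norms                (`twist_rel_alpha` : `mu ^ q = A lam` when `Nα z` is trivial,
                                               `twist_rel_beta`  : `mu = B lam ^ q` when `Nβ z` is trivial),

and it is a COMPLETE invariant modulo constants (`ThickCoreStatement` + `L(0) = K`):

* `isConstPow_of_twist_const` : a constant twist forces `z ∈ Kˣ · (Fˣ)ⁿ`;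
* `core_step'`                : two Kummer tri-units whose twists are proportional (by constants)
                                differ by an element of `Kˣ · (Fˣ)ⁿ`:  `z = c · yⁿ · z'`.

No power `q² - 1` is taken anywhere (compare `S36lib.J.ChainCtx.core_step`).
-/
import Fermat.Agent.S36lib.J.Chain

set_option autoImplicit false

noncomputable section

namespace Fermat.Agent.S59lib.LLsq

open AlgebraicCurve Module
open Fermat.Agent.S18lib Fermat.Agent.S36lib.Thick Fermat.Agent.S36lib.Norm Fermat.Agent.S36lib.J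
open Fermat.Agent.LSb (HasValueAt)

variable {K : Type*} [Field K] {R : ValuationSubring K}
variable {F : Type*} [Field F] [Algebra K F]
variable {F₁ F₂ F₃ : Type*} [Field F₁] [Field F₂] [Field F₃]
variable [Algebra (IsLocalRing.ResidueField R) F₁] [Algebra (IsLocalRing.ResidueField R) F₂]
variable [Algebra (IsLocalRing.ResidueField R) F₃]
variable {G : Type*} [Field G] [Algebra K G]
variable {G₁ G₂ : Type*} [Field G₁] [Field G₂]
variable [Algebra (IsLocalRing.ResidueField R) G₁] [Algebra (IsLocalRing.ResidueField R) G₂]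
variable {D : ThickDatum R F F₁ F₂ F₃} {L : LowDatum R G G₁ G₂}
variable {g g₁ g₂ g₃ g₁' g₂' n q : ℕ} {KS : KummerSystem D g n} {ND : NormData D L}

/-- a section normalised by `red₂ h = 1` reads off the twist -/
theorem twist_values {z : F} {E : KummerFamily D g n z}
    {lam mu : Fin D.s → IsLocalRing.ResidueField R} (htw : IsTwist D E lam mu) {a b : ℕ} {h : F}
    (hE : h ∈ E.𝓔 a b) (hO : h ∈ D.O) (hred : D.red₂ h = 1) (c : Fin D.s) :
    HasValueAt (D.x₁ c) (D.V₁.redF h) (lam c) ∧ HasValueAt (D.x₃ c) (D.V₃.redF h) (mu c) := by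
  obtain ⟨α, a1, a2, a3⟩ := htw a b h hE hO c
  rw [hred] at a2
  have hα1 : α = 1 := a2.unique Fermat.Agent.LSb.hasValueAt_one
  rw [hα1, mul_one] at a1 a3
  exact ⟨a1, a3⟩

/-- products of tri-units -/
theorem isTriUnit_mul {z z' : F} {b₁ b₂ b₃ b₁' b₂' b₃' : IsLocalRing.ResidueField R}
    (hz : IsTriUnit D z b₁ b₂ b₃) (hz' : IsTriUnit D z' b₁' b₂' b₃') :
    IsTriUnit D (z * z') (b₁ * b₁') (b₂ * b₂') (b₃ * b₃') := by
  obtain ⟨h1, h2, h3⟩ := ThickDatum.mem_O.1 (isTriUnit_mem_O hz)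
  obtain ⟨h1', h2', h3'⟩ := ThickDatum.mem_O.1 (isTriUnit_mem_O hz')
  refine ⟨mul_ne_zero hz.b₁_ne hz'.b₁_ne, mul_ne_zero hz.b₂_ne hz'.b₂_ne,
    mul_ne_zero hz.b₃_ne hz'.b₃_ne, ?_, ?_, ?_⟩
  · rw [D.V₁.redF_mul h1 h1', hz.red₁, hz'.red₁, map_mul]
  · rw [red₂_eq, (P₂ D).redF_mul h2 h2', ← red₂_eq, ← red₂_eq, hz.red₂, hz'.red₂, map_mul]
  · rw [D.V₃.redF_mul h3 h3', hz.red₃, hz'.red₃, map_mul]

/-- powers of tri-units -/
theorem isTriUnit_pow {z : F} {b₁ b₂ b₃ : IsLocalRing.ResidueField R}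
    (hz : IsTriUnit D z b₁ b₂ b₃) (m : ℕ) : IsTriUnit D (z ^ m) (b₁ ^ m) (b₂ ^ m) (b₃ ^ m) := by
  obtain ⟨h1, h2, h3⟩ := ThickDatum.mem_O.1 (isTriUnit_mem_O hz)
  refine ⟨pow_ne_zero _ hz.b₁_ne, pow_ne_zero _ hz.b₂_ne, pow_ne_zero _ hz.b₃_ne, ?_, ?_, ?_⟩
  · rw [D.V₁.redF_pow h1, hz.red₁, map_pow]
  · rw [red₂_eq, (P₂ D).redF_pow h2, ← red₂_eq, hz.red₂, map_pow]
  · rw [D.V₃.redF_pow h3, hz.red₃, map_pow]

section Ctx

variable (X : ChainCtx D L g g₁ g₂ g₃ g₁' g₂' n q KS ND)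

include X

/-- **Uniqueness of the twist.** -/
theorem twist_unique {z : F} (hzK : KS.IsKum z) {b₁ b₂ b₃ : IsLocalRing.ResidueField R}
    (hz : IsTriUnit D z b₁ b₂ b₃) {lam mu lam' mu' : Fin D.s → IsLocalRing.ResidueField R}
    (h : IsTwist D (KS.fam z hzK) lam mu) (h' : IsTwist D (KS.fam z hzK) lam' mu') :
    lam = lam' ∧ mu = mu' := by
  obtain ⟨m₀, hm₀⟩ := X.nondeg n X.hn z (KS.fam z hzK) b₁ b₂ b₃ hz
  obtain ⟨f, hE, hO, hred⟩ := hm₀ m₀ 0 (Or.inl le_rfl)
  refine ⟨funext fun c => ?_, funext fun c => ?_⟩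
  · exact (twist_values h hE hO hred c).1.unique (twist_values h' hE hO hred c).1
  · exact (twist_values h hE hO hred c).2.unique (twist_values h' hE hO hred c).2

/-- **The twist is of exponent `n` modulo constants.** -/
theorem twist_pow_n {z : F} (hzK : KS.IsKum z) {b₁ b₂ b₃ : IsLocalRing.ResidueField R}
    (hz : IsTriUnit D z b₁ b₂ b₃) {lam mu : Fin D.s → IsLocalRing.ResidueField R}
    (htw : IsTwist D (KS.fam z hzK) lam mu) (c : Fin D.s) :
    lam c ^ n = b₂ / b₁ ∧ mu c ^ n = b₂ / b₃ := by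
  have hnpos := X.n_pos
  obtain ⟨hzO₁, hzO₂, hzO₃⟩ := ThickDatum.mem_O.1 (isTriUnit_mem_O hz)
  obtain ⟨m₀, hm₀⟩ := X.nondeg n X.hn z (KS.fam z hzK) b₁ b₂ b₃ hz
  obtain ⟨f, hE, hO, hred⟩ := hm₀ m₀ 0 (Or.inl le_rfl)
  obtain ⟨hO₁, hO₂, hO₃⟩ := ThickDatum.mem_O.1 hO
  obtain ⟨v1, v3⟩ := twist_values htw hE hO hred c
  have hchart : f ^ n * z ∈ D.𝓛 (m₀ + (n - 1) * m₀) (0 + (n - 1) * 0) := by
    have := (KS.fam z hzK).mixed_mem hE hE
    rwa [← pow_succ', Nat.sub_add_cancel hnpos] at this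
  have hfO : f ^ n * z ∈ D.O := D.O.mul_mem (D.O.pow_mem hO n) (isTriUnit_mem_O hz)
  obtain ⟨α, g1, g2, g3⟩ := X.thick.glue _ _ _ hchart hfO c
  have r1 : D.V₁.redF (f ^ n * z) = D.V₁.redF f ^ n * algebraMap _ F₁ b₁ := by
    rw [D.V₁.redF_mul (D.V₁.O.pow_mem hO₁ n) hzO₁, D.V₁.redF_pow hO₁, hz.red₁]
  have r2 : D.red₂ (f ^ n * z) = algebraMap _ F₂ b₂ := by
    rw [red₂_eq, (P₂ D).redF_mul ((P₂ D).O.pow_mem hO₂ n) hzO₂, (P₂ D).redF_pow hO₂, ← red₂_eq,
      ← red₂_eq, hred, one_pow, one_mul, hz.red₂]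
  have r3 : D.V₃.redF (f ^ n * z) = D.V₃.redF f ^ n * algebraMap _ F₃ b₃ := by
    rw [D.V₃.redF_mul (D.V₃.O.pow_mem hO₃ n) hzO₃, D.V₃.redF_pow hO₃, hz.red₃]
  rw [r1] at g1
  rw [r2] at g2
  rw [r3] at g3
  have e2 : α = b₂ := g2.unique (Fermat.Agent.LSb.hasValueAt_const b₂)
  have e1 : lam c ^ n * b₁ = α :=
    ((v1.pow n).mul (Fermat.Agent.LSb.hasValueAt_const b₁)).unique g1
  have e3 : mu c ^ n * b₃ = α :=
    ((v3.pow n).mul (Fermat.Agent.LSb.hasValueAt_const b₃)).unique g3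
  refine ⟨?_, ?_⟩
  · rw [eq_div_iff hz.b₁_ne, e1, e2]
  · rw [eq_div_iff hz.b₃_ne, e3, e2]

/-- **Multiplicativity of the twist.** -/
theorem twist_mul {z z' : F} (hzK : KS.IsKum z) (hz'K : KS.IsKum z')
    {b₁ b₂ b₃ b₁' b₂' b₃' : IsLocalRing.ResidueField R}
    (hz : IsTriUnit D z b₁ b₂ b₃) (hz' : IsTriUnit D z' b₁' b₂' b₃')
    {lam mu lam' mu' : Fin D.s → IsLocalRing.ResidueField R}
    (htw : IsTwist D (KS.fam z hzK) lam mu) (htw' : IsTwist D (KS.fam z' hz'K) lam' mu') :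
    IsTwist D (KS.fam (z * z') (KS.mul z z' hzK hz'K)) (fun c => lam c * lam' c)
      (fun c => mu c * mu' c) := by
  have hzz' := isTriUnit_mul hz hz'
  have hK := KS.mul z z' hzK hz'K
  obtain ⟨l, m, -, -, hlm⟩ := X.twist n X.hn (z * z') (KS.fam _ hK) _ _ _ hzz'
  obtain ⟨m₀, hm₀⟩ := X.nondeg n X.hn z (KS.fam z hzK) b₁ b₂ b₃ hz
  obtain ⟨f, hE, hO, hred⟩ := hm₀ m₀ 0 (Or.inl le_rfl)
  obtain ⟨m₀', hm₀'⟩ := X.nondeg n X.hn z' (KS.fam z' hz'K) b₁' b₂' b₃' hz'
  obtain ⟨f', hE', hO', hred'⟩ := hm₀' m₀' 0 (Or.inl le_rfl)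
  obtain ⟨hO₁, hO₂, hO₃⟩ := ThickDatum.mem_O.1 hO
  obtain ⟨hO₁', hO₂', hO₃'⟩ := ThickDatum.mem_O.1 hO'
  have hffE : f * f' ∈ (KS.fam _ hK).𝓔 (m₀ + m₀') (0 + 0) := by
    rw [KS.fam_𝓔]
    refine KS.𝓔_mul z z' hzK hz'K _ _ _ _ _ _ ?_ ?_
    · rw [← KS.fam_𝓔 z hzK]; exact hE
    · rw [← KS.fam_𝓔 z' hz'K]; exact hE'
  have hffO : f * f' ∈ D.O := D.O.mul_mem hO hO'
  have hffred : D.red₂ (f * f') = 1 := by
    rw [red₂_eq, (P₂ D).redF_mul hO₂ hO₂', ← red₂_eq, ← red₂_eq, hred, hred', one_mul]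
  have hl : l = fun c => lam c * lam' c := funext fun c => by
    have v := (twist_values hlm hffE hffO hffred c).1
    rw [D.V₁.redF_mul hO₁ hO₁'] at v
    exact v.unique ((twist_values htw hE hO hred c).1.mul (twist_values htw' hE' hO' hred' c).1)
  have hm : m = fun c => mu c * mu' c := funext fun c => by
    have v := (twist_values hlm hffE hffO hffred c).2
    rw [D.V₃.redF_mul hO₃ hO₃'] at v
    exact v.unique ((twist_values htw hE hO hred c).2.mul (twist_values htw' hE' hO' hred' c).2)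
  rw [hl, hm] at hlm
  exact hlm

omit X in
/-- transport of a twist along an equality of Kummer functions -/
theorem isTwist_congr {z z' : F} (e : z = z') (hzK : KS.IsKum z) (hz'K : KS.IsKum z')
    {lam mu : Fin D.s → IsLocalRing.ResidueField R} (h : IsTwist D (KS.fam z hzK) lam mu) :
    IsTwist D (KS.fam z' hz'K) lam mu := by
  subst e
  exact h

/-- the twist of a power -/
theorem twist_pow {z : F} (hzK : KS.IsKum z) {b₁ b₂ b₃ : IsLocalRing.ResidueField R}
    (hz : IsTriUnit D z b₁ b₂ b₃) {lam mu : Fin D.s → IsLocalRing.ResidueField R}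
    (htw : IsTwist D (KS.fam z hzK) lam mu) (m : ℕ) (hm : 1 ≤ m) :
    IsTwist D (KS.fam (z ^ m) (ChainCtx.isKum_pow hzK m)) (fun c => lam c ^ m)
      (fun c => mu c ^ m) := by
  induction m, hm using Nat.le_induction with
  | base =>
    have e1 : (fun c => lam c ^ 1) = lam := funext fun c => pow_one _
    have e2 : (fun c => mu c ^ 1) = mu := funext fun c => pow_one _
    rw [e1, e2]
    exact isTwist_congr (pow_one z).symm hzK _ htw
  | succ m hm ih =>
    have h1 := twist_mul X (ChainCtx.isKum_pow hzK m) hzK (isTriUnit_pow hz m) hz ih htw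
    have e1 : (fun c => lam c ^ m * lam c) = fun c => lam c ^ (m + 1) :=
      funext fun c => (pow_succ _ _).symm
    have e2 : (fun c => mu c ^ m * mu c) = fun c => mu c ^ (m + 1) :=
      funext fun c => (pow_succ _ _).symm
    rw [e1, e2] at h1
    exact isTwist_congr (pow_succ z m).symm _ _ h1

/-- **The norm relation along `α`**: if `Nα z` is a trivial Kummer function then
`mu ^ q = A · lam`. -/
theorem twist_rel_alpha {z : F} (hzK : KS.IsKum z) {b₁ b₂ b₃ : IsLocalRing.ResidueField R}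
    (hz : IsTriUnit D z b₁ b₂ b₃) {lam mu : Fin D.s → IsLocalRing.ResidueField R}
    (htw : IsTwist D (KS.fam z hzK) lam mu) (hα : IsConstPow K n (ND.Nα z)) :
    ∃ A : IsLocalRing.ResidueField R, A ≠ 0 ∧ ∀ c, mu c ^ q = A * lam c := by
  have hnpos := X.n_pos
  obtain ⟨m₀, hm₀⟩ := X.nondeg n X.hn z (KS.fam z hzK) b₁ b₂ b₃ hz
  obtain ⟨f, hE, hO, hred⟩ := hm₀ m₀ 0 (Or.inl le_rfl)
  have hchart : f ^ n * z ∈ D.𝓛 (m₀ + (n - 1) * m₀) 0 := by
    have := (KS.fam z hzK).mixed_mem hE hE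
    rwa [← pow_succ', Nat.sub_add_cancel hnpos, Nat.mul_zero, Nat.add_zero] at this
  obtain ⟨A, hA, hAll⟩ := X.norm_step X.normα hz hα
  refine ⟨A, hA, fun c => ?_⟩
  obtain ⟨v1, v3⟩ := twist_values htw hE hO hred c
  have r1 := hAll f _ hO hchart hred c (lam c) (mu c) v1 v3
  rwa [pow_one] at r1

/-- **The norm relation along `β`**: if `Nβ z` is a trivial Kummer function then
`mu = B · lam ^ q`. -/
theorem twist_rel_beta {z : F} (hzK : KS.IsKum z) {b₁ b₂ b₃ : IsLocalRing.ResidueField R}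
    (hz : IsTriUnit D z b₁ b₂ b₃) {lam mu : Fin D.s → IsLocalRing.ResidueField R}
    (htw : IsTwist D (KS.fam z hzK) lam mu) (hβ : IsConstPow K n (ND.Nβ z)) :
    ∃ B : IsLocalRing.ResidueField R, B ≠ 0 ∧ ∀ c, mu c = B * lam c ^ q := by
  have hnpos := X.n_pos
  obtain ⟨m₀, hm₀⟩ := X.nondeg n X.hn z (KS.fam z hzK) b₁ b₂ b₃ hz
  obtain ⟨f, hE, hO, hred⟩ := hm₀ m₀ 0 (Or.inl le_rfl)
  have hchart : f ^ n * z ∈ D.𝓛 (m₀ + (n - 1) * m₀) 0 := by
    have := (KS.fam z hzK).mixed_mem hE hE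
    rwa [← pow_succ', Nat.sub_add_cancel hnpos, Nat.mul_zero, Nat.add_zero] at this
  obtain ⟨B, hB, hBll⟩ := X.norm_step X.normβ hz hβ
  refine ⟨B, hB, fun c => ?_⟩
  obtain ⟨v1, v3⟩ := twist_values htw hE hO hred c
  have r1 := hBll f _ hO hchart hred c (lam c) (mu c) v1 v3
  rwa [pow_one] at r1

/-- **Branch (i) of the toric readout**: a Kummer tri-unit whose twist is constant is a trivial
Kummer function. -/
theorem isConstPow_of_twist_const {z : F} (hzK : KS.IsKum z)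
    {b₁ b₂ b₃ : IsLocalRing.ResidueField R} (hz : IsTriUnit D z b₁ b₂ b₃)
    {lam₀ mu₀ : IsLocalRing.ResidueField R}
    (htw : IsTwist D (KS.fam z hzK) (fun _ => lam₀) (fun _ => mu₀)) : IsConstPow K n z := by
  have hnpos := X.n_pos
  have hz0 : z ≠ 0 := KS.ne_zero z hzK
  obtain ⟨t, ht0, htE⟩ := X.core n X.hn z (KS.fam _ hzK) _ _ _ hz _ _ htw
  have hmix := (KS.fam _ hzK).mixed_mem htE htE
  rw [← pow_succ', Nat.sub_add_cancel hnpos] at hmix
  have hmix' : t ^ n * z ∈ D.𝓛 0 0 := by simpa using hmix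
  obtain ⟨c', hc'⟩ := X.const00 _ hmix'
  have htn : t ^ n ≠ 0 := pow_ne_zero n ht0
  have hc'0 : c' ≠ 0 := by
    rintro rfl
    rw [map_zero] at hc'
    exact mul_ne_zero htn hz0 hc'
  refine ⟨c', t⁻¹, hc'0, inv_ne_zero ht0, ?_⟩
  rw [← hc', inv_pow, mul_comm, ← mul_assoc, inv_mul_cancel₀ htn, one_mul]

/-- a twist that is constant in the weak sense (`lam c = lam c'` for all `c c'`) -/
theorem isConstPow_of_twist_const' {z : F} (hzK : KS.IsKum z)
    {b₁ b₂ b₃ : IsLocalRing.ResidueField R} (hz : IsTriUnit D z b₁ b₂ b₃)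
    {lam mu : Fin D.s → IsLocalRing.ResidueField R} (htw : IsTwist D (KS.fam z hzK) lam mu)
    (hlam : ∀ c c', lam c = lam c') (hmu : ∀ c c', mu c = mu c') : IsConstPow K n z := by
  obtain ⟨c₀⟩ : Nonempty (Fin D.s) := ⟨⟨0, X.thick.s_pos⟩⟩
  have e1 : lam = fun _ => lam c₀ := funext fun c => hlam c c₀
  have e2 : mu = fun _ => mu c₀ := funext fun c => hmu c c₀
  rw [e1, e2] at htw
  exact isConstPow_of_twist_const X hzK hz htw

/-- **`core_step'`, norm form**: a Kummer tri-unit with trivial norm along `β` and with `lam`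
constant is a trivial Kummer function (no power `q² - 1` needed). -/
theorem core_step_of_lam_const {z : F} (hzK : KS.IsKum z)
    {b₁ b₂ b₃ : IsLocalRing.ResidueField R} (hz : IsTriUnit D z b₁ b₂ b₃)
    {lam mu : Fin D.s → IsLocalRing.ResidueField R} (htw : IsTwist D (KS.fam z hzK) lam mu)
    (hβ : IsConstPow K n (ND.Nβ z)) (hlam : ∀ c c', lam c = lam c') : IsConstPow K n z := by
  obtain ⟨B, -, hB⟩ := twist_rel_beta X hzK hz htw hβ
  refine isConstPow_of_twist_const' X hzK hz htw hlam fun c c' => ?_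
  rw [hB c, hB c', hlam c c']

/-- **`core_step'`, comparison form (the thick twist is a complete invariant).**  Two Kummer
tri-units with constant reductions whose twists are proportional by constants differ by an element
of `Kˣ · (Fˣ)ⁿ`. -/
theorem core_step' {z z' : F} (hzK : KS.IsKum z) (hz'K : KS.IsKum z')
    {b₁ b₂ b₃ b₁' b₂' b₃' : IsLocalRing.ResidueField R}
    (hz : IsTriUnit D z b₁ b₂ b₃) (hz' : IsTriUnit D z' b₁' b₂' b₃')
    {lam mu lam' mu' : Fin D.s → IsLocalRing.ResidueField R}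
    (htw : IsTwist D (KS.fam z hzK) lam mu) (htw' : IsTwist D (KS.fam z' hz'K) lam' mu')
    {a b : IsLocalRing.ResidueField R} (hlam : ∀ c, lam c = a * lam' c)
    (hmu : ∀ c, mu c = b * mu' c) :
    ∃ (c : K) (y : F), c ≠ 0 ∧ y ≠ 0 ∧ z = algebraMap K F c * y ^ n * z' := by
  have hnpos := X.n_pos
  have hz'0 : z' ≠ 0 := KS.ne_zero z' hz'K
  -- the auxiliary function `w = z * z' ^ (n - 1)`
  have key : IsConstPow K n (z * z' ^ (n - 1)) := by
    rcases Nat.lt_or_ge 1 n with h1 | h1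
    · have hm1 : 1 ≤ n - 1 := by omega
      have hP := twist_pow X hz'K hz' htw' (n - 1) hm1
      have hM := twist_mul X hzK (ChainCtx.isKum_pow hz'K (n - 1)) hz (isTriUnit_pow hz' (n - 1))
        htw hP
      refine isConstPow_of_twist_const' X _ (isTriUnit_mul hz (isTriUnit_pow hz' (n - 1))) hM ?_ ?_
      · intro c c'
        show lam c * lam' c ^ (n - 1) = lam c' * lam' c' ^ (n - 1)
        rw [hlam c, hlam c', mul_assoc, mul_assoc, ← pow_succ', ← pow_succ',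
          Nat.sub_add_cancel hnpos, (twist_pow_n X hz'K hz' htw' c).1,
          (twist_pow_n X hz'K hz' htw' c').1]
      · intro c c'
        show mu c * mu' c ^ (n - 1) = mu c' * mu' c' ^ (n - 1)
        rw [hmu c, hmu c', mul_assoc, mul_assoc, ← pow_succ', ← pow_succ',
          Nat.sub_add_cancel hnpos, (twist_pow_n X hz'K hz' htw' c).2,
          (twist_pow_n X hz'K hz' htw' c').2]
    · have hn1 : n = 1 := by omega
      have e : z * z' ^ (n - 1) = (z * z' ^ (n - 1)) ^ n := by rw [hn1, pow_one]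
      rw [e]
      exact isConstPow_npow (mul_ne_zero (KS.ne_zero z hzK) (pow_ne_zero _ hz'0))
  obtain ⟨c, y, hc, hy, e⟩ := key
  refine ⟨c, y * z'⁻¹, hc, mul_ne_zero hy (inv_ne_zero hz'0), ?_⟩
  have hz'n : z' ^ (n - 1) * z' = z' ^ n := by rw [← pow_succ, Nat.sub_add_cancel hnpos]
  have hz'n0 : z' ^ n ≠ 0 := pow_ne_zero n hz'0
  calc z = z * z' ^ (n - 1) * z' * (z' ^ n)⁻¹ := by
        rw [mul_assoc z, hz'n, mul_assoc, mul_inv_cancel₀ hz'n0, mul_one]
    _ = algebraMap K F c * (y * z'⁻¹) ^ n * z' := by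
        rw [e, mul_pow, inv_pow]; ring

end Ctx

end Fermat.Agent.S59lib.LLsq
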