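/-
S59lib / LLsq / Pull  (helper4)  --  (P1) THE PULLBACK–TWIST FORMULA (abstract form)

Abstract chain context `X : S36lib.J.ChainCtx D L …` (thick datum `D` on the function field `F` of level
`M q²`, low datum `L` on the function field `G` of level `M q`).  `ψ : G →+* F` is one of the two
pullbacks `α^*`, `β^*`.  Along `α` the components `Z₁, Z₂` lie over `W₁` and `Z₃` over `W₂`; along `β`
the component `Z₁` lies over `W₁` and `Z₂, Z₃` over `W₂`.  `PullCtx` covers both: the MIDDLE component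
`Z₂` lies over a Gauss datum `W` of `G` (`= L.W₁` for `α`, `= L.W₂` for `β`) with nodes `yW`
(`= L.y₁`, resp. `L.y₂`).

A PULLBACK HAS THE SAME VALUES at the points above (no `q`-th power, also along the purely inseparable
components: the exponents `t₁ t₃` of `J.NormCtx.val₁ val₃` concern NORMS).  Hence for a thin Kummer
unit `u` (constant reductions on `W₁`, `W₂`) and a thin section `h'` with values `v₁ c, v₂ c` at the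
node `(y₁ (cN c), y₂ (cN c))` below the triple point `c`:

* `pull_isTriUnit` : `ψ u` is a tri-unit with constant reductions;
* `pull_twist`     : the thick twist of `ψ u` is `(v₁ / v_W, v₂ / v_W)`; i.e.
* `pull_twist_alpha` : `twist (α^* u) = (1, v₂ / v₁)`,   `pull_twist_beta` : `twist (β^* u) = (v₁ / v₂, 1)`;
* **`eq_pull_mul_pull`** : a Kummer tri-unit `z` with constant reductions whose twist `(lam, mu)` is
  matched (up to constants) by thin units `u₁, u₂` — `v₂/v₁ (u₁) ∼ mu` along `α`, `v₁/v₂ (u₂) ∼ lam`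
  along `β` — is `z = c · yⁿ · α^* u₁ · β^* u₂`:  the thick toric part is `α^* T ⊕ β^* T`.
-/
import Fermat.Agent.S59lib.LLsq.CoreStep

set_option autoImplicit false

noncomputable section

namespace Fermat.Agent.S59lib.LLsq

open AlgebraicCurve Module
open Fermat.Agent.S18lib Fermat.Agent.S36lib.Thick Fermat.Agent.S36lib.Norm Fermat.Agent.S36lib.J
open Fermat.Agent.LSb (HasValueAt)

variable {K : Type*} [Field K] {R : ValuationSubring K}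
variable {F : Type*} [Field F] [Algebra K F]
variable {F₁ F₂ F₃ : Type*} [Field F₁] [Field F₂] [Field F₃]
variable [Algebra (IsLocalRing.ResidueField R) F₁] [Algebra (IsLocalRing.ResidueField R) F₂]
variable [Algebra (IsLocalRing.ResidueField R) F₃]
variable {G : Type*} [Field G] [Algebra K G]
variable {G₁ G₂ : Type*} [Field G₁] [Field G₂]
variable [Algebra (IsLocalRing.ResidueField R) G₁] [Algebra (IsLocalRing.ResidueField R) G₂]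
variable {Gm : Type*} [Field Gm] [Algebra (IsLocalRing.ResidueField R) Gm]
variable {D : ThickDatum R F F₁ F₂ F₃} {L : LowDatum R G G₁ G₂}
variable {g g₁ g₂ g₃ g₁' g₂' n q : ℕ} {KS : KummerSystem D g n} {ND : NormData D L}

/-- **The pullback data** of `ψ : G →+* F`: `Z₁` over `W₁` (residue map `ι₁`), `Z₂` over `W`
(residue map `ι₂`), `Z₃` over `W₂` (residue map `ι₃`); the triple point `c` lies over the node
`cN c`; the residue maps fix the constants and preserve values at the points above. -/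
structure PullCtx (D : ThickDatum R F F₁ F₂ F₃) (L : LowDatum R G G₁ G₂) (ψ : G →+* F)
    (W : GaussDatum R G Gm)
    (yW : Fin L.s' → AlgebraicCurve.Place (IsLocalRing.ResidueField R) Gm)
    (ι₁ : G₁ →+* F₁) (ι₂ : Gm →+* F₂) (ι₃ : G₂ →+* F₃) (cN : Fin D.s → Fin L.s') : Prop where
  mem₁ : ∀ y : G, y ∈ L.W₁.O → ψ y ∈ D.V₁.O
  red₁ : ∀ y : G, y ∈ L.W₁.O → D.V₁.redF (ψ y) = ι₁ (L.W₁.redF y)
  mem₂ : ∀ y : G, y ∈ W.O → ψ y ∈ D.V₂.O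
  red₂ : ∀ y : G, y ∈ W.O → D.red₂ (ψ y) = ι₂ (W.redF y)
  mem₃ : ∀ y : G, y ∈ L.W₂.O → ψ y ∈ D.V₃.O
  red₃ : ∀ y : G, y ∈ L.W₂.O → D.V₃.redF (ψ y) = ι₃ (L.W₂.redF y)
  const₁ : ∀ c : IsLocalRing.ResidueField R, ι₁ (algebraMap _ G₁ c) = algebraMap _ F₁ c
  const₂ : ∀ c : IsLocalRing.ResidueField R, ι₂ (algebraMap _ Gm c) = algebraMap _ F₂ c
  const₃ : ∀ c : IsLocalRing.ResidueField R, ι₃ (algebraMap _ G₂ c) = algebraMap _ F₃ c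
  val₁ : ∀ (c : Fin D.s) (ρ : G₁) (v : IsLocalRing.ResidueField R),
    HasValueAt (L.y₁ (cN c)) ρ v → HasValueAt (D.x₁ c) (ι₁ ρ) v
  val₂ : ∀ (c : Fin D.s) (ρ : Gm) (v : IsLocalRing.ResidueField R),
    HasValueAt (yW (cN c)) ρ v → HasValueAt (D.x₂ c) (ι₂ ρ) v
  val₃ : ∀ (c : Fin D.s) (ρ : G₂) (v : IsLocalRing.ResidueField R),
    HasValueAt (L.y₂ (cN c)) ρ v → HasValueAt (D.x₃ c) (ι₃ ρ) v

namespace PullCtx

variable {ψ : G →+* F} {W : GaussDatum R G Gm}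
  {yW : Fin L.s' → AlgebraicCurve.Place (IsLocalRing.ResidueField R) Gm}
  {ι₁ : G₁ →+* F₁} {ι₂ : Gm →+* F₂} {ι₃ : G₂ →+* F₃} {cN : Fin D.s → Fin L.s'}

/-- the pullback of a bi-unit lies in the thick ball -/
theorem mem_O (Y : PullCtx D L ψ W yW ι₁ ι₂ ι₃ cN) {y : G} (h₁ : y ∈ L.W₁.O) (hW : y ∈ W.O)
    (h₂ : y ∈ L.W₂.O) : ψ y ∈ D.O :=
  ThickDatum.mem_O.2 ⟨Y.mem₁ y h₁, Y.mem₂ y hW, Y.mem₃ y h₂⟩

/-- **the pullback of a thin unit with constant reductions is a tri-unit with constant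
reductions** -/
theorem pull_isTriUnit (Y : PullCtx D L ψ W yW ι₁ ι₂ ι₃ cN) {u : G}
    {c₁ cW c₂ : IsLocalRing.ResidueField R} (hc₁ : c₁ ≠ 0) (hcW : cW ≠ 0) (hc₂ : c₂ ≠ 0)
    (hu₁ : L.W₁.redF u = algebraMap _ G₁ c₁) (huW : W.redF u = algebraMap _ Gm cW)
    (hu₂ : L.W₂.redF u = algebraMap _ G₂ c₂) : IsTriUnit D (ψ u) c₁ cW c₂ := by
  have m₁ : u ∈ L.W₁.O := L.W₁.mem_of_redF_ne_zero (by rw [hu₁]; exact (map_ne_zero _).2 hc₁)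
  have mW : u ∈ W.O := W.mem_of_redF_ne_zero (by rw [huW]; exact (map_ne_zero _).2 hcW)
  have m₂ : u ∈ L.W₂.O := L.W₂.mem_of_redF_ne_zero (by rw [hu₂]; exact (map_ne_zero _).2 hc₂)
  refine ⟨hc₁, hcW, hc₂, ?_, ?_, ?_⟩
  · rw [Y.red₁ u m₁, hu₁, Y.const₁]
  · rw [Y.red₂ u mW, huW, Y.const₂]
  · rw [Y.red₃ u m₂, hu₂, Y.const₃]

end PullCtx

section Ctx

variable (X : ChainCtx D L g g₁ g₂ g₃ g₁' g₂' n q KS ND)
variable {ψ : G →+* F} {W : GaussDatum R G Gm}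
  {yW : Fin L.s' → AlgebraicCurve.Place (IsLocalRing.ResidueField R) Gm}
  {ι₁ : G₁ →+* F₁} {ι₂ : Gm →+* F₂} {ι₃ : G₂ →+* F₃} {cN : Fin D.s → Fin L.s'}

include X

/-- **(P1) the pullback–twist formula.**  `u` a thin unit with constant reductions, `ψ u` Kummer,
`h'` a thin section (`ψ h'` in the Kummer family of `ψ u`) with values `v₁ c`, `vW c`, `v₂ c` at the
node below the triple point `c`, `vW c ≠ 0`.  Then the thick twist of `ψ u` is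
`(v₁ / vW, v₂ / vW)`. -/
theorem pull_twist (Y : PullCtx D L ψ W yW ι₁ ι₂ ι₃ cN) {u : G}
    {c₁ cW c₂ : IsLocalRing.ResidueField R} (hc₁ : c₁ ≠ 0) (hcW : cW ≠ 0) (hc₂ : c₂ ≠ 0)
    (hu₁ : L.W₁.redF u = algebraMap _ G₁ c₁) (huW : W.redF u = algebraMap _ Gm cW)
    (hu₂ : L.W₂.redF u = algebraMap _ G₂ c₂) (hK : KS.IsKum (ψ u))
    {h' : G} (m₁ : h' ∈ L.W₁.O) (mW : h' ∈ W.O) (m₂ : h' ∈ L.W₂.O) {a b : ℕ}
    (hE : ψ h' ∈ (KS.fam (ψ u) hK).𝓔 a b)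
    {v₁ vW v₂ : Fin D.s → IsLocalRing.ResidueField R} (hvW : ∀ c, vW c ≠ 0)
    (hv₁ : ∀ c, HasValueAt (L.y₁ (cN c)) (L.W₁.redF h') (v₁ c))
    (hvW' : ∀ c, HasValueAt (yW (cN c)) (W.redF h') (vW c))
    (hv₂ : ∀ c, HasValueAt (L.y₂ (cN c)) (L.W₂.redF h') (v₂ c)) :
    IsTwist D (KS.fam (ψ u) hK) (fun c => v₁ c / vW c) (fun c => v₂ c / vW c) := by
  have hz := Y.pull_isTriUnit hc₁ hcW hc₂ hu₁ huW hu₂
  obtain ⟨lam, mu, -, -, htw⟩ := X.twist n X.hn (ψ u) (KS.fam _ hK) _ _ _ hz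
  have hO : ψ h' ∈ D.O := Y.mem_O m₁ mW m₂
  have key : ∀ c, lam c = v₁ c / vW c ∧ mu c = v₂ c / vW c := by
    intro c
    obtain ⟨α, a1, a2, a3⟩ := htw a b (ψ h') hE hO c
    rw [Y.red₁ h' m₁] at a1
    rw [Y.red₂ h' mW] at a2
    rw [Y.red₃ h' m₂] at a3
    have e2 : α = vW c := a2.unique (Y.val₂ c _ _ (hvW' c))
    have e1 : lam c * α = v₁ c := a1.unique (Y.val₁ c _ _ (hv₁ c))
    have e3 : mu c * α = v₂ c := a3.unique (Y.val₃ c _ _ (hv₂ c))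
    rw [e2] at e1 e3
    exact ⟨by rw [eq_div_iff (hvW c), e1], by rw [eq_div_iff (hvW c), e3]⟩
  have hl : lam = fun c => v₁ c / vW c := funext fun c => (key c).1
  have hm : mu = fun c => v₂ c / vW c := funext fun c => (key c).2
  rw [hl, hm] at htw
  exact htw

/-- **(P1) along `α`** (`Z₁, Z₂` over `W₁`, `Z₃` over `W₂`): `twist (α^* u) = (1, v₂ / v₁)`. -/
theorem pull_twist_alpha {ι₂ : G₁ →+* F₂} (Y : PullCtx D L ψ L.W₁ L.y₁ ι₁ ι₂ ι₃ cN) {u : G}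
    {c₁ c₂ : IsLocalRing.ResidueField R} (hc₁ : c₁ ≠ 0) (hc₂ : c₂ ≠ 0)
    (hu₁ : L.W₁.redF u = algebraMap _ G₁ c₁) (hu₂ : L.W₂.redF u = algebraMap _ G₂ c₂)
    (hK : KS.IsKum (ψ u)) {h' : G} (m₁ : h' ∈ L.W₁.O) (m₂ : h' ∈ L.W₂.O) {a b : ℕ}
    (hE : ψ h' ∈ (KS.fam (ψ u) hK).𝓔 a b)
    {v₁ v₂ : Fin D.s → IsLocalRing.ResidueField R} (hv₁0 : ∀ c, v₁ c ≠ 0)
    (hv₁ : ∀ c, HasValueAt (L.y₁ (cN c)) (L.W₁.redF h') (v₁ c))
    (hv₂ : ∀ c, HasValueAt (L.y₂ (cN c)) (L.W₂.redF h') (v₂ c)) :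
    IsTwist D (KS.fam (ψ u) hK) (fun _ => 1) (fun c => v₂ c / v₁ c) := by
  have h := pull_twist X Y hc₁ hc₁ hc₂ hu₁ hu₁ hu₂ hK m₁ m₁ m₂ hE hv₁0 hv₁ hv₁ hv₂
  have e : (fun c => v₁ c / v₁ c) = fun _ => (1 : IsLocalRing.ResidueField R) :=
    funext fun c => div_self (hv₁0 c)
  rwa [e] at h

/-- **(P1) along `β`** (`Z₁` over `W₁`, `Z₂, Z₃` over `W₂`): `twist (β^* u) = (v₁ / v₂, 1)`. -/
theorem pull_twist_beta {ι₂ : G₂ →+* F₂} (Y : PullCtx D L ψ L.W₂ L.y₂ ι₁ ι₂ ι₃ cN) {u : G}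
    {c₁ c₂ : IsLocalRing.ResidueField R} (hc₁ : c₁ ≠ 0) (hc₂ : c₂ ≠ 0)
    (hu₁ : L.W₁.redF u = algebraMap _ G₁ c₁) (hu₂ : L.W₂.redF u = algebraMap _ G₂ c₂)
    (hK : KS.IsKum (ψ u)) {h' : G} (m₁ : h' ∈ L.W₁.O) (m₂ : h' ∈ L.W₂.O) {a b : ℕ}
    (hE : ψ h' ∈ (KS.fam (ψ u) hK).𝓔 a b)
    {v₁ v₂ : Fin D.s → IsLocalRing.ResidueField R} (hv₂0 : ∀ c, v₂ c ≠ 0)
    (hv₁ : ∀ c, HasValueAt (L.y₁ (cN c)) (L.W₁.redF h') (v₁ c))
    (hv₂ : ∀ c, HasValueAt (L.y₂ (cN c)) (L.W₂.redF h') (v₂ c)) :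
    IsTwist D (KS.fam (ψ u) hK) (fun c => v₁ c / v₂ c) (fun _ => 1) := by
  have h := pull_twist X Y hc₁ hc₂ hc₂ hu₁ hu₂ hu₂ hK m₁ m₂ m₂ hE hv₂0 hv₁ hv₂ hv₂
  have e : (fun c => v₂ c / v₂ c) = fun _ => (1 : IsLocalRing.ResidueField R) :=
    funext fun c => div_self (hv₂0 c)
  rwa [e] at h

/-- **The thick toric part is `α^* T ⊕ β^* T`.**  A Kummer tri-unit `z` with constant reductions and
twist `(lam, mu)`; thin units `u₁` (section `h₁'` with values `(v₁, v₂)` at the nodes `cα c`) and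
`u₂` (section `h₂'` with values `(w₁, w₂)` at the nodes `cβ c`) with `mu = a · v₂ / v₁` and
`lam = b · w₁ / w₂` (`a b` constants).  Then `z = c · yⁿ · α^* u₁ · β^* u₂`. -/
theorem eq_pull_mul_pull {ψα ψβ : G →+* F} {ι₁a : G₁ →+* F₁} {ι₂a : G₁ →+* F₂} {ι₃a : G₂ →+* F₃}
    {ι₁b : G₁ →+* F₁} {ι₂b : G₂ →+* F₂} {ι₃b : G₂ →+* F₃} {cα cβ : Fin D.s → Fin L.s'}
    (Yα : PullCtx D L ψα L.W₁ L.y₁ ι₁a ι₂a ι₃a cα) (Yβ : PullCtx D L ψβ L.W₂ L.y₂ ι₁b ι₂b ι₃b cβ)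
    {z : F} (hzK : KS.IsKum z) {b₁ b₂ b₃ : IsLocalRing.ResidueField R}
    (hz : IsTriUnit D z b₁ b₂ b₃) {lam mu : Fin D.s → IsLocalRing.ResidueField R}
    (htw : IsTwist D (KS.fam z hzK) lam mu)
    -- the thin unit along `α`
    {u₁ : G} {c₁ c₂ : IsLocalRing.ResidueField R} (hc₁ : c₁ ≠ 0) (hc₂ : c₂ ≠ 0)
    (hu₁ : L.W₁.redF u₁ = algebraMap _ G₁ c₁) (hu₂ : L.W₂.redF u₁ = algebraMap _ G₂ c₂)
    (hK₁ : KS.IsKum (ψα u₁)) {h₁' : G} (m₁ : h₁' ∈ L.W₁.O) (m₂ : h₁' ∈ L.W₂.O) {a₁ a₂ : ℕ}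
    (hE₁ : ψα h₁' ∈ (KS.fam (ψα u₁) hK₁).𝓔 a₁ a₂)
    {v₁ v₂ : Fin D.s → IsLocalRing.ResidueField R} (hv₁0 : ∀ c, v₁ c ≠ 0)
    (hv₁ : ∀ c, HasValueAt (L.y₁ (cα c)) (L.W₁.redF h₁') (v₁ c))
    (hv₂ : ∀ c, HasValueAt (L.y₂ (cα c)) (L.W₂.redF h₁') (v₂ c))
    -- the thin unit along `β`
    {u₂ : G} {d₁ d₂ : IsLocalRing.ResidueField R} (hd₁ : d₁ ≠ 0) (hd₂ : d₂ ≠ 0)
    (hu₁' : L.W₁.redF u₂ = algebraMap _ G₁ d₁) (hu₂' : L.W₂.redF u₂ = algebraMap _ G₂ d₂)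
    (hK₂ : KS.IsKum (ψβ u₂)) {h₂' : G} (m₁' : h₂' ∈ L.W₁.O) (m₂' : h₂' ∈ L.W₂.O) {a₁' a₂' : ℕ}
    (hE₂ : ψβ h₂' ∈ (KS.fam (ψβ u₂) hK₂).𝓔 a₁' a₂')
    {w₁ w₂ : Fin D.s → IsLocalRing.ResidueField R} (hw₂0 : ∀ c, w₂ c ≠ 0)
    (hw₁ : ∀ c, HasValueAt (L.y₁ (cβ c)) (L.W₁.redF h₂') (w₁ c))
    (hw₂ : ∀ c, HasValueAt (L.y₂ (cβ c)) (L.W₂.redF h₂') (w₂ c))
    -- the matching
    {a b : IsLocalRing.ResidueField R} (hmu : ∀ c, mu c = a * (v₂ c / v₁ c))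
    (hlam : ∀ c, lam c = b * (w₁ c / w₂ c)) :
    ∃ (c : K) (y : F), c ≠ 0 ∧ y ≠ 0 ∧ z = algebraMap K F c * y ^ n * (ψα u₁ * ψβ u₂) := by
  have tα := pull_twist_alpha X Yα hc₁ hc₂ hu₁ hu₂ hK₁ m₁ m₂ hE₁ hv₁0 hv₁ hv₂
  have tβ := pull_twist_beta X Yβ hd₁ hd₂ hu₁' hu₂' hK₂ m₁' m₂' hE₂ hw₂0 hw₁ hw₂
  have zα := Yα.pull_isTriUnit hc₁ hc₁ hc₂ hu₁ hu₁ hu₂
  have zβ := Yβ.pull_isTriUnit hd₁ hd₂ hd₂ hu₁' hu₂' hu₂'
  have tm := twist_mul X hK₁ hK₂ zα zβ tα tβ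
  refine core_step' X hzK (KS.mul _ _ hK₁ hK₂) hz (isTriUnit_mul zα zβ) htw tm
    (a := b) (b := a) (fun c => ?_) (fun c => ?_)
  · rw [hlam c, one_mul]
  · rw [hmu c, mul_one]

end Ctx

end Fermat.Agent.S59lib.LLsq
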