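/-
S59lib / LLsq / PullInst  (helper4)  --  the two `PullCtx` records of the modular instance

All residue fields are `κ = FRes A M` (an algebra over `kR = ResidueField R` through
`I : J.ConstIso kR kA κ`), as in `S36lib/Norm/RowsInst`.  From helper7's `AlphaData` / `BetaData`
(`RamOverAlong.mem/red` = pullback–reduction) and the incidence of the points (conventions (C1) of
`S36lib/J`):

* `pullCtx_alpha` : `α^*` with `ι₁ = ι₂ = id`, `ι₃ = VqR hA`; over the node `cα c` lie the triple
  point `c` on `Z₁`, `Z₂` (`y₁ (cα c) = x₁ c = x₂ c`) and `y₂ (cα c) = Fr (x₃ c)`;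
* `pullCtx_beta`  : `β^*` with `ι₁ = VqR hA`, `ι₂ = ι₃ = id`; `y₁ (cβ c) = Fr (x₁ c)`,
  `y₂ (cβ c) = x₂ c = x₃ c`.

The value of a pullback along the purely inseparable `VqR` at a point is the value at its Frobenius
image (`LSb.Unit.hasValueAt_frobPlace_iff`): no `q`-th power.
-/
import Fermat.Agent.S59lib.LLsq.Pull
import Fermat.Agent.S36lib.Norm.RowsInst

set_option autoImplicit false
set_option linter.unusedSectionVars false

noncomputable section

namespace Fermat.Agent.S59lib.LLsq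

open AlgebraicCurve ModularCurve
open Fermat.Agent.S18lib Fermat.Agent.S36lib.Thick Fermat.Agent.S36lib.Norm Fermat.Agent.S36lib.J
open Fermat.Agent.LSb Fermat.Agent.LSb.Unit

variable {M q : ℕ} [NeZero M] [NeZero q] [hq : Fact q.Prime]
variable {A : ValuationSubring (AlgebraicClosure ℚ)}
variable {K : Type*} [Field K] {R : ValuationSubring K}
variable {F : Type*} [Field F] [Algebra K F] {G : Type*} [Field G] [Algebra K G]
variable [Algebra (IsLocalRing.ResidueField R) (FRes A M)]
variable (I : ConstIso (IsLocalRing.ResidueField R) (IsLocalRing.ResidueField A) (FRes A M))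
variable {D : ThickDatum R F (FRes A M) (FRes A M) (FRes A M)}
variable {L : LowDatum R G (FRes A M) (FRes A M)}
variable {ψ : G →+* F}
variable (hA : A.LiesOverPrime q)

include I

/-- `VqR` fixes the constants of `kR` -/
theorem VqR_algebraMap_R (c : IsLocalRing.ResidueField R) :
    VqR hA (algebraMap (IsLocalRing.ResidueField R) (FRes A M) c) =
      algebraMap (IsLocalRing.ResidueField R) (FRes A M) c := by
  rw [I.comp, VqR_algebraMap]

/-- the value of `VqR ρ` at a point is the value of `ρ` at its Frobenius image -/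
theorem hasValueAt_VqR (x' : AlgebraicCurve.Place (IsLocalRing.ResidueField A) (FRes A M))
    (ρ : FRes A M) (v : IsLocalRing.ResidueField R)
    (h : HasValueAt (I.place (Fermat.Agent.S36lib.Reg.frobPl hA x')) ρ v) :
    HasValueAt (I.place x') (VqR hA ρ) v := by
  rw [I.hasValueAt_place] at h ⊢
  exact (hasValueAt_frobPlace_iff _ _ _ _ _ _).1 h

/-- **the `PullCtx` record of `α^*`.** -/
theorem pullCtx_alpha
    (X : AlphaData D L ψ q (RingEquiv.refl (FRes A M)) (RingEquiv.refl (FRes A M)) (VqR hA))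
    (cα : Fin D.s → Fin L.s') (hy₁ : ∀ c, L.y₁ (cα c) = D.x₁ c) (hx₂ : ∀ c, D.x₂ c = D.x₁ c)
    (P : Fin D.s → AlgebraicCurve.Place (IsLocalRing.ResidueField A) (FRes A M))
    (hx₃ : ∀ c, D.x₃ c = I.place (P c))
    (hy₂ : ∀ c, L.y₂ (cα c) = I.place (Fermat.Agent.S36lib.Reg.frobPl hA (P c))) :
    PullCtx D L ψ L.W₁ L.y₁ (RingHom.id (FRes A M)) (RingHom.id (FRes A M)) (VqR hA) cα where
  mem₁ := fun y hy => X.over₁.mem y hy
  red₁ := fun y hy => X.over₁.red y hy
  mem₂ := fun y hy => X.over₂.mem y hy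
  red₂ := fun y hy => X.over₂.red y hy
  mem₃ := fun y hy => X.over₃.mem y hy
  red₃ := fun y hy => X.over₃.red y hy
  const₁ := fun _ => rfl
  const₂ := fun _ => rfl
  const₃ := fun c => VqR_algebraMap_R I hA c
  val₁ := fun c ρ v hv => by
    rw [hy₁] at hv
    exact hv
  val₂ := fun c ρ v hv => by
    rw [hy₁] at hv
    rw [hx₂]
    exact hv
  val₃ := fun c ρ v hv => by
    rw [hy₂] at hv
    rw [hx₃]
    exact hasValueAt_VqR I hA _ _ _ hv

/-- **the `PullCtx` record of `β^*`.** -/
theorem pullCtx_beta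
    (X : BetaData D L ψ q (VqR hA) (RingEquiv.refl (FRes A M)) (RingEquiv.refl (FRes A M)))
    (cβ : Fin D.s → Fin L.s') (hy₂ : ∀ c, L.y₂ (cβ c) = D.x₃ c) (hx₂ : ∀ c, D.x₂ c = D.x₃ c)
    (P : Fin D.s → AlgebraicCurve.Place (IsLocalRing.ResidueField A) (FRes A M))
    (hx₁ : ∀ c, D.x₁ c = I.place (P c))
    (hy₁ : ∀ c, L.y₁ (cβ c) = I.place (Fermat.Agent.S36lib.Reg.frobPl hA (P c))) :
    PullCtx D L ψ L.W₂ L.y₂ (VqR hA) (RingHom.id (FRes A M)) (RingHom.id (FRes A M)) cβ where
  mem₁ := fun y hy => X.over₁.mem y hy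
  red₁ := fun y hy => X.over₁.red y hy
  mem₂ := fun y hy => X.over₂.mem y hy
  red₂ := fun y hy => X.over₂.red y hy
  mem₃ := fun y hy => X.over₃.mem y hy
  red₃ := fun y hy => X.over₃.red y hy
  const₁ := fun c => VqR_algebraMap_R I hA c
  const₂ := fun _ => rfl
  const₃ := fun _ => rfl
  val₁ := fun c ρ v hv => by
    rw [hy₁] at hv
    rw [hx₁]
    exact hasValueAt_VqR I hA _ _ _ hv
  val₂ := fun c ρ v hv => by
    rw [hy₂] at hv
    rw [hx₂]
    exact hv
  val₃ := fun c ρ v hv => by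
    rw [hy₂] at hv
    exact hv

end Fermat.Agent.S59lib.LLsq
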