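/-
S59lib / LLsq / Thin  (helper4)  --  thin sections from the thick theory; `lam (α^* u) = 1`, `mu (β^* u) = 1`

Abstract chain context `X : S36lib.J.ChainCtx D L …`.  Let `ψ = α^*` (a `PullCtx` of `α`-type with the
nodes `ND.cα`) and let `u` be a thin unit of level `M q` with constant reductions such that `ψ u` is
Kummer.  The THICK theory (nondegeneracy + existence of the twist) and the norm `Nα (ψ y) = y ^ q`
produce a THIN section rational over the base field: for the normalised thick section `h` of `ψ u`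
and `a q = 1 + b n`,

    `h' := (Nα h) ^ a * u ^ b`,   `h' ^ n * u = (Nα (hⁿ · ψ u)) ^ a ∈ 𝓛'`,

a bi-unit of level `M q` whose two reductions have the NON-ZERO values
`v₁ c = lam c ^ a * c₁ ^ b`, `v₂ c = (mu c ^ q) ^ a * c₂ ^ b` at the node `ND.cα c`
(`exists_thin_section_alpha`).  Pulling it back (`Pull.pull_twist_alpha`) gives

* `twist_pull_alpha` : the thick twist of `α^* u` is `(1, mu)`;
* `twist_pull_beta`  : the thick twist of `β^* u` is `(lam, 1)`.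
-/
import Fermat.Agent.S59lib.LLsq.Pull

set_option autoImplicit false

noncomputable section

namespace Fermat.Agent.S59lib.LLsq

open AlgebraicCurve Module
open Fermat.Agent.S18lib Fermat.Agent.S36lib.Thick Fermat.Agent.S36lib.Norm Fermat.Agent.S36lib.J
open Fermat.Agent.LSb (HasValueAt)

variable {K : Type*} [Field K] {R : ValuationSubring K}
variable {F : Type*} [Field F] [Algebra K F]
variable {F₁ F₂ F₃ : Type*} [Field F₁] [Field F₂] [Field F₃]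
variable [Algebra (IsLocalRing.ResidueField R) F₁] [Algebra (IsLocalRing.ResidueField R) F₂]
variable [Algebra (IsLocalRing.ResidueField R) F₃]
variable {G : Type*} [Field G] [Algebra K G]
variable {G₁ G₂ : Type*} [Field G₁] [Field G₂]
variable [Algebra (IsLocalRing.ResidueField R) G₁] [Algebra (IsLocalRing.ResidueField R) G₂]
variable {D : ThickDatum R F F₁ F₂ F₃} {L : LowDatum R G G₁ G₂}
variable {g g₁ g₂ g₃ g₁' g₂' n q : ℕ} {KS : KummerSystem D g n} {ND : NormData D L}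

/-- `a q = 1 + b n` for coprime `q, n` -/
theorem exists_mul_eq_one_add_mul {q n : ℕ} (hq : 2 ≤ q) (hn : n ≠ 0) (hqn : Nat.Coprime q n) :
    ∃ a b : ℕ, a * q = 1 + b * n := by
  rcases Nat.lt_or_ge 1 n with h1 | h1
  · obtain ⟨m, -, hm⟩ := Nat.exists_mul_mod_eq_one_of_coprime hqn h1
    refine ⟨m, q * m / n, ?_⟩
    have := Nat.div_add_mod (q * m) n
    rw [hm] at this
    rw [mul_comm m q, mul_comm (q * m / n) n]
    omega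
  · have hn1 : n = 1 := by omega
    subst hn1
    exact ⟨1, q - 1, by omega⟩

section Ctx

variable (X : ChainCtx D L g g₁ g₂ g₃ g₁' g₂' n q KS ND)
variable {ψ : G →+* F} {ι₁ : G₁ →+* F₁} {ι₃ : G₂ →+* F₃}

include X

/-- **A thin section from the thick theory, along `α`.** -/
theorem exists_thin_section_alpha {ι₂ : G₁ →+* F₂}
    (Y : PullCtx D L ψ L.W₁ L.y₁ ι₁ ι₂ ι₃ ND.cα)
    (hmul : ∀ f f' : G, f ∈ L.𝓛' → f' ∈ L.𝓛' → f * f' ∈ L.𝓛')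
    (hN : ∀ y : G, ND.Nα (ψ y) = y ^ q) {u : G}
    {c₁ c₂ : IsLocalRing.ResidueField R} (hc₁ : c₁ ≠ 0) (hc₂ : c₂ ≠ 0)
    (hu₁ : L.W₁.redF u = algebraMap _ G₁ c₁) (hu₂ : L.W₂.redF u = algebraMap _ G₂ c₂)
    (hK : KS.IsKum (ψ u)) {lam mu : Fin D.s → IsLocalRing.ResidueField R}
    (htw : IsTwist D (KS.fam (ψ u) hK) lam mu) :
    ∃ (h' : G) (a b : ℕ), a * q = 1 + b * n ∧ h' ∈ L.W₁.O ∧ h' ∈ L.W₂.O ∧ h' ^ n * u ∈ L.𝓛' ∧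
      (∀ c, HasValueAt (L.y₁ (ND.cα c)) (L.W₁.redF h') (lam c ^ a * c₁ ^ b)) ∧
      (∀ c, HasValueAt (L.y₂ (ND.cα c)) (L.W₂.redF h') ((mu c ^ q) ^ a * c₂ ^ b)) := by
  have hnpos := X.n_pos
  have hz := Y.pull_isTriUnit hc₁ hc₁ hc₂ hu₁ hu₁ hu₂
  have hzO := isTriUnit_mem_O hz
  obtain ⟨a, b, hab⟩ := exists_mul_eq_one_add_mul X.hq X.n_ne_zero X.hqn
  -- the normalised thick section
  obtain ⟨m₀, hm₀⟩ := X.nondeg n X.hn (ψ u) (KS.fam _ hK) _ _ _ hz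
  obtain ⟨h, hE, hO, hred⟩ := hm₀ m₀ 0 (Or.inl le_rfl)
  have hchart : h ^ n * ψ u ∈ D.𝓛 (m₀ + (n - 1) * m₀) 0 := by
    have := (KS.fam _ hK).mixed_mem hE hE
    rwa [← pow_succ', Nat.sub_add_cancel hnpos, Nat.mul_zero, Nat.add_zero] at this
  have hval := fun c => twist_values htw hE hO hred c
  -- its norm
  set H : G := ND.Nα h with hH
  have hH₁ : H ∈ L.W₁.O := X.normα.mem₁ h hO
  have hH₂ : H ∈ L.W₂.O := X.normα.mem₂ h hO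
  have rH₁ : L.W₁.redF H = ND.a₁ (D.V₁.redF h) := by
    rw [hH, X.normα.red₁ h hO, hred, map_one, mul_one]
  have rH₂ : L.W₂.redF H = ND.a₃ (D.V₃.redF h) := by
    rw [hH, X.normα.red₂ h hO, hred, map_one, one_mul]
  have hHn : H ^ n * u ^ q ∈ L.𝓛' := by
    have := X.normα.chart _ _ hchart
    rwa [map_mul, map_pow, hN] at this
  -- the thin unit
  have mu₁ : u ∈ L.W₁.O := L.W₁.mem_of_redF_ne_zero (by rw [hu₁]; exact (map_ne_zero _).2 hc₁)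
  have mu₂ : u ∈ L.W₂.O := L.W₂.mem_of_redF_ne_zero (by rw [hu₂]; exact (map_ne_zero _).2 hc₂)
  -- the thin section
  have hpow : ∀ m : ℕ, 1 ≤ m → (H ^ n * u ^ q) ^ m ∈ L.𝓛' := by
    intro m hm
    induction m, hm using Nat.le_induction with
    | base => rw [pow_one]; exact hHn
    | succ m _ ih => rw [pow_succ]; exact hmul _ _ ih hHn
  have ha1 : 1 ≤ a := by
    rcases Nat.eq_zero_or_pos a with h0 | h0
    · rw [h0, zero_mul] at hab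
      omega
    · exact h0
  refine ⟨H ^ a * u ^ b, a, b, hab,
    L.W₁.O.mul_mem _ _ (L.W₁.O.pow_mem hH₁ a) (L.W₁.O.pow_mem mu₁ b),
    L.W₂.O.mul_mem _ _ (L.W₂.O.pow_mem hH₂ a) (L.W₂.O.pow_mem mu₂ b), ?_, ?_, ?_⟩
  · have e : (H ^ a * u ^ b) ^ n * u = (H ^ n * u ^ q) ^ a := by
      have e1 : (u ^ b) ^ n * u = (u ^ q) ^ a := by
        rw [← pow_mul, ← pow_succ, ← pow_mul, mul_comm q a, hab, add_comm]
      have e2 : (H ^ a) ^ n = (H ^ n) ^ a := pow_right_comm H a n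
      calc (H ^ a * u ^ b) ^ n * u = (H ^ a) ^ n * ((u ^ b) ^ n * u) := by rw [mul_pow, mul_assoc]
        _ = (H ^ n) ^ a * (u ^ q) ^ a := by rw [e1, e2]
        _ = (H ^ n * u ^ q) ^ a := by rw [mul_pow]
    rw [e]
    exact hpow a ha1
  · intro c
    rw [L.W₁.redF_mul (L.W₁.O.pow_mem hH₁ a) (L.W₁.O.pow_mem mu₁ b), L.W₁.redF_pow hH₁,
      L.W₁.redF_pow mu₁, rH₁, hu₁, ← map_pow (algebraMap _ G₁) c₁ b]
    have v := X.normα.val₁ c _ _ (hval c).1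
    rw [pow_one] at v
    exact (v.pow a).mul (Fermat.Agent.LSb.hasValueAt_const (c₁ ^ b))
  · intro c
    rw [L.W₂.redF_mul (L.W₂.O.pow_mem hH₂ a) (L.W₂.O.pow_mem mu₂ b), L.W₂.redF_pow hH₂,
      L.W₂.redF_pow mu₂, rH₂, hu₂, ← map_pow (algebraMap _ G₂) c₂ b]
    have v := X.normα.val₃ c _ _ (hval c).2
    exact (v.pow a).mul (Fermat.Agent.LSb.hasValueAt_const (c₂ ^ b))

/-- **A thin section from the thick theory, along `β`.** -/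
theorem exists_thin_section_beta {ι₂ : G₂ →+* F₂}
    (Y : PullCtx D L ψ L.W₂ L.y₂ ι₁ ι₂ ι₃ ND.cβ)
    (hmul : ∀ f f' : G, f ∈ L.𝓛' → f' ∈ L.𝓛' → f * f' ∈ L.𝓛')
    (hN : ∀ y : G, ND.Nβ (ψ y) = y ^ q) {u : G}
    {c₁ c₂ : IsLocalRing.ResidueField R} (hc₁ : c₁ ≠ 0) (hc₂ : c₂ ≠ 0)
    (hu₁ : L.W₁.redF u = algebraMap _ G₁ c₁) (hu₂ : L.W₂.redF u = algebraMap _ G₂ c₂)
    (hK : KS.IsKum (ψ u)) {lam mu : Fin D.s → IsLocalRing.ResidueField R}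
    (htw : IsTwist D (KS.fam (ψ u) hK) lam mu) :
    ∃ (h' : G) (a b : ℕ), a * q = 1 + b * n ∧ h' ∈ L.W₁.O ∧ h' ∈ L.W₂.O ∧ h' ^ n * u ∈ L.𝓛' ∧
      (∀ c, HasValueAt (L.y₁ (ND.cβ c)) (L.W₁.redF h') ((lam c ^ q) ^ a * c₁ ^ b)) ∧
      (∀ c, HasValueAt (L.y₂ (ND.cβ c)) (L.W₂.redF h') (mu c ^ a * c₂ ^ b)) := by
  have hnpos := X.n_pos
  have hz := Y.pull_isTriUnit hc₁ hc₂ hc₂ hu₁ hu₂ hu₂
  have hzO := isTriUnit_mem_O hz
  obtain ⟨a, b, hab⟩ := exists_mul_eq_one_add_mul X.hq X.n_ne_zero X.hqn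
  obtain ⟨m₀, hm₀⟩ := X.nondeg n X.hn (ψ u) (KS.fam _ hK) _ _ _ hz
  obtain ⟨h, hE, hO, hred⟩ := hm₀ m₀ 0 (Or.inl le_rfl)
  have hchart : h ^ n * ψ u ∈ D.𝓛 (m₀ + (n - 1) * m₀) 0 := by
    have := (KS.fam _ hK).mixed_mem hE hE
    rwa [← pow_succ', Nat.sub_add_cancel hnpos, Nat.mul_zero, Nat.add_zero] at this
  have hval := fun c => twist_values htw hE hO hred c
  set H : G := ND.Nβ h with hH
  have hH₁ : H ∈ L.W₁.O := X.normβ.mem₁ h hO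
  have hH₂ : H ∈ L.W₂.O := X.normβ.mem₂ h hO
  have rH₁ : L.W₁.redF H = ND.b₁ (D.V₁.redF h) := by
    rw [hH, X.normβ.red₁ h hO, hred, map_one, mul_one]
  have rH₂ : L.W₂.redF H = ND.b₃ (D.V₃.redF h) := by
    rw [hH, X.normβ.red₂ h hO, hred, map_one, one_mul]
  have hHn : H ^ n * u ^ q ∈ L.𝓛' := by
    have := X.normβ.chart _ _ hchart
    rwa [map_mul, map_pow, hN] at this
  have mu₁ : u ∈ L.W₁.O := L.W₁.mem_of_redF_ne_zero (by rw [hu₁]; exact (map_ne_zero _).2 hc₁)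
  have mu₂ : u ∈ L.W₂.O := L.W₂.mem_of_redF_ne_zero (by rw [hu₂]; exact (map_ne_zero _).2 hc₂)
  have hpow : ∀ m : ℕ, 1 ≤ m → (H ^ n * u ^ q) ^ m ∈ L.𝓛' := by
    intro m hm
    induction m, hm using Nat.le_induction with
    | base => rw [pow_one]; exact hHn
    | succ m _ ih => rw [pow_succ]; exact hmul _ _ ih hHn
  have ha1 : 1 ≤ a := by
    rcases Nat.eq_zero_or_pos a with h0 | h0
    · rw [h0, zero_mul] at hab
      omega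
    · exact h0
  refine ⟨H ^ a * u ^ b, a, b, hab,
    L.W₁.O.mul_mem _ _ (L.W₁.O.pow_mem hH₁ a) (L.W₁.O.pow_mem mu₁ b),
    L.W₂.O.mul_mem _ _ (L.W₂.O.pow_mem hH₂ a) (L.W₂.O.pow_mem mu₂ b), ?_, ?_, ?_⟩
  · have e : (H ^ a * u ^ b) ^ n * u = (H ^ n * u ^ q) ^ a := by
      have e1 : (u ^ b) ^ n * u = (u ^ q) ^ a := by
        rw [← pow_mul, ← pow_succ, ← pow_mul, mul_comm q a, hab, add_comm]
      have e2 : (H ^ a) ^ n = (H ^ n) ^ a := pow_right_comm H a n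
      calc (H ^ a * u ^ b) ^ n * u = (H ^ a) ^ n * ((u ^ b) ^ n * u) := by rw [mul_pow, mul_assoc]
        _ = (H ^ n) ^ a * (u ^ q) ^ a := by rw [e1, e2]
        _ = (H ^ n * u ^ q) ^ a := by rw [mul_pow]
    rw [e]
    exact hpow a ha1
  · intro c
    rw [L.W₁.redF_mul (L.W₁.O.pow_mem hH₁ a) (L.W₁.O.pow_mem mu₁ b), L.W₁.redF_pow hH₁,
      L.W₁.redF_pow mu₁, rH₁, hu₁, ← map_pow (algebraMap _ G₁) c₁ b]
    have v := X.normβ.val₁ c _ _ (hval c).1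
    exact (v.pow a).mul (Fermat.Agent.LSb.hasValueAt_const (c₁ ^ b))
  · intro c
    rw [L.W₂.redF_mul (L.W₂.O.pow_mem hH₂ a) (L.W₂.O.pow_mem mu₂ b), L.W₂.redF_pow hH₂,
      L.W₂.redF_pow mu₂, rH₂, hu₂, ← map_pow (algebraMap _ G₂) c₂ b]
    have v := X.normβ.val₃ c _ _ (hval c).2
    rw [pow_one] at v
    exact (v.pow a).mul (Fermat.Agent.LSb.hasValueAt_const (c₂ ^ b))

/-- **`lam (α^* u) = 1`**, and the second component of the twist of `α^* u` is read off a thin section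
rational over the base field: `mu c = v₂ c / v₁ c` at the node `ND.cα c`. -/
theorem twist_pull_alpha {ι₂ : G₁ →+* F₂}
    (Y : PullCtx D L ψ L.W₁ L.y₁ ι₁ ι₂ ι₃ ND.cα)
    (hmul : ∀ f f' : G, f ∈ L.𝓛' → f' ∈ L.𝓛' → f * f' ∈ L.𝓛')
    (hN : ∀ y : G, ND.Nα (ψ y) = y ^ q) {u : G}
    {c₁ c₂ : IsLocalRing.ResidueField R} (hc₁ : c₁ ≠ 0) (hc₂ : c₂ ≠ 0)
    (hu₁ : L.W₁.redF u = algebraMap _ G₁ c₁) (hu₂ : L.W₂.redF u = algebraMap _ G₂ c₂)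
    (hK : KS.IsKum (ψ u))
    (hpull : ∀ h' : G, h' ∈ L.W₁.O → h' ∈ L.W₂.O → h' ^ n * u ∈ L.𝓛' →
      ∃ a b : ℕ, ψ h' ∈ (KS.fam (ψ u) hK).𝓔 a b)
    {lam mu : Fin D.s → IsLocalRing.ResidueField R}
    (htw : IsTwist D (KS.fam (ψ u) hK) lam mu) :
    (∀ c, lam c = 1) ∧ ∃ (h' : G) (v₁ v₂ : Fin D.s → IsLocalRing.ResidueField R),
      h' ∈ L.W₁.O ∧ h' ∈ L.W₂.O ∧ h' ^ n * u ∈ L.𝓛' ∧ (∀ c, v₁ c ≠ 0) ∧ (∀ c, v₂ c ≠ 0) ∧
      (∀ c, HasValueAt (L.y₁ (ND.cα c)) (L.W₁.redF h') (v₁ c)) ∧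
      (∀ c, HasValueAt (L.y₂ (ND.cα c)) (L.W₂.redF h') (v₂ c)) ∧ ∀ c, mu c = v₂ c / v₁ c := by
  have hz := Y.pull_isTriUnit hc₁ hc₁ hc₂ hu₁ hu₁ hu₂
  obtain ⟨l, m, hl, hm, htw'⟩ := X.twist n X.hn (ψ u) (KS.fam _ hK) _ _ _ hz
  obtain ⟨rfl, rfl⟩ := twist_unique X hK hz htw htw'
  obtain ⟨h', a, b, -, m₁, m₂, h𝓛, hv₁, hv₂⟩ :=
    exists_thin_section_alpha X Y hmul hN hc₁ hc₂ hu₁ hu₂ hK htw
  obtain ⟨a', b', hE⟩ := hpull h' m₁ m₂ h𝓛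
  have hv₁0 : ∀ c, lam c ^ a * c₁ ^ b ≠ 0 := fun c =>
    mul_ne_zero (pow_ne_zero _ (hl c)) (pow_ne_zero _ hc₁)
  have hv₂0 : ∀ c, (mu c ^ q) ^ a * c₂ ^ b ≠ 0 := fun c =>
    mul_ne_zero (pow_ne_zero _ (pow_ne_zero _ (hm c))) (pow_ne_zero _ hc₂)
  have t := pull_twist_alpha X Y hc₁ hc₂ hu₁ hu₂ hK m₁ m₂ hE hv₁0 hv₁ hv₂
  obtain ⟨e1, e2⟩ := twist_unique X hK hz htw t
  exact ⟨fun c => congrFun e1 c, h', _, _, m₁, m₂, h𝓛, hv₁0, hv₂0, hv₁, hv₂,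
    fun c => congrFun e2 c⟩

/-- **`mu (β^* u) = 1`**, and the first component of the twist of `β^* u` is read off a thin section
rational over the base field: `lam c = v₁ c / v₂ c` at the node `ND.cβ c`. -/
theorem twist_pull_beta {ι₂ : G₂ →+* F₂}
    (Y : PullCtx D L ψ L.W₂ L.y₂ ι₁ ι₂ ι₃ ND.cβ)
    (hmul : ∀ f f' : G, f ∈ L.𝓛' → f' ∈ L.𝓛' → f * f' ∈ L.𝓛')
    (hN : ∀ y : G, ND.Nβ (ψ y) = y ^ q) {u : G}
    {c₁ c₂ : IsLocalRing.ResidueField R} (hc₁ : c₁ ≠ 0) (hc₂ : c₂ ≠ 0)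
    (hu₁ : L.W₁.redF u = algebraMap _ G₁ c₁) (hu₂ : L.W₂.redF u = algebraMap _ G₂ c₂)
    (hK : KS.IsKum (ψ u))
    (hpull : ∀ h' : G, h' ∈ L.W₁.O → h' ∈ L.W₂.O → h' ^ n * u ∈ L.𝓛' →
      ∃ a b : ℕ, ψ h' ∈ (KS.fam (ψ u) hK).𝓔 a b)
    {lam mu : Fin D.s → IsLocalRing.ResidueField R}
    (htw : IsTwist D (KS.fam (ψ u) hK) lam mu) :
    (∀ c, mu c = 1) ∧ ∃ (h' : G) (v₁ v₂ : Fin D.s → IsLocalRing.ResidueField R),
      h' ∈ L.W₁.O ∧ h' ∈ L.W₂.O ∧ h' ^ n * u ∈ L.𝓛' ∧ (∀ c, v₁ c ≠ 0) ∧ (∀ c, v₂ c ≠ 0) ∧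
      (∀ c, HasValueAt (L.y₁ (ND.cβ c)) (L.W₁.redF h') (v₁ c)) ∧
      (∀ c, HasValueAt (L.y₂ (ND.cβ c)) (L.W₂.redF h') (v₂ c)) ∧ ∀ c, lam c = v₁ c / v₂ c := by
  have hz := Y.pull_isTriUnit hc₁ hc₂ hc₂ hu₁ hu₂ hu₂
  obtain ⟨l, m, hl, hm, htw'⟩ := X.twist n X.hn (ψ u) (KS.fam _ hK) _ _ _ hz
  obtain ⟨rfl, rfl⟩ := twist_unique X hK hz htw htw'
  obtain ⟨h', a, b, -, m₁, m₂, h𝓛, hv₁, hv₂⟩ :=
    exists_thin_section_beta X Y hmul hN hc₁ hc₂ hu₁ hu₂ hK htw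
  obtain ⟨a', b', hE⟩ := hpull h' m₁ m₂ h𝓛
  have hv₁0 : ∀ c, (lam c ^ q) ^ a * c₁ ^ b ≠ 0 := fun c =>
    mul_ne_zero (pow_ne_zero _ (pow_ne_zero _ (hl c))) (pow_ne_zero _ hc₁)
  have hv₂0 : ∀ c, mu c ^ a * c₂ ^ b ≠ 0 := fun c =>
    mul_ne_zero (pow_ne_zero _ (hm c)) (pow_ne_zero _ hc₂)
  have t := pull_twist_beta X Y hc₁ hc₂ hu₁ hu₂ hK m₁ m₂ hE hv₂0 hv₁ hv₂
  obtain ⟨e1, e2⟩ := twist_unique X hK hz htw t
  exact ⟨fun c => congrFun e2 c, h', _, _, m₁, m₂, h𝓛, hv₁0, hv₂0, hv₁, hv₂,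
    fun c => congrFun e1 c⟩

/-- **Decomposition from the twists alone**: a Kummer tri-unit `z` with twist `(lam, mu)` and two
Kummer tri-units `z₁` (twist `(l₁, m₁)`, `l₁` constant) and `z₂` (twist `(l₂, m₂)`, `m₂` constant)
with `mu ∼ m₁`, `lam ∼ l₂` up to constants: `z = c · yⁿ · z₁ · z₂`. -/
theorem eq_mul_of_twists {z z₁ z₂ : F} (hzK : KS.IsKum z) (hK₁ : KS.IsKum z₁) (hK₂ : KS.IsKum z₂)
    {b₁ b₂ b₃ d₁ d₂ d₃ e₁ e₂ e₃ : IsLocalRing.ResidueField R}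
    (hz : IsTriUnit D z b₁ b₂ b₃) (hz₁ : IsTriUnit D z₁ d₁ d₂ d₃) (hz₂ : IsTriUnit D z₂ e₁ e₂ e₃)
    {lam mu l₁ m₁ l₂ m₂ : Fin D.s → IsLocalRing.ResidueField R}
    (htw : IsTwist D (KS.fam z hzK) lam mu) (t₁ : IsTwist D (KS.fam z₁ hK₁) l₁ m₁)
    (t₂ : IsTwist D (KS.fam z₂ hK₂) l₂ m₂) {a b a' b' : IsLocalRing.ResidueField R}
    (h1 : ∀ c, l₁ c = a') (h2 : ∀ c, m₂ c = b') (hmu : ∀ c, mu c = a * m₁ c)
    (hlam : ∀ c, lam c = b * l₂ c) (ha' : a' ≠ 0) (hb' : b' ≠ 0) :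
    ∃ (c : K) (y : F), c ≠ 0 ∧ y ≠ 0 ∧ z = algebraMap K F c * y ^ n * (z₁ * z₂) := by
  have tm := twist_mul X hK₁ hK₂ hz₁ hz₂ t₁ t₂
  refine core_step' X hzK (KS.mul _ _ hK₁ hK₂) hz (isTriUnit_mul hz₁ hz₂) htw tm
    (a := b * a'⁻¹) (b := a * b'⁻¹) (fun c => ?_) (fun c => ?_)
  · rw [hlam c, h1 c, mul_assoc, ← mul_assoc a'⁻¹, inv_mul_cancel₀ ha', one_mul]
  · rw [hmu c, h2 c, mul_assoc, mul_comm (m₁ c), ← mul_assoc b'⁻¹, inv_mul_cancel₀ hb', one_mul]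

end Ctx

end Fermat.Agent.S59lib.LLsq
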