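/-
S59lib / LLsq / Inst  (helper4)  --  THE MODULAR INSTANCE of the toric readout

The concrete data of `S36lib.J.instGoal_of_bricks`, with names (there they are hidden in an `∃`):

* `modKS`, `modND` : the Kummer system of `FTop M q A` and the norm data along `α`, `β`;
* `modChainCtx` : `J.ChainCtx (modThick …) (modLow …) g gM gM gM gM gM n q modKS modND`
  from `ThickCtx` + `AlphaData` + `BetaData` (verbatim the first part of `instGoal_of_bricks`);
* `modPullAlpha`, `modPullBeta` : the two `PullCtx` records (`alphaFix`, `betaFix`);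
* `IsThinUnit n u c₁ c₂` : `u ∈ FMid M q A` is a Kummer function (`Fin.IsKumFn`) which reduces to the
  constants `c₁, c₂` along `gaussOneK`, `gaussTwoK`;
* `twist_alphaFix` : `twist (α^* u) = (1, mu)`, `mu` read off a thin section of `FMid M q A`;
  `twist_betaFix`  : `twist (β^* u) = (lam, 1)`;
* **`toric_decomp`** : a Kummer tri-unit `z ∈ FTop M q A` with constant reductions whose twist is matched
  (up to constants) by thin units `u₁, u₂` is `c · yⁿ · α^* u₁ · β^* u₂`.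
-/
import Fermat.Agent.S59lib.LLsq.Thin
import Fermat.Agent.S59lib.LLsq.PullInst
import Fermat.Agent.S59lib.LLsq.ChartPull
import Fermat.Agent.S36lib.J.Goal

set_option autoImplicit false
set_option linter.unusedSectionVars false
set_option linter.unusedVariables false
set_option linter.style.haveILetI false

noncomputable section

namespace Fermat.Agent.S59lib.LLsq

open AlgebraicCurve ModularCurve Module
open Fermat.Agent.S18lib Fermat.Agent.ProgramR Fermat.Agent.LSb Fermat.Agent.LSb.Unit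
open Fermat.Agent.S36lib.Desc Fermat.Agent.S36lib.Desc2 Fermat.Agent.S36lib.Inst
open Fermat.Agent.S36lib.Thick Fermat.Agent.S36lib.Norm Fermat.Agent.S36lib.J
open Fermat.Agent.S37lib.HeckeInst (FB)

local notation "Qb" => AlgebraicClosure ℚ

variable {M q : ℕ} [NeZero M] [NeZero q] [hq : Fact q.Prime]
variable {A : ValuationSubring (AlgebraicClosure ℚ)} {hqM : ¬ q ∣ M} {hA : A.LiesOverPrime q}
variable [HasPrincipalDivisors (IsLocalRing.ResidueField (Wfix A)) (FRes A M)]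
variable [NeZero (M * q)]
variable [HasPrincipalDivisors (AlgebraicClosure ℚ) (FBar M)]
variable [HasPrincipalDivisors (AlgebraicClosure ℚ) (FBar (M * q))]
variable [HasPrincipalDivisors (IsLocalRing.ResidueField A) (FRes A M)]

local notation "kW" => IsLocalRing.ResidueField (Wfix A)

variable (V₁ V₃ : GaussDatum (Wfix A) (FTop M q A) (FRes A M))
variable (V₂ : RamGaussDatum (Wfix A) (FTop M q A) (FRes A M))

/-- the modular low datum -/
abbrev mLow (M q : ℕ) [NeZero M] [NeZero q] [Fact q.Prime]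
    (A : ValuationSubring (AlgebraicClosure ℚ)) (hqM : ¬ q ∣ M) (hA : A.LiesOverPrime q)
    [NeZero (M * q)] :
    LowDatum (Wfix A) (FMid M q A) (FRes A M) (FRes A M) :=
  modLow M q A hqM hA (gaussOneK M q A hqM hA) (gaussTwoK M q A hqM hA)

/-- the chart hypotheses of the modular thick datum -/
theorem modCH {g : ℕ} (hF : IsCurveOfGenus Qb (FB (M * q * q)) g) :
    Fermat.Agent.S36lib.Fin.ChartHyp (M * q * q) (HI A) (chartP₁ M q A) (chartP₂ M q A hqM hA) g :=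
  Fermat.Agent.S36lib.Fin.chartHyp_polesOf_zerosOf hF (jTop M q A) ((c0W M q A hqM hA : Wfix A) : Kfix A)

theorem modHC : Fermat.Agent.S36lib.Fin.HasCharts (modThick M q A hqM hA V₁ V₂ V₃) (chartP₁ M q A)
    (chartP₂ M q A hqM hA) :=
  ⟨fun _ _ => rfl, degree_chartP₁.symm, degree_chartP₂.symm⟩

/-- **the Kummer system** of the modular thick datum -/
def modKS {n g : ℕ} (hn : n ≠ 0) (hF : IsCurveOfGenus Qb (FB (M * q * q)) g) :
    KummerSystem (modThick M q A hqM hA V₁ V₂ V₃) g n :=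
  Fermat.Agent.S36lib.Fin.kummerSystem (modCH (hqM := hqM) (hA := hA) hF) (modHC V₁ V₃ V₂) hn

/-- **the norm data** of the modular instance -/
def modND : NormData (modThick M q A hqM hA V₁ V₂ V₃) (mLow M q A hqM hA) :=
  ⟨normMonoidHom (alphaFix M q (HI A)), normMonoidHom (betaFix M q (HI A)),
    MonoidHom.id _, MonoidHom.id _, frobCoeffM hA, frobCoeffM hA, MonoidHom.id _, MonoidHom.id _,
    nodeα M q A hqM hA, nodeβ M q A hqM hA⟩

/-- functions of the chart spaces `𝓛 a 0` are regular off the cusps -/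
theorem modThick_regAway (a : ℕ) (f : FTop M q A)
    (hf : f ∈ (modThick M q A hqM hA V₁ V₂ V₃).𝓛 a 0) :
    ((f : FTop M q A) : FB (M * q * q)) ∈ regAway Qb (Gin0.jF (M * q * q)) := by
  have h1 : ((f : FTop M q A) : FB (M * q * q)) ∈
      riemannRochSpace (LSb.Core.lin2 (chartP₁ M q A) (chartP₂ M q A hqM hA) (a : ℕ) (0 : ℕ)) :=
    Fermat.Agent.S36lib.Fin.mem_chartL.1 hf
  rw [← coe_jTop (M := M) (q := q) (A := A)]
  apply mem_regAway_of_mem_rr a
  have e : LSb.Core.lin2 (chartP₁ M q A) (chartP₂ M q A hqM hA) ((a : ℕ) : ℤ) ((0 : ℕ) : ℤ) =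
      (a : ℤ) • polesOf (K := Qb) ((jTop M q A : FTop M q A) : FB (M * q * q)) := by
    rw [LSb.Core.lin2, Nat.cast_zero, zero_smul, add_zero]
    rfl
  rw [← e]
  exact h1

/-- **the chain context of the modular instance** (= the first part of
`S36lib.J.instGoal_of_bricks`, with the data exposed). -/
theorem modChainCtx {n g gM : ℕ} (hn : n ≠ 0) (hqn : Nat.Coprime q n)
    (hF : IsCurveOfGenus Qb (FB (M * q * q)) g)
    (hFk : IsCurveOfGenus (IsLocalRing.ResidueField A) (FRes A M) gM)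
    (C : ThickCtx (modThick M q A hqM hA V₁ V₂ V₃) g gM gM gM)
    (Xα : AlphaData (modThick M q A hqM hA V₁ V₂ V₃) (mLow M q A hqM hA)
      (alphaFix M q (HI A)) q (RingEquiv.refl (FRes A M)) (RingEquiv.refl (FRes A M)) (VqR hA))
    (Xβ : BetaData (modThick M q A hqM hA V₁ V₂ V₃) (mLow M q A hqM hA)
      (betaFix M q (HI A)) q (VqR hA) (RingEquiv.refl (FRes A M)) (RingEquiv.refl (FRes A M)))
    (ne₁₃ : V₁.O ≠ V₃.O) :
    ChainCtx (modThick M q A hqM hA V₁ V₂ V₃) (mLow M q A hqM hA) g gM gM gM gM gM n q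
      (modKS V₁ V₃ V₂ hn hF) (modND V₁ V₃ V₂) := by
  haveI := charP_FRes (M := M) hA
  set I := constIso hq.out hA M with hI
  exact
    { thick := C
      twist := C.existsTwistStatement
      nondeg := C.nondegStatement
      core := C.thickCoreStatement
      hn := natCast_resW_ne_zero hA hqn
      hq := hq.out.two_le
      hqn := hqn
      he := rfl
      const00 := (modHC V₁ V₃ V₂).const00 (modCH hF)
      ne₁₂ := Xα.ne₁₂
      ne₁₃ := ne₁₃
      ne₂₃ := Xβ.ne₂₃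
      hG₁ := modLow_isCurveOfGenus M q A hA hFk
      hG₂ := modLow_isCurveOfGenus M q A hA hFk
      low_smul := modLow_smul M q A hqM hA _ _
      low_root := modLow_root M q A hqM hA _ _ hn
      low_glue := modLow_glue M q A hqM hA _ _ hFk
        (fun _ => mem_gaussOneK_O M q A hqM hA) (gaussOneK_redF M q A hqM hA)
        (fun _ => mem_gaussTwoK_O M q A hqM hA) (gaussTwoK_redF M q A hqM hA)
      normα := normCtx_alpha I (alphaFix_algebraMap M q (HI A)) hA Xα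
        (fun a f hf => coe_normHom_alphaFix_mem_regAway M q (HI A) hq.out hqM f
          (modThick_regAway V₁ V₃ V₂ a f hf))
        (nodeα M q A hqM hA) (fun c => Fin.append_right _ _ c)
        (ssPt M q A hqM hA) (fun c => rfl) (fun c => Fin.append_right _ _ c)
      normβ := normCtx_beta I (betaFix_algebraMap M q (HI A)) hA Xβ
        (fun a f hf => coe_normHom_betaFix_mem_regAway M q (HI A) hq.out hqM f
          (modThick_regAway V₁ V₃ V₂ a f hf))
        (nodeβ M q A hqM hA) (fun c => Fin.append_left _ _ c)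
        (ssPt M q A hqM hA) (fun c => rfl) (fun c => Fin.append_left _ _ c)
      ordα₁ := Xα.ord₁
      ordα₂ := Xα.ord₂
      ordβ₁ := Xβ.ord₁
      ordβ₂ := Xβ.ord₂
      retr₁ := retr_frobCoeffM I hA
      retr₂ := retr_id
      retr₃ := retr_frobCoeffM I hA }

/-! ### the two pullbacks -/

/-- the norm of a pullback is the `deg`-th power -/
theorem normMonoidHom_map {G F : Type*} [Field G] [Field F] (ψ : G →+* F) {d : ℕ}
    (hdeg : finrankHom ψ = d) (y : G) : normMonoidHom ψ (ψ y) = y ^ d := by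
  letI := ψ.toAlgebra
  show Algebra.norm G (algebraMap G F y) = _
  rw [Algebra.norm_algebraMap]
  exact congrArg _ hdeg

/-- **the `PullCtx` record of `α^* = alphaFix`** -/
theorem modPullAlpha
    (Xα : AlphaData (modThick M q A hqM hA V₁ V₂ V₃) (mLow M q A hqM hA)
      (alphaFix M q (HI A)) q (RingEquiv.refl (FRes A M)) (RingEquiv.refl (FRes A M)) (VqR hA)) :
    PullCtx (modThick M q A hqM hA V₁ V₂ V₃) (mLow M q A hqM hA) (alphaFix M q (HI A))
      (mLow M q A hqM hA).W₁ (mLow M q A hqM hA).y₁ (RingHom.id (FRes A M))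
      (RingHom.id (FRes A M)) (VqR hA) (modND (hqM := hqM) (hA := hA) V₁ V₃ V₂).cα :=
  pullCtx_alpha (constIso hq.out hA M) hA Xα (nodeα M q A hqM hA)
    (fun c => Fin.append_right _ _ c) (fun c => rfl) (ssPt M q A hqM hA) (fun c => rfl)
    (fun c => Fin.append_right _ _ c)

/-- **the `PullCtx` record of `β^* = betaFix`** -/
theorem modPullBeta
    (Xβ : BetaData (modThick M q A hqM hA V₁ V₂ V₃) (mLow M q A hqM hA)
      (betaFix M q (HI A)) q (VqR hA) (RingEquiv.refl (FRes A M)) (RingEquiv.refl (FRes A M))) :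
    PullCtx (modThick M q A hqM hA V₁ V₂ V₃) (mLow M q A hqM hA) (betaFix M q (HI A))
      (mLow M q A hqM hA).W₂ (mLow M q A hqM hA).y₂ (VqR hA) (RingHom.id (FRes A M))
      (RingHom.id (FRes A M)) (modND (hqM := hqM) (hA := hA) V₁ V₃ V₂).cβ :=
  pullCtx_beta (constIso hq.out hA M) hA Xβ (nodeβ M q A hqM hA)
    (fun c => Fin.append_left _ _ c) (fun c => rfl) (ssPt M q A hqM hA) (fun c => rfl)
    (fun c => Fin.append_left _ _ c)

/-- `𝓛'` of the modular low datum is closed under products -/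
theorem mLow_mul (f f' : FMid M q A) (hf : f ∈ (mLow M q A hqM hA).𝓛')
    (hf' : f' ∈ (mLow M q A hqM hA).𝓛') : f * f' ∈ (mLow M q A hqM hA).𝓛' := by
  show ((f * f' : FMid M q A) : FB (M * q)) ∈ regAway Qb (Gin0.jF (M * q))
  rw [Subfield.coe_mul]
  exact Subring.mul_mem _ hf hf'

/-- pulled back thin sections lie in the Kummer family, along `α` -/
theorem mod_hpull_alpha {n g : ℕ} (hn : n ≠ 0) (hF : IsCurveOfGenus Qb (FB (M * q * q)) g)
    {u : FMid M q A} (hu : Fermat.Agent.S36lib.Fin.IsKumFn (HI A) n u)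
    (hK : (modKS (hqM := hqM) (hA := hA) V₁ V₃ V₂ hn hF).IsKum (alphaFix M q (HI A) u))
    (h' : FMid M q A) (hh : h' ^ n * u ∈ (mLow M q A hqM hA).𝓛') :
    ∃ a b : ℕ, alphaFix M q (HI A) h' ∈
      ((modKS (hqM := hqM) (hA := hA) V₁ V₃ V₂ hn hF).fam (alphaFix M q (HI A) u) hK).𝓔 a b := by
  have hreg : (((alphaFix M q (HI A) h') ^ n * alphaFix M q (HI A) u : FTop M q A) :
      FB (M * q * q)) ∈ regAway Qb ((jTop M q A : FTop M q A) : FB (M * q * q)) := by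
    rw [coe_jTop, ← map_pow, ← map_mul]
    exact Fermat.Agent.S36lib.Eis.coe_alphaFix_mem_regAway M q (HI A) hh
  obtain ⟨a, ha⟩ := exists_mem_chartE_of_regAway _ (chartP₂ M q A hqM hA) hn hK _ hreg
  exact ⟨a, 0, ha⟩

/-- pulled back thin sections lie in the Kummer family, along `β` -/
theorem mod_hpull_beta {n g : ℕ} (hn : n ≠ 0) (hF : IsCurveOfGenus Qb (FB (M * q * q)) g)
    {u : FMid M q A} (hu : Fermat.Agent.S36lib.Fin.IsKumFn (HI A) n u)
    (hK : (modKS (hqM := hqM) (hA := hA) V₁ V₃ V₂ hn hF).IsKum (betaFix M q (HI A) u))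
    (h' : FMid M q A) (hh : h' ^ n * u ∈ (mLow M q A hqM hA).𝓛') :
    ∃ a b : ℕ, betaFix M q (HI A) h' ∈
      ((modKS (hqM := hqM) (hA := hA) V₁ V₃ V₂ hn hF).fam (betaFix M q (HI A) u) hK).𝓔 a b := by
  have hreg : (((betaFix M q (HI A) h') ^ n * betaFix M q (HI A) u : FTop M q A) :
      FB (M * q * q)) ∈ regAway Qb ((jTop M q A : FTop M q A) : FB (M * q * q)) := by
    rw [coe_jTop, ← map_pow, ← map_mul]
    exact Fermat.Agent.S36lib.Eis.coe_betaFix_mem_regAway M q (HI A) hh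
  obtain ⟨a, ha⟩ := exists_mem_chartE_of_regAway _ (chartP₂ M q A hqM hA) hn hK _ hreg
  exact ⟨a, 0, ha⟩

/-! ### thin units and the toric decomposition -/

/-- **thin Kummer units**: a Kummer function of level `M q`, rational over the inertia field, which
reduces to the non-zero constants `c₁`, `c₂` on the two components. -/
structure IsThinUnit (hqM : ¬ q ∣ M) (hA : A.LiesOverPrime q) (n : ℕ) (u : FMid M q A)
    (c₁ c₂ : kW) : Prop where
  kum : Fermat.Agent.S36lib.Fin.IsKumFn (HI A) n u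
  c₁_ne : c₁ ≠ 0
  c₂_ne : c₂ ≠ 0
  red₁ : (gaussOneK M q A hqM hA).redF u = algebraMap kW (FRes A M) c₁
  red₂ : (gaussTwoK M q A hqM hA).redF u = algebraMap kW (FRes A M) c₂

section Main

variable {n g gM : ℕ} (hn : n ≠ 0) (hqn : Nat.Coprime q n)
  (hF : IsCurveOfGenus Qb (FB (M * q * q)) g)
  (hFk : IsCurveOfGenus (IsLocalRing.ResidueField A) (FRes A M) gM)
  (C : ThickCtx (modThick M q A hqM hA V₁ V₂ V₃) g gM gM gM)
  (Xα : AlphaData (modThick M q A hqM hA V₁ V₂ V₃) (mLow M q A hqM hA)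
    (alphaFix M q (HI A)) q (RingEquiv.refl (FRes A M)) (RingEquiv.refl (FRes A M)) (VqR hA))
  (Xβ : BetaData (modThick M q A hqM hA V₁ V₂ V₃) (mLow M q A hqM hA)
    (betaFix M q (HI A)) q (VqR hA) (RingEquiv.refl (FRes A M)) (RingEquiv.refl (FRes A M)))
  (ne₁₃ : V₁.O ≠ V₃.O)

include hqn hFk C Xα Xβ ne₁₃

/-- `α^* u` is a Kummer tri-unit with constant reductions `(c₁, c₁, c₂)` -/
theorem isTriUnit_alphaFix {u : FMid M q A} {c₁ c₂ : kW} (hu : IsThinUnit hqM hA n u c₁ c₂) :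
    (modKS (hqM := hqM) (hA := hA) V₁ V₃ V₂ hn hF).IsKum (alphaFix M q (HI A) u) ∧
      IsTriUnit (modThick M q A hqM hA V₁ V₂ V₃) (alphaFix M q (HI A) u) c₁ c₁ c₂ :=
  ⟨isKumFn_alphaFix (HI A) M q hu.kum,
    (modPullAlpha V₁ V₃ V₂ Xα).pull_isTriUnit hu.c₁_ne hu.c₁_ne hu.c₂_ne hu.red₁ hu.red₁ hu.red₂⟩

/-- `β^* u` is a Kummer tri-unit with constant reductions `(c₁, c₂, c₂)` -/
theorem isTriUnit_betaFix {u : FMid M q A} {c₁ c₂ : kW} (hu : IsThinUnit hqM hA n u c₁ c₂) :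
    (modKS (hqM := hqM) (hA := hA) V₁ V₃ V₂ hn hF).IsKum (betaFix M q (HI A) u) ∧
      IsTriUnit (modThick M q A hqM hA V₁ V₂ V₃) (betaFix M q (HI A) u) c₁ c₂ c₂ :=
  ⟨isKumFn_betaFix (HI A) M q hu.kum,
    (modPullBeta V₁ V₃ V₂ Xβ).pull_isTriUnit hu.c₁_ne hu.c₂_ne hu.c₂_ne hu.red₁ hu.red₂ hu.red₂⟩

/-- **the thick twist of `α^* u` is `(1, mu)`**, and `mu c = v₂ c / v₁ c` for the values at the node
`nodeα c = (ssPt c, Fr (ssPt c))` of a thin section `h' ∈ FMid M q A`. -/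
theorem twist_alphaFix {u : FMid M q A} {c₁ c₂ : kW} (hu : IsThinUnit hqM hA n u c₁ c₂)
    {lam mu : Fin (modThick M q A hqM hA V₁ V₂ V₃).s → kW}
    (htw : IsTwist (modThick M q A hqM hA V₁ V₂ V₃)
      ((modKS (hqM := hqM) (hA := hA) V₁ V₃ V₂ hn hF).fam (alphaFix M q (HI A) u)
        (isKumFn_alphaFix (HI A) M q hu.kum)) lam mu) :
    (∀ c, lam c = 1) ∧ ∃ (h' : FMid M q A) (v₁ v₂ : Fin (modThick M q A hqM hA V₁ V₂ V₃).s → kW),
      h' ∈ (gaussOneK M q A hqM hA).O ∧ h' ∈ (gaussTwoK M q A hqM hA).O ∧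
      h' ^ n * u ∈ (mLow M q A hqM hA).𝓛' ∧ (∀ c, v₁ c ≠ 0) ∧ (∀ c, v₂ c ≠ 0) ∧
      (∀ c, LSb.HasValueAt ((mLow M q A hqM hA).y₁ (nodeα M q A hqM hA c))
        ((gaussOneK M q A hqM hA).redF h') (v₁ c)) ∧
      (∀ c, LSb.HasValueAt ((mLow M q A hqM hA).y₂ (nodeα M q A hqM hA c))
        ((gaussTwoK M q A hqM hA).redF h') (v₂ c)) ∧ ∀ c, mu c = v₂ c / v₁ c :=
  twist_pull_alpha (modChainCtx V₁ V₃ V₂ hn hqn hF hFk C Xα Xβ ne₁₃) (modPullAlpha V₁ V₃ V₂ Xα)
    mLow_mul (normMonoidHom_map _ Xα.deg) hu.c₁_ne hu.c₂_ne hu.red₁ hu.red₂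
    (isKumFn_alphaFix (HI A) M q hu.kum)
    (fun h' _ _ hh => mod_hpull_alpha V₁ V₃ V₂ hn hF hu.kum _ h' hh) htw

/-- **the thick twist of `β^* u` is `(lam, 1)`**, and `lam c = v₁ c / v₂ c` for the values at the node
`nodeβ c = (Fr (ssPt c), ssPt c)` of a thin section `h' ∈ FMid M q A`. -/
theorem twist_betaFix {u : FMid M q A} {c₁ c₂ : kW} (hu : IsThinUnit hqM hA n u c₁ c₂)
    {lam mu : Fin (modThick M q A hqM hA V₁ V₂ V₃).s → kW}
    (htw : IsTwist (modThick M q A hqM hA V₁ V₂ V₃)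
      ((modKS (hqM := hqM) (hA := hA) V₁ V₃ V₂ hn hF).fam (betaFix M q (HI A) u)
        (isKumFn_betaFix (HI A) M q hu.kum)) lam mu) :
    (∀ c, mu c = 1) ∧ ∃ (h' : FMid M q A) (v₁ v₂ : Fin (modThick M q A hqM hA V₁ V₂ V₃).s → kW),
      h' ∈ (gaussOneK M q A hqM hA).O ∧ h' ∈ (gaussTwoK M q A hqM hA).O ∧
      h' ^ n * u ∈ (mLow M q A hqM hA).𝓛' ∧ (∀ c, v₁ c ≠ 0) ∧ (∀ c, v₂ c ≠ 0) ∧
      (∀ c, LSb.HasValueAt ((mLow M q A hqM hA).y₁ (nodeβ M q A hqM hA c))
        ((gaussOneK M q A hqM hA).redF h') (v₁ c)) ∧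
      (∀ c, LSb.HasValueAt ((mLow M q A hqM hA).y₂ (nodeβ M q A hqM hA c))
        ((gaussTwoK M q A hqM hA).redF h') (v₂ c)) ∧ ∀ c, lam c = v₁ c / v₂ c :=
  twist_pull_beta (modChainCtx V₁ V₃ V₂ hn hqn hF hFk C Xα Xβ ne₁₃) (modPullBeta V₁ V₃ V₂ Xβ)
    mLow_mul (normMonoidHom_map _ Xβ.deg) hu.c₁_ne hu.c₂_ne hu.red₁ hu.red₂
    (isKumFn_betaFix (HI A) M q hu.kum)
    (fun h' _ _ hh => mod_hpull_beta V₁ V₃ V₂ hn hF hu.kum _ h' hh) htw

/-- **THE TORIC DECOMPOSITION (modular instance).**  A Kummer tri-unit `z ∈ FTop M q A` with constant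
reductions and twist `(lam, mu)`; thin units `u₁, u₂ ∈ FMid M q A` such that the twist `(1, m₁)` of
`α^* u₁` has `mu = a · m₁` and the twist `(l₂, 1)` of `β^* u₂` has `lam = b · l₂`.  Then
`z = c · yⁿ · α^* u₁ · β^* u₂` with `c ∈ (Kfix A)ˣ`, `y ∈ (FTop M q A)ˣ`. -/
theorem toric_decomp {z : FTop M q A}
    (hzK : (modKS (hqM := hqM) (hA := hA) V₁ V₃ V₂ hn hF).IsKum z) {b₁ b₂ b₃ : kW}
    (hz : IsTriUnit (modThick M q A hqM hA V₁ V₂ V₃) z b₁ b₂ b₃)
    {lam mu : Fin (modThick M q A hqM hA V₁ V₂ V₃).s → kW}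
    (htw : IsTwist (modThick M q A hqM hA V₁ V₂ V₃)
      ((modKS (hqM := hqM) (hA := hA) V₁ V₃ V₂ hn hF).fam z hzK) lam mu)
    {u₁ u₂ : FMid M q A} {c₁ c₂ d₁ d₂ : kW} (hu₁ : IsThinUnit hqM hA n u₁ c₁ c₂)
    (hu₂ : IsThinUnit hqM hA n u₂ d₁ d₂)
    {l₁ m₁ l₂ m₂ : Fin (modThick M q A hqM hA V₁ V₂ V₃).s → kW}
    (t₁ : IsTwist (modThick M q A hqM hA V₁ V₂ V₃)
      ((modKS (hqM := hqM) (hA := hA) V₁ V₃ V₂ hn hF).fam (alphaFix M q (HI A) u₁)
        (isKumFn_alphaFix (HI A) M q hu₁.kum)) l₁ m₁)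
    (t₂ : IsTwist (modThick M q A hqM hA V₁ V₂ V₃)
      ((modKS (hqM := hqM) (hA := hA) V₁ V₃ V₂ hn hF).fam (betaFix M q (HI A) u₂)
        (isKumFn_betaFix (HI A) M q hu₂.kum)) l₂ m₂)
    {a b : kW} (hmu : ∀ c, mu c = a * m₁ c) (hlam : ∀ c, lam c = b * l₂ c) :
    ∃ (c : Kfix A) (y : FTop M q A), c ≠ 0 ∧ y ≠ 0 ∧
      z = algebraMap (Kfix A) (FTop M q A) c * y ^ n *
        (alphaFix M q (HI A) u₁ * betaFix M q (HI A) u₂) := by
  have X := modChainCtx V₁ V₃ V₂ hn hqn hF hFk C Xα Xβ ne₁₃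
  have h1 := (twist_alphaFix V₁ V₃ V₂ hn hqn hF hFk C Xα Xβ ne₁₃ hu₁ t₁).1
  have h2 := (twist_betaFix V₁ V₃ V₂ hn hqn hF hFk C Xα Xβ ne₁₃ hu₂ t₂).1
  exact eq_mul_of_twists X hzK _ _ hz
    (isTriUnit_alphaFix V₁ V₃ V₂ hn hqn hF hFk C Xα Xβ ne₁₃ hu₁).2
    (isTriUnit_betaFix V₁ V₃ V₂ hn hqn hF hFk C Xα Xβ ne₁₃ hu₂).2 htw t₁ t₂ h1 h2 hmu hlam
    one_ne_zero one_ne_zero

end Main

end Fermat.Agent.S59lib.LLsq
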