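/-
S59lib / LLsq / ThinSteps  (helper4)  --  (D2): the two reduction steps at the THIN level `M q`

Two Gauss data `W₁ ≠ W₂` on `G / K` over a discretely valued base `(K, R, π)`:

* `exists_approx₂`, `exists_valuation_eq₂` : approximation for two distinct rank one valuation rings;
* `exists_unit_of_orders` : if the orders `w₁, w₂` of `u` along `W₁, W₂` are congruent mod `n` then
  `u · π^{-w₁} · fⁿ` is a unit along both, for a suitable `f`;
* `exists_lift_pair` : simultaneous lifting of a pair of residues.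
-/
import Fermat.Agent.S36lib.J.Three

set_option autoImplicit false

noncomputable section

namespace Fermat.Agent.S59lib.LLsq

open Fermat.Agent.S18lib Fermat.Agent.S36lib.Thick Fermat.Agent.S36lib.Norm Fermat.Agent.S36lib.J

section Two

variable {F : Type*} [Field F] {O₁ O₂ : ValuationSubring F}

theorem two_incomparable (h₁ : IsArch O₁) (h₂ : IsArch O₂) (t₁ : O₁ ≠ ⊤) (t₂ : O₂ ≠ ⊤)
    (n₁₂ : O₁ ≠ O₂) : ∀ i j : Fin 2, i ≠ j → ¬ (![O₁, O₂] i) ≤ (![O₁, O₂] j) := by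
  intro i j hij
  fin_cases i <;> fin_cases j
  · exact absurd rfl hij
  · exact not_le_of_isArch h₁ t₂ n₁₂
  · exact not_le_of_isArch h₂ t₁ (Ne.symm n₁₂)
  · exact absurd rfl hij

theorem two_isArch (h₁ : IsArch O₁) (h₂ : IsArch O₂) : ∀ i : Fin 2, IsArch (![O₁, O₂] i) := by
  intro i
  fin_cases i
  · exact h₁
  · exact h₂

/-- approximation at two places -/
theorem exists_approx₂ (h₁ : IsArch O₁) (h₂ : IsArch O₂) (t₁ : O₁ ≠ ⊤) (t₂ : O₂ ≠ ⊤)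
    (n₁₂ : O₁ ≠ O₂) (a₁ a₂ : F) :
    ∃ x : F, O₁.valuation (x - a₁) < 1 ∧ O₂.valuation (x - a₂) < 1 := by
  obtain ⟨x, hx⟩ := exists_approx ![O₁, O₂] (two_incomparable h₁ h₂ t₁ t₂ n₁₂)
    (two_isArch h₁ h₂) ![a₁, a₂] (fun _ => 1) (fun _ => one_ne_zero)
  have e₁ : O₁.valuation (x - a₁) < O₁.valuation 1 := hx 0
  have e₂ : O₂.valuation (x - a₂) < O₂.valuation 1 := hx 1
  rw [map_one] at e₁ e₂
  exact ⟨x, e₁, e₂⟩

/-- prescribed valuations at two places -/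
theorem exists_valuation_eq₂ (h₁ : IsArch O₁) (h₂ : IsArch O₂) (t₁ : O₁ ≠ ⊤) (t₂ : O₂ ≠ ⊤)
    (n₁₂ : O₁ ≠ O₂) {a₁ a₂ : F} (ha₁ : a₁ ≠ 0) (ha₂ : a₂ ≠ 0) :
    ∃ x : F, x ≠ 0 ∧ O₁.valuation x = O₁.valuation a₁ ∧ O₂.valuation x = O₂.valuation a₂ := by
  have ha : ∀ i : Fin 2, ![a₁, a₂] i ≠ 0 := by
    intro i
    fin_cases i
    · exact ha₁
    · exact ha₂
  obtain ⟨x, hx0, hx⟩ := exists_valuation_eq ![O₁, O₂] (two_incomparable h₁ h₂ t₁ t₂ n₁₂)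
    (two_isArch h₁ h₂) ![a₁, a₂] ha
  exact ⟨x, hx0, hx 0, hx 1⟩

end Two

section Gauss

variable {K : Type*} [Field K] {R : ValuationSubring K} {π : K} (B : BaseDVR R π)
variable {G : Type*} [Field G] [Algebra K G]
variable {G₁ G₂ : Type*} [Field G₁] [Field G₂]
variable [Algebra (IsLocalRing.ResidueField R) G₁] [Algebra (IsLocalRing.ResidueField R) G₂]
variable (W₁ : GaussDatum R G G₁) (W₂ : GaussDatum R G G₂)

include B in
/-- **(D2a)**: congruent orders can be removed by a constant and an `n`-th power. -/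
theorem exists_unit_of_orders (hne : W₁.O ≠ W₂.O) {u : G} {w₁ w₂ : ℤ} {n : ℕ}
    (h₁ : W₁.O.valuation u = W₁.O.valuation (algebraMap K G π) ^ w₁)
    (h₂ : W₂.O.valuation u = W₂.O.valuation (algebraMap K G π) ^ w₂)
    (hdvd : (n : ℤ) ∣ w₁ - w₂) :
    ∃ f : G, f ≠ 0 ∧ W₁.O.valuation (u * algebraMap K G π ^ (-w₁) * f ^ n) = 1 ∧
      W₂.O.valuation (u * algebraMap K G π ^ (-w₁) * f ^ n) = 1 := by
  obtain ⟨m, hm⟩ := hdvd
  have hπG : algebraMap K G π ≠ 0 := algebraMap_pi_ne_zero B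
  obtain ⟨f, hf0, hf₁, hf₂⟩ := exists_valuation_eq₂ (gauss_isArch B W₁) (gauss_isArch B W₂)
    (gauss_ne_top B W₁) (gauss_ne_top B W₂) hne (one_ne_zero (α := G)) (zpow_ne_zero m hπG)
  have hv₁ : W₁.O.valuation (algebraMap K G π) ≠ 0 := (map_ne_zero _).2 hπG
  have hv₂ : W₂.O.valuation (algebraMap K G π) ≠ 0 := (map_ne_zero _).2 hπG
  refine ⟨f, hf0, ?_, ?_⟩
  · rw [map_mul, map_mul, map_pow, hf₁, map_one, one_pow, mul_one, h₁, map_zpow₀,
      ← zpow_add₀ hv₁, add_neg_cancel, zpow_zero]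
  · rw [map_mul, map_mul, map_pow, hf₂, h₂, map_zpow₀, map_zpow₀, ← zpow_natCast, ← zpow_mul,
      ← zpow_add₀ hv₂, ← zpow_add₀ hv₂]
    have e : w₂ + -w₁ + m * (n : ℤ) = 0 := by linarith
    rw [e, zpow_zero]

include B in
/-- **(D2c)**: simultaneous lifting of two residues. -/
theorem exists_lift_pair (hne : W₁.O ≠ W₂.O) (s₁ : G₁) (s₂ : G₂) :
    ∃ x : G, x ∈ W₁.O ∧ x ∈ W₂.O ∧ W₁.redF x = s₁ ∧ W₂.redF x = s₂ := by
  obtain ⟨A₁, hA₁, rA₁⟩ := (gaussPlace W₁).exists_redF_eq s₁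
  obtain ⟨A₂, hA₂, rA₂⟩ := (gaussPlace W₂).exists_redF_eq s₂
  obtain ⟨x, hx₁, hx₂⟩ := exists_approx₂ (gauss_isArch B W₁) (gauss_isArch B W₂)
    (gauss_ne_top B W₁) (gauss_ne_top B W₂) hne A₁ A₂
  have rx₁ : (gaussPlace W₁).redF x = s₁ := by
    rw [(gaussPlace W₁).redF_eq_of_sub_lt hA₁ hx₁, rA₁]
  have rx₂ : (gaussPlace W₂).redF x = s₂ := by
    rw [(gaussPlace W₂).redF_eq_of_sub_lt hA₂ hx₂, rA₂]
  have m₁ : x ∈ W₁.O := by
    have hd : x - A₁ ∈ W₁.O := (W₁.O.valuation_le_one_iff _).1 hx₁.le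
    have := W₁.O.add_mem _ _ hd hA₁
    rwa [sub_add_cancel] at this
  have m₂ : x ∈ W₂.O := by
    have hd : x - A₂ ∈ W₂.O := (W₂.O.valuation_le_one_iff _).1 hx₂.le
    have := W₂.O.add_mem _ _ hd hA₂
    rwa [sub_add_cancel] at this
  exact ⟨x, m₁, m₂, rx₁, rx₂⟩

end Gauss

end Fermat.Agent.S59lib.LLsq
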