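/-
S59lib / LLsq / ThinUnit  (helper4)  --  (D1)+(D2) assembled: every class of the toric part of
`J₀(M q)[n]` (over `ℚ̄`) is represented by a THIN UNIT of the inertia-fixed field `FMid M q A`

* `gaussK_O_ne` : the two `K`-rational Gauss valuations of level `M q` are different;
* **`exists_thinUnit_of_mem_toricPart`** : `q ≥ 5`, `n ≠ q` prime, `x ∈ toricPart (Kap.modNod hqM hA) n`
  ⟹ there are `u ∈ FMid M q A` with `IsThinUnit hqM hA n u c₁ c₂` and a divisor `E` of degree `0` with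
  `[E] = x`, `div u = n E`.
-/
import Fermat.Agent.S59lib.LLsq.DescentArith
import Fermat.Agent.S59lib.LLsq.ThinSteps
import Fermat.Agent.S59lib.LLsq.Inst
import Fermat.Agent.S43lib.B0.Toric.Part
import Fermat.Agent.S36lib.J.ClassDescentBar
import Fermat.Agent.S36lib.Desc2.LiftM
import Fermat.Agent.LSb.Frame.Modular

set_option autoImplicit false
set_option linter.unusedSectionVars false
set_option linter.unusedVariables false
set_option linter.style.haveILetI false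

noncomputable section

namespace Fermat.Agent.S59lib.LLsq

open AlgebraicCurve ModularCurve Module
open Fermat.Agent.S18lib Fermat.Agent.LSb Fermat.Agent.S37lib
open Fermat.Agent.S29lib.GH Fermat.Agent.S44lib
open Fermat.Agent.S36lib.Desc Fermat.Agent.S36lib.Desc2 Fermat.Agent.S36lib.Inst
open Fermat.Agent.S36lib.J (BaseDVR)

local notation "Qb" => AlgebraicClosure ℚ
local notation "GQ" => (AlgebraicClosure ℚ ≃ₐ[ℚ] AlgebraicClosure ℚ)

variable {M q : ℕ} [NeZero M] [NeZero q] [hq : Fact q.Prime]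
variable {A : ValuationSubring (AlgebraicClosure ℚ)} (hqM : ¬ q ∣ M) (hA : A.LiesOverPrime q)

local notation "kA" => IsLocalRing.ResidueField A
local notation "kW" => IsLocalRing.ResidueField (Wfix A)

include hA in
/-- the base discrete valuation ring `(Kfix A, Wfix A, q)` -/
theorem baseDVR_Wfix : BaseDVR (Wfix A) (qK A q) :=
  ⟨qK_mem A q, qK_inv_not_mem hq.out hA, Fermat.Agent.S36lib.Inst.exists_zpow_mul_unit hq.out hA⟩

open Polynomial in
/-- **the two `K`-rational Gauss valuations of level `M q` are different** -/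
theorem gaussK_O_ne : (gaussOneK M q A hqM hA).O ≠ (gaussTwoK M q A hqM hA).O := by
  intro heq
  have h1 := Val.isGaussOne_gaussOne M q A hqM hA
  have h2 := Val.isGaussTwo_gaussTwo M q A hqM hA
  have hwq : ∀ x : FBar (M * q), ((Val.wq M q hq.out hqM : FBar (M * q) ≃ₐ[Qb] FBar (M * q)) :
      FBar (M * q) →+* FBar (M * q)) (((Val.wq M q hq.out hqM : FBar (M * q) ≃ₐ[Qb] FBar (M * q)) :
      FBar (M * q) →+* FBar (M * q)) x) = x := fun x => Val.wq_wq M q hq.out hqM x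
  set D1 := Val.gaussOne M q A hqM hA with hD1
  set D2 := Val.gaussTwo M q A hqM hA with hD2
  have hfr := Frame.frameM (M := M) (q := q) hqM hA
  set jM := Gin0.jF M with hjM
  have hjO : jM ∈ (V.gaussDatum M A hqM hA).O := hfr.y_mem
  set u : FBar (M * q) := Old.beta M q jM - (Old.alpha M q jM) ^ q with hu
  have ha1 : Old.alpha M q jM ∈ D1.O := (Old.alpha_mem_iff hqM hA h1 jM).2 hjO
  have hb1 : Old.beta M q jM ∈ D1.O := (Old.beta_mem_iff hqM hA h1 jM).2 hjO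
  have ha2 : Old.alpha M q jM ∈ D2.O := (Old.alpha_mem_iff₂ hqM hA h1 h2 jM).2 hjO
  have hb2 : Old.beta M q jM ∈ D2.O := (Frame.beta_mem_iff₂ hqM hA h1 h2 hwq jM).2 hjO
  have hu1 : D1.redF u = 0 := by
    rw [hu, D1.redF_sub hb1 (D1.O.pow_mem ha1 q), D1.redF_pow ha1, Old.redF_beta hqM hA h1,
      Old.redF_alpha hqM hA h1, Frame.redF_jF hqM hA, Frame.Vq_jRes hA, sub_self]
  have hu2 : D2.redF u = V.jRes M A - (V.jRes M A ^ q) ^ q := by
    rw [hu, D2.redF_sub hb2 (D2.O.pow_mem ha2 q), D2.redF_pow ha2,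
      Frame.redF_beta₂ hqM hA h1 h2 hwq, Old.redF_alpha₂ hqM hA h1 h2, Frame.redF_jF hqM hA,
      Frame.Vq_jRes hA]
  have hu2ne : D2.redF u ≠ 0 := by
    rw [hu2]
    intro h0
    have htr := Frame.transcendental_jRes (M := M) (q := q) (A := A) hqM hA
    have hp : aeval (V.jRes M A) ((X : kA[X]) - (X ^ q) ^ q) = 0 := by
      simpa using h0
    have := transcendental_iff.1 htr _ hp
    have hc : ((X : kA[X]) - (X ^ q) ^ q).coeff 1 = 1 := by
      rw [← pow_mul, coeff_sub, coeff_X_one, coeff_X_pow, if_neg, sub_zero]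
      have := hq.out.two_le
      nlinarith
    rw [this, coeff_zero] at hc
    exact zero_ne_one hc
  -- `u` lies in the fixed field
  have hufix : u ∈ fixF (M * q) (HI A) := by
    rw [mem_fixF]
    intro σ hσ
    have hj : galAutBar M σ • jM = jM := (mem_fixF.1 (jF_mem_fixF M (HI A))) σ hσ
    have e1 : galAutBar (M * q) σ • Old.alpha M q jM = Old.alpha M q jM := by
      have := intertwines_alpha M q σ jM
      rw [hj] at this
      exact this
    have e2 : galAutBar (M * q) σ • Old.beta M q jM = Old.beta M q jM := by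
      have := intertwines_beta M q σ jM
      rw [hj] at this
      exact this
    rw [hu, smul_sub, smul_pow', e1, e2]
  have hu0 : u ≠ 0 := by
    intro h0
    rw [h0] at hu2ne
    exact hu2ne D2.redF_zero
  -- `u⁻¹ ∈ D2.O`, hence in `D1.O`
  have hui2 : u⁻¹ ∈ D2.O := D2.inv_mem_of_redF_ne_zero hu2ne
  have hui1 : u⁻¹ ∈ D1.O := by
    have h3 : ((⟨u, hufix⟩ : FMid M q A)⁻¹ : FMid M q A) ∈ (gaussTwoK M q A hqM hA).O := by
      rw [mem_gaussTwoK_O]
      exact hui2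
    rw [← heq, mem_gaussOneK_O] at h3
    exact h3
  have huO1 : u ∈ D1.O := D1.O.sub_mem hb1 (D1.O.pow_mem ha1 q)
  have := D1.redF_mul huO1 hui1
  rw [mul_inv_cancel₀ hu0, D1.redF_one, hu1, zero_mul] at this
  exact one_ne_zero this

/-- an element which is integral together with its inverse has non-zero reduction -/
theorem redF_ne_zero_of_mem_of_inv_mem {L : Type*} [Field L] {A' : ValuationSubring L}
    {F : Type*} [Field F] [Algebra L F] {Fk : Type*} [Field Fk]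
    [Algebra (IsLocalRing.ResidueField A') Fk] (V : GaussDatum A' F Fk) {x : F} (hx0 : x ≠ 0)
    (hx : x ∈ V.O) (hxi : x⁻¹ ∈ V.O) : V.redF x ≠ 0 := by
  intro h0
  have h1 : V.redF (x * x⁻¹) = 1 := by rw [mul_inv_cancel₀ hx0, V.redF_one]
  rw [V.redF_mul hx hxi, h0, zero_mul] at h1
  exact zero_ne_one h1

/-- the uniformizer `q` of `Kfix A`, seen in `FBar (M q)` -/
theorem coe_algebraMap_qK_zpow (w : ℤ) :
    ((algebraMap (Kfix A) (FMid M q A) (qK A q ^ w) : FMid M q A) : FBar (M * q)) =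
      algebraMap Qb (FBar (M * q)) (q : Qb) ^ w := by
  rw [coe_algebraMap_fixF, ← map_zpow₀, map_zpow₀ (algebraMap (Kfix A) Qb)]
  congr 2

/-- a unit of `gaussOneK` is a unit of `gaussOne` -/
theorem redF_gaussOne_ne_zero_of_valuation {f : FMid M q A}
    (h : (gaussOneK M q A hqM hA).O.valuation f = 1) :
    (Val.gaussOne M q A hqM hA).redF ((f : FMid M q A) : FBar (M * q)) ≠ 0 := by
  obtain ⟨h1, h2⟩ :=
    Fermat.Agent.S36lib.J.mem_and_inv_mem_of_valuation_eq_one (gaussOneK M q A hqM hA).O h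
  have hf0 : f ≠ 0 := by
    rintro rfl
    rw [map_zero] at h
    exact zero_ne_one h
  refine redF_ne_zero_of_mem_of_inv_mem _ (fun h0 => hf0 (Subtype.ext h0))
    ((mem_gaussOneK_O M q A hqM hA).1 h1) ?_
  have := (mem_gaussOneK_O M q A hqM hA).1 h2
  rwa [Subfield.coe_inv] at this

/-- a unit of `gaussTwoK` is a unit of `gaussTwo` -/
theorem redF_gaussTwo_ne_zero_of_valuation {f : FMid M q A}
    (h : (gaussTwoK M q A hqM hA).O.valuation f = 1) :
    (Val.gaussTwo M q A hqM hA).redF ((f : FMid M q A) : FBar (M * q)) ≠ 0 := by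
  obtain ⟨h1, h2⟩ :=
    Fermat.Agent.S36lib.J.mem_and_inv_mem_of_valuation_eq_one (gaussTwoK M q A hqM hA).O h
  have hf0 : f ≠ 0 := by
    rintro rfl
    rw [map_zero] at h
    exact zero_ne_one h
  refine redF_ne_zero_of_mem_of_inv_mem _ (fun h0 => hf0 (Subtype.ext h0))
    ((mem_gaussTwoK_O M q A hqM hA).1 h1) ?_
  have := (mem_gaussTwoK_O M q A hqM hA).1 h2
  rwa [Subfield.coe_inv] at this

variable (h5 : 5 ≤ q)

include h5 in
/-- **(D1)+(D2): the toric part of `J₀(M q)[n]` is represented by thin units.** -/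
theorem exists_thinUnit_of_mem_toricPart {n : ℕ} (hn : n.Prime) (hqn : ¬ q ∣ n)
    {x : Pic0 Qb (FBar (M * q))}
    (hx : x ∈ Fermat.Agent.S43lib.B0.toricPart (Kap.modNod hqM hA) n) :
    ∃ (u : FMid M q A) (c₁ c₂ : kW) (E : Divisor.degZero (K := Qb) (F := FBar (M * q))),
      IsThinUnit hqM hA n u c₁ c₂ ∧ Pic0.mk E = x ∧
      ∀ P : Place Qb (FBar (M * q)),
        P.ord ((u : FMid M q A) : FBar (M * q)) = (n : ℤ) * (E : Divisor Qb (FBar (M * q))) P := by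
  have C := Kap.modCtx hqM hA h5
  have hchar := Old.charP_kRes hA
  have hnk : (n : kA) ≠ 0 := fun h0 => hqn ((CharP.cast_eq_zero_iff kA q n).1 h0)
  have hnpos : 0 < n := hn.pos
  have hnZ : (n : ℤ) ≠ 0 := by exact_mod_cast hn.ne_zero
  -- the class is fixed by inertia
  have hfixx : ∀ σ ∈ HI A, σ • (x : JZero (M * q)) = x := fun σ hσ => by
    rw [galois_smul_eq]
    exact Fermat.Agent.S43lib.B0.smul_eq_of_mem_toricPart C C.cechCoreStatement
      (Kap.modInertial hqM hA h5 σ hσ) hnk hx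
  have hnx : (n : ℤ) • (x : JZero (M * q)) = 0 :=
    Fermat.Agent.S43lib.B0.zsmul_eq_zero_of_mem_toricPart hx
  obtain ⟨E, u, hEx, hEst, hufix, hu0, hudiv⟩ :=
    Fermat.Agent.S36lib.J.exists_fixed_kummer_bar (M * q) (HI A) n x hnx hfixx
  obtain ⟨D₀, u₀, hD₀x, hu₀, hD₀⟩ := hx
  -- `E - D₀` is principal
  have hprin : Pic0.mk (E - D₀) = 0 := by
    have e : Pic0.mk (E - D₀) = Pic0.mk E - Pic0.mk D₀ := rfl
    rw [e, hEx, hD₀x, sub_self]
  rw [Fermat.Agent.S43lib.B0.pic0_mk_eq_zero_iff] at hprin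
  obtain ⟨f₀, hf₀0, hf₀⟩ := hprin
  have hu₀0 : u₀ ≠ 0 := hu₀.ne_zero
  have hden0 : u₀ * f₀ ^ n ≠ 0 := mul_ne_zero hu₀0 (pow_ne_zero n hf₀0)
  have hord0 : ∀ v : Place Qb (FBar (M * q)), v.ord (u * (u₀ * f₀ ^ n)⁻¹) = 0 := by
    intro v
    have h1 := hf₀ v
    rw [AddSubgroup.coe_sub, Finsupp.sub_apply] at h1
    rw [v.ord_mul hu0 (inv_ne_zero hden0), v.ord_inv, v.ord_mul hu₀0 (pow_ne_zero n hf₀0),
      Cech.ord_pow, ← hudiv v, hD₀ v, ← h1]
    ring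
  obtain ⟨c, hc0, hc⟩ := Fermat.Agent.S36lib.Fin.exists_const_FB (M * q)
    (mul_ne_zero hu0 (inv_ne_zero hden0)) hord0
  obtain ⟨c', hc'⟩ := IsAlgClosed.exists_pow_nat_eq c hnpos
  have hc'0 : c' ≠ 0 := by
    rintro rfl
    rw [zero_pow hn.ne_zero] at hc'
    exact hc0 hc'.symm
  set f₁ : FBar (M * q) := algebraMap Qb (FBar (M * q)) c' * f₀ with hf₁
  have hf₁0 : f₁ ≠ 0 := mul_ne_zero ((map_ne_zero _).2 hc'0) hf₀0
  have hu_eq : u = u₀ * f₁ ^ n := by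
    have h1 : u = algebraMap Qb (FBar (M * q)) c * (u₀ * f₀ ^ n) := by
      rw [← hc, mul_assoc, inv_mul_cancel₀ hden0, mul_one]
    rw [h1, hf₁, mul_pow, ← map_pow, hc']
    ring
  clear_value f₁
  -- the orders along the two components
  set uK : FMid M q A := ⟨u, hufix⟩ with huK
  have huK0 : uK ≠ 0 := fun h0 => hu0 (congrArg Subtype.val h0)
  have B := baseDVR_Wfix (q := q) hA
  obtain ⟨w₁, hw₁⟩ := Fermat.Agent.S36lib.J.gauss_exists_zpow B (gaussOneK M q A hqM hA) huK0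
  obtain ⟨w₂, hw₂⟩ := Fermat.Agent.S36lib.J.gauss_exists_zpow B (gaussTwoK M q A hqM hA) huK0
  have hπ0 : algebraMap (Kfix A) (FMid M q A) (qK A q) ≠ 0 :=
    Fermat.Agent.S36lib.J.algebraMap_pi_ne_zero B
  have hvπ₁ : (gaussOneK M q A hqM hA).O.valuation (algebraMap (Kfix A) (FMid M q A) (qK A q)) ≠ 0 :=
    (map_ne_zero _).2 hπ0
  have hvπ₂ : (gaussTwoK M q A hqM hA).O.valuation (algebraMap (Kfix A) (FMid M q A) (qK A q)) ≠ 0 :=
    (map_ne_zero _).2 hπ0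
  have hV₁ : (Kap.modNod hqM hA).V₁.redF
      (u₀ * f₁ ^ n * algebraMap Qb (FBar (M * q)) (q : Qb) ^ (-w₁)) ≠ 0 := by
    have hv : (gaussOneK M q A hqM hA).O.valuation
        (uK * algebraMap (Kfix A) (FMid M q A) (qK A q ^ (-w₁))) = 1 := by
      rw [map_mul, map_zpow₀, map_zpow₀, hw₁, ← zpow_add₀ hvπ₁, add_neg_cancel, zpow_zero]
    have := redF_gaussOne_ne_zero_of_valuation hqM hA hv
    have e : ((uK : FMid M q A) : FBar (M * q)) = u₀ * f₁ ^ n := hu_eq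
    rwa [Subfield.coe_mul, coe_algebraMap_qK_zpow, e] at this
  have hV₂ : (Kap.modNod hqM hA).V₂.redF
      (u₀ * f₁ ^ n * algebraMap Qb (FBar (M * q)) (q : Qb) ^ (-w₂)) ≠ 0 := by
    have hv : (gaussTwoK M q A hqM hA).O.valuation
        (uK * algebraMap (Kfix A) (FMid M q A) (qK A q ^ (-w₂))) = 1 := by
      rw [map_mul, map_zpow₀, map_zpow₀, hw₂, ← zpow_add₀ hvπ₂, add_neg_cancel, zpow_zero]
    have := redF_gaussTwo_ne_zero_of_valuation hqM hA hv
    have e : ((uK : FMid M q A) : FBar (M * q)) = u₀ * f₁ ^ n := hu_eq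
    rwa [Subfield.coe_mul, coe_algebraMap_qK_zpow, e] at this
  have hfix' : ∀ σ ∈ A.inertiaSubgroupIn ℚ,
      galAutBar (M * q) σ • (u₀ * f₁ ^ n) = u₀ * f₁ ^ n := by
    intro σ hσ
    rw [← hu_eq]
    exact (mem_fixF.1 hufix) σ hσ
  have hdvd : (n : ℤ) ∣ w₁ - w₂ := dvd_sub_orders hqM hA h5 hn hqn hu₀ hf₁0 hfix' hV₁ hV₂
  -- (D2a): make `u` a unit along both components
  obtain ⟨f, hf0, hf₁', hf₂'⟩ := exists_unit_of_orders B (gaussOneK M q A hqM hA)
    (gaussTwoK M q A hqM hA) (gaussK_O_ne hqM hA) hw₁ hw₂ hdvd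
  set u' : FMid M q A := uK * algebraMap (Kfix A) (FMid M q A) (qK A q) ^ (-w₁) * f ^ n with hu'
  obtain ⟨ϖ, hϖ⟩ := IsAlgClosed.exists_pow_nat_eq (q : Qb) hnpos
  have hfF0 : ((f : FMid M q A) : FBar (M * q)) ≠ 0 := fun h0 => hf0 (Subtype.ext h0)
  set f₂ : FBar (M * q) :=
    f₁ * algebraMap Qb (FBar (M * q)) (ϖ ^ (-w₁)) * ((f : FMid M q A) : FBar (M * q)) with hf₂
  clear_value f₂ u'
  have hP : (algebraMap Qb (FBar (M * q)) (ϖ ^ (-w₁))) ^ n =
      algebraMap Qb (FBar (M * q)) (q : Qb) ^ (-w₁) := by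
    rw [← map_pow, ← zpow_natCast (ϖ ^ (-w₁)) n, ← zpow_mul, mul_comm (-w₁) (n : ℤ), zpow_mul,
      zpow_natCast, hϖ, map_zpow₀]
  have hcoe_u' : ((u' : FMid M q A) : FBar (M * q)) = u₀ * f₂ ^ n := by
    have e : ((uK : FMid M q A) : FBar (M * q)) = u₀ * f₁ ^ n := hu_eq
    rw [hu', Subfield.coe_mul, Subfield.coe_mul, ← map_zpow₀, coe_algebraMap_qK_zpow, e, hf₂,
      mul_pow, mul_pow, hP, SubmonoidClass.coe_pow]
    ring
  have hr₁' : (Val.gaussOne M q A hqM hA).redF ((u' : FMid M q A) : FBar (M * q)) ≠ 0 :=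
    redF_gaussOne_ne_zero_of_valuation hqM hA hf₁'
  have hr₂' : (Val.gaussTwo M q A hqM hA).redF ((u' : FMid M q A) : FBar (M * q)) ≠ 0 :=
    redF_gaussTwo_ne_zero_of_valuation hqM hA hf₂'
  -- (D2b): the reductions are constants times `n`-th powers
  obtain ⟨b₁, hb₁0, hb₁⟩ := hu₀.red₁
  obtain ⟨b₂, hb₂0, hb₂⟩ := hu₀.red₂
  have hb₁' : (Val.gaussOne M q A hqM hA).redF u₀ = algebraMap kA (FRes A M) b₁ := hb₁
  have hb₂' : (Val.gaussTwo M q A hqM hA).redF u₀ = algebraMap kA (FRes A M) b₂ := hb₂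
  have hu₀1 : (Val.gaussOne M q A hqM hA).redF u₀ ≠ 0 := by
    rw [hb₁']; exact (_root_.map_ne_zero _).2 hb₁0
  have hu₀2 : (Val.gaussTwo M q A hqM hA).redF u₀ ≠ 0 := by
    rw [hb₂']; exact (_root_.map_ne_zero _).2 hb₂0
  have hpow_eq : f₂ ^ n = u₀⁻¹ * ((u' : FMid M q A) : FBar (M * q)) := by
    rw [hcoe_u', ← mul_assoc, inv_mul_cancel₀ hu₀0, one_mul]
  have hs₁ : (Val.gaussOne M q A hqM hA).redF f₂ ≠ 0 := by
    apply redF_ne_zero_of_pow _ hnpos
    rw [hpow_eq, GaussDatum.redF_mul _ (GaussDatum.inv_mem_of_redF_ne_zero _ hu₀1)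
      (GaussDatum.mem_of_redF_ne_zero _ hr₁'), GaussDatum.redF_inv _ hu₀1]
    exact mul_ne_zero (inv_ne_zero hu₀1) hr₁'
  have hs₂ : (Val.gaussTwo M q A hqM hA).redF f₂ ≠ 0 := by
    apply redF_ne_zero_of_pow _ hnpos
    rw [hpow_eq, GaussDatum.redF_mul _ (GaussDatum.inv_mem_of_redF_ne_zero _ hu₀2)
      (GaussDatum.mem_of_redF_ne_zero _ hr₂'), GaussDatum.redF_inv _ hu₀2]
    exact mul_ne_zero (inv_ne_zero hu₀2) hr₂'
  set s₁ : FRes A M := (Val.gaussOne M q A hqM hA).redF f₂ with hs₁def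
  set s₂ : FRes A M := (Val.gaussTwo M q A hqM hA).redF f₂ with hs₂def
  have hred₁ : (Val.gaussOne M q A hqM hA).redF ((u' : FMid M q A) : FBar (M * q)) =
      algebraMap kA (FRes A M) b₁ * s₁ ^ n := by
    have hm := GaussDatum.mem_of_redF_ne_zero _ hs₁
    rw [hcoe_u', GaussDatum.redF_mul _ (GaussDatum.mem_of_redF_ne_zero _ hu₀1)
      ((Val.gaussOne M q A hqM hA).O.pow_mem hm n), GaussDatum.redF_pow _ hm, hb₁']
  have hred₂ : (Val.gaussTwo M q A hqM hA).redF ((u' : FMid M q A) : FBar (M * q)) =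
      algebraMap kA (FRes A M) b₂ * s₂ ^ n := by
    have hm := GaussDatum.mem_of_redF_ne_zero _ hs₂
    rw [hcoe_u', GaussDatum.redF_mul _ (GaussDatum.mem_of_redF_ne_zero _ hu₀2)
      ((Val.gaussTwo M q A hqM hA).O.pow_mem hm n), GaussDatum.redF_pow _ hm, hb₂']
  -- (D2c): remove the `n`-th powers
  obtain ⟨f₃, m₁, m₂, r₁, r₂⟩ := exists_lift_pair B (gaussOneK M q A hqM hA)
    (gaussTwoK M q A hqM hA) (gaussK_O_ne hqM hA) s₁ s₂
  have hf₃0 : f₃ ≠ 0 := by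
    rintro rfl
    rw [GaussDatum.redF_zero] at r₁
    exact hs₁ r₁.symm
  have hf₃F0 : ((f₃ : FMid M q A) : FBar (M * q)) ≠ 0 := fun h0 => hf₃0 (Subtype.ext h0)
  set u'' : FMid M q A := u' * (f₃ ^ n)⁻¹ with hu''
  clear_value u''
  have hu'0 : u' ≠ 0 := by
    intro h0
    rw [h0, map_zero] at hf₁'
    exact zero_ne_one hf₁'
  have hu''0 : u'' ≠ 0 := by
    rw [hu'']
    exact mul_ne_zero hu'0 (inv_ne_zero (pow_ne_zero n hf₃0))
  have hW₁ : (gaussOneK M q A hqM hA).redF u'' = algebraMap kA (FRes A M) b₁ := by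
    have hf₃n : (gaussOneK M q A hqM hA).redF (f₃ ^ n) ≠ 0 := by
      rw [GaussDatum.redF_pow _ m₁, r₁]; exact pow_ne_zero n hs₁
    have hmem := (Fermat.Agent.S36lib.J.mem_and_inv_mem_of_valuation_eq_one _ hf₁').1
    rw [hu'', GaussDatum.redF_mul _ hmem (GaussDatum.inv_mem_of_redF_ne_zero _ hf₃n),
      GaussDatum.redF_inv _ hf₃n, GaussDatum.redF_pow _ m₁, r₁, gaussOneK_redF, hred₁, mul_assoc,
      mul_inv_cancel₀ (pow_ne_zero n hs₁), mul_one]
  have hW₂ : (gaussTwoK M q A hqM hA).redF u'' = algebraMap kA (FRes A M) b₂ := by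
    have hf₃n : (gaussTwoK M q A hqM hA).redF (f₃ ^ n) ≠ 0 := by
      rw [GaussDatum.redF_pow _ m₂, r₂]; exact pow_ne_zero n hs₂
    have hmem := (Fermat.Agent.S36lib.J.mem_and_inv_mem_of_valuation_eq_one _ hf₂').1
    rw [hu'', GaussDatum.redF_mul _ hmem (GaussDatum.inv_mem_of_redF_ne_zero _ hf₃n),
      GaussDatum.redF_inv _ hf₃n, GaussDatum.redF_pow _ m₂, r₂, gaussTwoK_redF, hred₂, mul_assoc,
      mul_inv_cancel₀ (pow_ne_zero n hs₂), mul_one]
  -- the constants over `kW`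
  obtain ⟨c₁, hc₁⟩ := (constIso hq.out hA M).bijective.2 b₁
  obtain ⟨c₂, hc₂⟩ := (constIso hq.out hA M).bijective.2 b₂
  rw [constIso_e] at hc₁ hc₂
  have hc₁0 : c₁ ≠ 0 := by
    rintro rfl
    rw [map_zero] at hc₁
    exact hb₁0 hc₁.symm
  have hc₂0 : c₂ ≠ 0 := by
    rintro rfl
    rw [map_zero] at hc₂
    exact hb₂0 hc₂.symm
  -- the divisor
  have hf₂0 : f₂ ≠ 0 := by
    intro h0
    rw [hs₁def, h0, GaussDatum.redF_zero] at hs₁
    exact hs₁ rfl
  obtain ⟨Df₂, hDf₂, hdeg₂⟩ := HasPrincipalDivisors.exists_divisor (K := Qb) f₂ hf₂0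
  obtain ⟨Df₃, hDf₃, hdeg₃⟩ := HasPrincipalDivisors.exists_divisor (K := Qb)
    ((f₃ : FMid M q A) : FBar (M * q)) hf₃F0
  have hcoe_u'' : ((u'' : FMid M q A) : FBar (M * q)) =
      u₀ * f₂ ^ n * (((f₃ : FMid M q A) : FBar (M * q)) ^ n)⁻¹ := by
    rw [hu'', Subfield.coe_mul, hcoe_u', Subfield.coe_inv, SubmonoidClass.coe_pow]
  have hord : ∀ P : Place Qb (FBar (M * q)), P.ord ((u'' : FMid M q A) : FBar (M * q)) =
      (n : ℤ) * ((D₀ : Divisor Qb (FBar (M * q))) P + Df₂ P - Df₃ P) := by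
    intro P
    rw [hcoe_u'', P.ord_mul (mul_ne_zero hu₀0 (pow_ne_zero n hf₂0))
      (inv_ne_zero (pow_ne_zero n hf₃F0)), P.ord_mul hu₀0 (pow_ne_zero n hf₂0), P.ord_inv,
      Cech.ord_pow, Cech.ord_pow, hD₀ P, hDf₂ P, hDf₃ P]
    ring
  refine ⟨u'', c₁, c₂, D₀ + ⟨Df₂, hdeg₂⟩ - ⟨Df₃, hdeg₃⟩, ⟨?_, hc₁0, hc₂0, ?_, ?_⟩, ?_, ?_⟩
  · exact isKumFn_of_dvd_ord hu''0 fun v => ⟨_, hord v⟩
  · rw [hW₁, ← hc₁]; rfl
  · rw [hW₂, ← hc₂]; rfl
  · have e : Pic0.mk (D₀ + ⟨Df₂, hdeg₂⟩ - ⟨Df₃, hdeg₃⟩) =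
        Pic0.mk D₀ + Pic0.mk ⟨Df₂, hdeg₂⟩ - Pic0.mk ⟨Df₃, hdeg₃⟩ := rfl
    have e2 : Pic0.mk (⟨Df₂, hdeg₂⟩ : Divisor.degZero (K := Qb) (F := FBar (M * q))) = 0 :=
      (Fermat.Agent.S43lib.B0.pic0_mk_eq_zero_iff _).2 ⟨f₂, hf₂0, hDf₂⟩
    have e3 : Pic0.mk (⟨Df₃, hdeg₃⟩ : Divisor.degZero (K := Qb) (F := FBar (M * q))) = 0 :=
      (Fermat.Agent.S43lib.B0.pic0_mk_eq_zero_iff _).2 ⟨_, hf₃F0, hDf₃⟩
    rw [e, e2, e3, add_zero, sub_zero, hD₀x]
  · intro P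
    rw [hord P, AddSubgroup.coe_sub, AddSubgroup.coe_add, Finsupp.sub_apply, Finsupp.add_apply]

end Fermat.Agent.S59lib.LLsq
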