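/-
S59lib / LLsq / Count  (helper4)  --  every thick twist component is realised by a thin unit (COUNTING)

* `eq_const_mul_pow_of_pow_eq` : `u^q = c^q Yⁿ u'^q`, `a q = 1 + b n`  ⟹  `u = c' y'ⁿ u'`;
* `normTwists`, `card_normTwists_le` : the normalised twists `{φ : Fin s → k | φ c₀ = 1, φⁿ = 1}` form a
  finite set with at most `n^(s-1)` elements;
* **`exists_thinUnit_of_twist_aux`** : for a pullback `ψ : FMid M q A → FTop M q A` of degree `q` and a
  twist readout `P u ν` which exists, has constant `n`-th power and is a complete invariant up to constants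
  (`core_step'`), every `ν` with `νⁿ` constant is proportional to the readout of a thin unit.  Proof: the toric
  part of `J₀(M q)[n]` has at least `n^(s-1)` elements (helper8, `Toric.pow_le_card_toricPart_mod`), each of
  its classes is represented by a thin unit (`exists_thinUnit_of_mem_toricPart`), and the normalised readout
  is injective on classes (norm along `ψ` + `a q = 1 + b n`).
-/
import Fermat.Agent.S59lib.LLsq.ThinUnit
import Fermat.Agent.S59lib.Toric.Mod

set_option autoImplicit false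
set_option linter.unusedSectionVars false
set_option linter.unusedVariables false
set_option linter.style.haveILetI false

noncomputable section

namespace Fermat.Agent.S59lib.LLsq

open AlgebraicCurve ModularCurve Module
open Fermat.Agent.S18lib Fermat.Agent.LSb Fermat.Agent.S37lib
open Fermat.Agent.S29lib.GH Fermat.Agent.S44lib
open Fermat.Agent.S36lib.Desc Fermat.Agent.S36lib.Desc2 Fermat.Agent.S36lib.Inst
open Fermat.Agent.S36lib.Norm (finrankHom normMonoidHom)

local notation "Qb" => AlgebraicClosure ℚ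

/-! ### algebra -/

/-- descent of a relation along a norm of degree `q` prime to `n` -/
theorem eq_const_mul_pow_of_pow_eq {K G : Type*} [Field K] [Field G] [Algebra K G]
    {q n a b : ℕ} (hab : a * q = 1 + b * n) {u u' Y : G} {c : K} (hu : u ≠ 0) (hu' : u' ≠ 0)
    (hc : c ≠ 0) (hY : Y ≠ 0)
    (h : u ^ q = (algebraMap K G c) ^ q * Y ^ n * u' ^ q) :
    ∃ (c' : K) (y' : G), c' ≠ 0 ∧ y' ≠ 0 ∧ u = algebraMap K G c' * y' ^ n * u' := by
  set r : G := u / u' with hr
  have hr0 : r ≠ 0 := div_ne_zero hu hu'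
  have hrq : r ^ q = (algebraMap K G c) ^ q * Y ^ n := by
    rw [hr, div_pow, h]
    field_simp
  have h1 : r ^ (a * q) = (algebraMap K G c) ^ (a * q) * (Y ^ a) ^ n := by
    rw [mul_comm a q, pow_mul, hrq, mul_pow, ← pow_mul, ← pow_mul, ← pow_mul, mul_comm n a]
  have h2 : r ^ (a * q) = r * (r ^ b) ^ n := by
    rw [hab, pow_add, pow_one, pow_mul]
  refine ⟨c ^ (a * q), Y ^ a * (r ^ b)⁻¹, pow_ne_zero _ hc,
    mul_ne_zero (pow_ne_zero _ hY) (inv_ne_zero (pow_ne_zero _ hr0)), ?_⟩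
  have h3 : r = algebraMap K G (c ^ (a * q)) * (Y ^ a * (r ^ b)⁻¹) ^ n := by
    rw [map_pow, mul_pow, ← mul_assoc, ← h1, h2, inv_pow, mul_assoc,
      mul_inv_cancel₀ (pow_ne_zero n (pow_ne_zero b hr0)), mul_one]
  calc u = r * u' := by rw [hr, div_mul_cancel₀ u hu']
    _ = algebraMap K G (c ^ (a * q)) * (Y ^ a * (r ^ b)⁻¹) ^ n * u' := by rw [← h3]

/-- the norm of a non-zero element is non-zero -/
theorem normMonoidHom_ne_zero {G F : Type*} [Field G] [Field F] (ψ : G →+* F) {d : ℕ}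
    (hd : 0 < d) (hdeg : finrankHom ψ = d) {y : F} (hy : y ≠ 0) : normMonoidHom ψ y ≠ 0 := by
  letI := ψ.toAlgebra
  have hfr : Module.finrank G F = d := hdeg
  haveI : Module.Finite G F := Module.finite_of_finrank_pos (by rw [hfr]; exact hd)
  show Algebra.norm G y ≠ 0
  exact Algebra.norm_ne_zero_iff.2 hy

/-! ### the normalised twists -/

/-- the normalised twists: value `1` at `c₀`, all values `n`-th roots of unity -/
def normTwists (s n : ℕ) (k : Type*) [Field k] (c₀ : Fin s) : Set (Fin s → k) :=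
  {φ | φ c₀ = 1 ∧ ∀ c, φ c ^ n = 1}

theorem card_normTwists_le {k : Type*} [Field k] {s n : ℕ} (hn : 0 < n) (c₀ : Fin s) :
    Finite (normTwists s n k c₀) ∧ Nat.card (normTwists s n k c₀) ≤ n ^ (s - 1) := by
  classical
  set R : Finset k := Polynomial.nthRootsFinset n (1 : k) with hR
  -- the restriction map
  let ι : normTwists s n k c₀ → ({c : Fin s // c ≠ c₀} → R) := fun φ c =>
    ⟨φ.1 c.1, (Polynomial.mem_nthRootsFinset hn 1).2 (φ.2.2 c.1)⟩
  have hι : Function.Injective ι := by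
    intro φ ψ h
    apply Subtype.ext
    funext c
    by_cases hc : c = c₀
    · rw [hc, φ.2.1, ψ.2.1]
    · have := congrFun h ⟨c, hc⟩
      exact congrArg Subtype.val this
  haveI : Finite (normTwists s n k c₀) := Finite.of_injective ι hι
  refine ⟨inferInstance, ?_⟩
  have h1 : Nat.card (normTwists s n k c₀) ≤ Nat.card ({c : Fin s // c ≠ c₀} → R) :=
    Nat.card_le_card_of_injective ι hι
  have h2 : Nat.card ({c : Fin s // c ≠ c₀} → R) = R.card ^ (s - 1) := by
    rw [Nat.card_eq_fintype_card, Fintype.card_fun, Fintype.card_coe]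
    congr 1
    rw [Fintype.card_subtype_compl, Fintype.card_fin, Fintype.card_subtype_eq]
  have h3 : R.card ≤ n :=
    (Multiset.toFinset_card_le _).trans (Polynomial.card_nthRoots n 1)
  calc Nat.card (normTwists s n k c₀) ≤ R.card ^ (s - 1) := h2 ▸ h1
    _ ≤ n ^ (s - 1) := Nat.pow_le_pow_left h3 _

/-! ### the count -/

variable {M q : ℕ} [NeZero M] [NeZero q] [hq : Fact q.Prime]
variable {A : ValuationSubring (AlgebraicClosure ℚ)} (hqM : ¬ q ∣ M) (hA : A.LiesOverPrime q)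

local notation "kW" => IsLocalRing.ResidueField (Wfix A)

/-- **surjectivity of a thin-to-thick twist readout, by counting.** -/
theorem exists_thinUnit_of_twist_aux (h5 : 5 ≤ q) (hν2 : nuTwo M = 0) (hν3 : nuThree M = 0)
    {n : ℕ} (hn : n.Prime) (hqn : ¬ q ∣ n)
    (ψ : FMid M q A →+* FTop M q A)
    (hψc : ∀ c : Kfix A, ψ (algebraMap (Kfix A) (FMid M q A) c) =
      algebraMap (Kfix A) (FTop M q A) c)
    (hdeg : finrankHom ψ = q)
    (P : FMid M q A → (Fin (nS M q A hqM hA) → kW) → Prop)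
    (hP_ex : ∀ u c₁ c₂, IsThinUnit hqM hA n u c₁ c₂ → ∃ ν, (∀ c, ν c ≠ 0) ∧ P u ν)
    (hP_pow : ∀ u c₁ c₂, IsThinUnit hqM hA n u c₁ c₂ → ∀ ν, P u ν → ∀ c c', ν c ^ n = ν c' ^ n)
    (hP_core : ∀ u c₁ c₂ u' c₁' c₂', IsThinUnit hqM hA n u c₁ c₂ →
      IsThinUnit hqM hA n u' c₁' c₂' → ∀ ν ν', P u ν → P u' ν' → ∀ b : kW,
        (∀ c, ν c = b * ν' c) → ∃ (c : Kfix A) (y : FTop M q A), c ≠ 0 ∧ y ≠ 0 ∧
          ψ u = algebraMap (Kfix A) (FTop M q A) c * y ^ n * ψ u')
    (ν : Fin (nS M q A hqM hA) → kW) (hν0 : ∀ c, ν c ≠ 0) (hν : ∀ c c', ν c ^ n = ν c' ^ n) :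
    ∃ u c₁ c₂, IsThinUnit hqM hA n u c₁ c₂ ∧ ∃ (ν' : Fin (nS M q A hqM hA) → kW) (a : kW),
      P u ν' ∧ ∀ c, ν c = a * ν' c := by
  classical
  have hnpos : 0 < n := hn.pos
  have hnZ : (n : ℤ) ≠ 0 := by exact_mod_cast hn.ne_zero
  have hqn' : Nat.Coprime q n := (Nat.Prime.coprime_iff_not_dvd hq.out).2 hqn
  obtain ⟨a, b, hab⟩ := exists_mul_eq_one_add_mul hq.out.two_le hn.ne_zero hqn'
  have Cn := Kap.modCtx hqM hA h5
  have hs : 0 < nS M q A hqM hA := Cn.s_pos
  set c₀ : Fin (nS M q A hqM hA) := ⟨0, hs⟩ with hc₀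
  -- thin data for every toric class
  have hex : ∀ x : Fermat.Agent.S43lib.B0.toricPart (Kap.modNod hqM hA) n,
      ∃ (u : FMid M q A) (c₁ c₂ : kW) (E : Divisor.degZero (K := Qb) (F := FBar (M * q))),
        IsThinUnit hqM hA n u c₁ c₂ ∧ Pic0.mk E = (x : Pic0 Qb (FBar (M * q))) ∧
        ∀ Q : Place Qb (FBar (M * q)), Q.ord ((u : FMid M q A) : FBar (M * q)) =
          (n : ℤ) * (E : Divisor Qb (FBar (M * q))) Q :=
    fun x => exists_thinUnit_of_mem_toricPart hqM hA h5 hn hqn x.2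
  choose U d₁ d₂ E hU hE hord using hex
  have hex2 : ∀ x, ∃ ν, (∀ c, ν c ≠ 0) ∧ P (U x) ν := fun x => hP_ex _ _ _ (hU x)
  choose m hm0 hPm using hex2
  have hpow : ∀ x c c', m x c ^ n = m x c' ^ n := fun x => hP_pow _ _ _ (hU x) _ (hPm x)
  -- the normalised readout
  let Φ : Fermat.Agent.S43lib.B0.toricPart (Kap.modNod hqM hA) n →
      normTwists (nS M q A hqM hA) n kW c₀ := fun x =>
    ⟨fun c => m x c / m x c₀, div_self (hm0 x c₀), fun c => by
      rw [div_pow, hpow x c c₀, div_self (pow_ne_zero n (hm0 x c₀))]⟩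
  have hΦ : Function.Injective Φ := by
    intro x x' h
    have h1 : ∀ c, m x c = (m x c₀ / m x' c₀) * m x' c := by
      intro c
      have := congrFun (congrArg Subtype.val h) c
      have e : m x c / m x c₀ = m x' c / m x' c₀ := this
      field_simp [hm0 x c₀, hm0 x' c₀] at e ⊢
      rw [e]
    obtain ⟨c, y, hc0, hy0, hcy⟩ := hP_core _ _ _ _ _ _ (hU x) (hU x') _ _ (hPm x) (hPm x') _ h1
    -- the norm along `ψ`
    have hUx0 : U x ≠ 0 := (hU x).kum.1
    have hUx'0 : U x' ≠ 0 := (hU x').kum.1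
    have hN := congrArg (normMonoidHom ψ) hcy
    rw [map_mul, map_mul, map_pow, normMonoidHom_map ψ hdeg, normMonoidHom_map ψ hdeg, ← hψc,
      normMonoidHom_map ψ hdeg] at hN
    have hNy0 : normMonoidHom ψ y ≠ 0 := by
      exact normMonoidHom_ne_zero ψ hq.out.pos hdeg hy0
    obtain ⟨c', y', hc'0, hy'0, hrel⟩ :=
      eq_const_mul_pow_of_pow_eq hab hUx0 hUx'0 hc0 hNy0 hN
    -- divisors
    have hy'F : ((y' : FMid M q A) : FBar (M * q)) ≠ 0 := fun h0 => hy'0 (Subtype.ext h0)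
    have hcF : ((algebraMap (Kfix A) (FMid M q A) c' : FMid M q A) : FBar (M * q)) ≠ 0 :=
      fun h0 => (_root_.map_ne_zero _).2 hc'0 (Subtype.ext h0)
    have hUF : ((U x' : FMid M q A) : FBar (M * q)) ≠ 0 := fun h0 => hUx'0 (Subtype.ext h0)
    have hprin : Pic0.mk (E x - E x') = 0 := by
      rw [Fermat.Agent.S43lib.B0.pic0_mk_eq_zero_iff]
      refine ⟨((y' : FMid M q A) : FBar (M * q)), hy'F, fun Q => ?_⟩
      have e1 := congrArg (fun z : FMid M q A => Q.ord ((z : FMid M q A) : FBar (M * q))) hrel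
      simp only [Subfield.coe_mul, SubmonoidClass.coe_pow] at e1
      rw [Q.ord_mul (mul_ne_zero hcF (pow_ne_zero n hy'F)) hUF,
        Q.ord_mul hcF (pow_ne_zero n hy'F), Cech.ord_pow, coe_algebraMap_fixF, Cech.ord_const,
        zero_add, hord x Q, hord x' Q] at e1
      rw [AddSubgroup.coe_sub, Finsupp.sub_apply]
      have e2 : (n : ℤ) * ((E x : Divisor Qb (FBar (M * q))) Q -
          (E x' : Divisor Qb (FBar (M * q))) Q) =
          (n : ℤ) * Q.ord ((y' : FMid M q A) : FBar (M * q)) := by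
        rw [mul_sub, e1]; ring
      exact mul_left_cancel₀ hnZ e2
    have e3 : Pic0.mk (E x - E x') = Pic0.mk (E x) - Pic0.mk (E x') := rfl
    rw [e3, hE x, hE x', sub_eq_zero] at hprin
    exact Subtype.ext hprin
  -- the count
  obtain ⟨hfin, hcard⟩ := card_normTwists_le (k := kW) (s := nS M q A hqM hA) hnpos c₀
  have hcount : n ^ (nS M q A hqM hA - 1) ≤
      Nat.card (Fermat.Agent.S43lib.B0.toricPart (Kap.modNod hqM hA) n) :=
    Fermat.Agent.S59lib.Toric.pow_le_card_toricPart_mod hqM hA h5 hν2 hν3 hnpos hqn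
  have hbij := hΦ.bijective_of_nat_card_le (hcard.trans hcount)
  -- the given twist, normalised
  obtain ⟨x, hx⟩ := hbij.2 ⟨fun c => ν c / ν c₀, div_self (hν0 c₀), fun c => by
    rw [div_pow, hν c c₀, div_self (pow_ne_zero n (hν0 c₀))]⟩
  refine ⟨U x, d₁ x, d₂ x, hU x, m x, ν c₀ / m x c₀, hPm x, fun c => ?_⟩
  have := congrFun (congrArg Subtype.val hx) c
  have e : m x c / m x c₀ = ν c / ν c₀ := this
  field_simp [hm0 x c₀, hν0 c₀] at e ⊢
  rw [e]

end Fermat.Agent.S59lib.LLsq
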