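/-
S59lib / LLsq / ToricDecomp  (helper4)  --  THE TORIC DECOMPOSITION AT LEVEL `M q²` (function level)

`q ≥ 5`, `M` elliptic-free (`nuTwo M = nuThree M = 0`), `n ≠ q` prime, the modular thick datum
`modThick M q A hqM hA V₁ V₂ V₃` with its chain context (`ThickCtx`, `AlphaData`, `BetaData`).

**`toricDecompStmt`** : every Kummer tri-unit `z ∈ FTop M q A` with constant reductions is
  `z = c · yⁿ · α^* u₁ · β^* u₂`,  `c ∈ (Kfix A)ˣ`, `y ∈ (FTop M q A)ˣ`, `u₁, u₂` THIN UNITS of `FMid M q A`.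

(The toric part of `J₀(M q²)[n]^{I}` is `α^* T ⊕ β^* T`, `T` the toric part of `J₀(M q)[n]`.)
Proof: the thick twist `(lam, mu)` of `z` exists and has constant `n`-th powers (`twist_pow_n`); by the count
(`exists_thinUnit_of_twist_aux`) `mu` is proportional to the twist `(1, m₁)` of some `α^* u₁` and `lam` to the
twist `(l₂, 1)` of some `β^* u₂`; conclude with `toric_decomp`.
-/
import Fermat.Agent.S59lib.LLsq.Count

set_option autoImplicit false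
set_option linter.unusedSectionVars false
set_option linter.unusedVariables false
set_option linter.style.haveILetI false

noncomputable section

namespace Fermat.Agent.S59lib.LLsq

open AlgebraicCurve ModularCurve Module
open Fermat.Agent.S18lib Fermat.Agent.ProgramR Fermat.Agent.LSb Fermat.Agent.LSb.Unit
open Fermat.Agent.S36lib.Desc Fermat.Agent.S36lib.Desc2 Fermat.Agent.S36lib.Inst
open Fermat.Agent.S36lib.Thick Fermat.Agent.S36lib.Norm Fermat.Agent.S36lib.J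
open Fermat.Agent.S37lib.HeckeInst (FB)

local notation "Qb" => AlgebraicClosure ℚ

variable {M q : ℕ} [NeZero M] [NeZero q] [hq : Fact q.Prime]
variable {A : ValuationSubring (AlgebraicClosure ℚ)} {hqM : ¬ q ∣ M} {hA : A.LiesOverPrime q}
variable [HasPrincipalDivisors (IsLocalRing.ResidueField (Wfix A)) (FRes A M)]
variable [NeZero (M * q)]
variable [HasPrincipalDivisors (AlgebraicClosure ℚ) (FBar M)]
variable [HasPrincipalDivisors (AlgebraicClosure ℚ) (FBar (M * q))]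
variable [HasPrincipalDivisors (IsLocalRing.ResidueField A) (FRes A M)]

local notation "kW" => IsLocalRing.ResidueField (Wfix A)

variable (V₁ V₃ : GaussDatum (Wfix A) (FTop M q A) (FRes A M))
variable (V₂ : RamGaussDatum (Wfix A) (FTop M q A) (FRes A M))

variable {n g gM : ℕ} (hn : n.Prime) (hqn : ¬ q ∣ n)
  (hF : IsCurveOfGenus Qb (FB (M * q * q)) g)
  (hFk : IsCurveOfGenus (IsLocalRing.ResidueField A) (FRes A M) gM)
  (C : ThickCtx (modThick M q A hqM hA V₁ V₂ V₃) g gM gM gM)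
  (Xα : AlphaData (modThick M q A hqM hA V₁ V₂ V₃) (mLow M q A hqM hA)
    (alphaFix M q (HI A)) q (RingEquiv.refl (FRes A M)) (RingEquiv.refl (FRes A M)) (VqR hA))
  (Xβ : BetaData (modThick M q A hqM hA V₁ V₂ V₃) (mLow M q A hqM hA)
    (betaFix M q (HI A)) q (VqR hA) (RingEquiv.refl (FRes A M)) (RingEquiv.refl (FRes A M)))
  (ne₁₃ : V₁.O ≠ V₃.O)
  (h5 : 5 ≤ q) (hν2 : nuTwo M = 0) (hν3 : nuThree M = 0)

include hn hqn hF hFk C Xα Xβ ne₁₃ h5 hν2 hν3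

/-- **THE TORIC DECOMPOSITION.** -/
theorem toricDecompStmt {z : FTop M q A}
    (hzK : (modKS (hqM := hqM) (hA := hA) V₁ V₃ V₂ hn.ne_zero hF).IsKum z) {b₁ b₂ b₃ : kW}
    (hz : IsTriUnit (modThick M q A hqM hA V₁ V₂ V₃) z b₁ b₂ b₃) :
    ∃ (u₁ u₂ : FMid M q A) (c₁ c₂ d₁ d₂ : kW) (c : Kfix A) (y : FTop M q A),
      IsThinUnit hqM hA n u₁ c₁ c₂ ∧ IsThinUnit hqM hA n u₂ d₁ d₂ ∧ c ≠ 0 ∧ y ≠ 0 ∧
      z = algebraMap (Kfix A) (FTop M q A) c * y ^ n *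
        (alphaFix M q (HI A) u₁ * betaFix M q (HI A) u₂) := by
  have hn0 : n ≠ 0 := hn.ne_zero
  have hqn' : Nat.Coprime q n := (Nat.Prime.coprime_iff_not_dvd hq.out).2 hqn
  have X := modChainCtx V₁ V₃ V₂ hn0 hqn' hF hFk C Xα Xβ ne₁₃
  obtain ⟨lam, mu, hlam0, hmu0, htw⟩ := X.twist n X.hn z _ b₁ b₂ b₃ hz
  have hpw := twist_pow_n X hzK hz htw
  -- the `α`-side
  obtain ⟨u₁, c₁, c₂, hu₁, m₁, a, ⟨hK₁, l₁, t₁⟩, hmu⟩ :=
    exists_thinUnit_of_twist_aux hqM hA h5 hν2 hν3 hn hqn (alphaFix M q (HI A))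
      (alphaFix_algebraMap M q (HI A)) Xα.deg
      (fun u ν => ∃ (hK : Fermat.Agent.S36lib.Fin.IsKumFn (HI A) n u)
        (l : Fin (modThick M q A hqM hA V₁ V₂ V₃).s → kW),
        IsTwist (modThick M q A hqM hA V₁ V₂ V₃)
          ((modKS (hqM := hqM) (hA := hA) V₁ V₃ V₂ hn0 hF).fam (alphaFix M q (HI A) u)
            (isKumFn_alphaFix (HI A) M q hK)) l ν)
      (fun u c₁ c₂ hu => by
        obtain ⟨hK, hT⟩ := isTriUnit_alphaFix V₁ V₃ V₂ hn0 hqn' hF hFk C Xα Xβ ne₁₃ hu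
        obtain ⟨l, m, -, hm0, ht⟩ := X.twist n X.hn _
          ((modKS (hqM := hqM) (hA := hA) V₁ V₃ V₂ hn0 hF).fam _ hK) _ _ _ hT
        exact ⟨m, hm0, hu.kum, l, ht⟩)
      (fun u c₁ c₂ hu ν ⟨hK, l, ht⟩ c c' => by
        obtain ⟨hK', hT⟩ := isTriUnit_alphaFix V₁ V₃ V₂ hn0 hqn' hF hFk C Xα Xβ ne₁₃ hu
        rw [(twist_pow_n X hK' hT ht c).2, (twist_pow_n X hK' hT ht c').2])
      (fun u c₁ c₂ u' c₁' c₂' hu hu' ν ν' ⟨hK, l, ht⟩ ⟨hK', l', ht'⟩ b hb => by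
        obtain ⟨hKa, hT⟩ := isTriUnit_alphaFix V₁ V₃ V₂ hn0 hqn' hF hFk C Xα Xβ ne₁₃ hu
        obtain ⟨hKa', hT'⟩ := isTriUnit_alphaFix V₁ V₃ V₂ hn0 hqn' hF hFk C Xα Xβ ne₁₃ hu'
        have e1 := (twist_alphaFix V₁ V₃ V₂ hn0 hqn' hF hFk C Xα Xβ ne₁₃ hu ht).1
        have e2 := (twist_alphaFix V₁ V₃ V₂ hn0 hqn' hF hFk C Xα Xβ ne₁₃ hu' ht').1
        exact core_step' X hKa hKa' hT hT' ht ht' (a := 1)
          (fun c => by rw [e1 c, e2 c, one_mul]) hb)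
      mu hmu0 (fun c c' => by rw [(hpw c).2, (hpw c').2])
  -- the `β`-side
  obtain ⟨u₂, d₁, d₂, hu₂, l₂, b, ⟨hK₂, m₂, t₂⟩, hlam⟩ :=
    exists_thinUnit_of_twist_aux hqM hA h5 hν2 hν3 hn hqn (betaFix M q (HI A))
      (betaFix_algebraMap M q (HI A)) Xβ.deg
      (fun u ν => ∃ (hK : Fermat.Agent.S36lib.Fin.IsKumFn (HI A) n u)
        (m : Fin (modThick M q A hqM hA V₁ V₂ V₃).s → kW),
        IsTwist (modThick M q A hqM hA V₁ V₂ V₃)
          ((modKS (hqM := hqM) (hA := hA) V₁ V₃ V₂ hn0 hF).fam (betaFix M q (HI A) u)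
            (isKumFn_betaFix (HI A) M q hK)) ν m)
      (fun u c₁ c₂ hu => by
        obtain ⟨hK, hT⟩ := isTriUnit_betaFix V₁ V₃ V₂ hn0 hqn' hF hFk C Xα Xβ ne₁₃ hu
        obtain ⟨l, m, hl0, -, ht⟩ := X.twist n X.hn _
          ((modKS (hqM := hqM) (hA := hA) V₁ V₃ V₂ hn0 hF).fam _ hK) _ _ _ hT
        exact ⟨l, hl0, hu.kum, m, ht⟩)
      (fun u c₁ c₂ hu ν ⟨hK, m, ht⟩ c c' => by
        obtain ⟨hK', hT⟩ := isTriUnit_betaFix V₁ V₃ V₂ hn0 hqn' hF hFk C Xα Xβ ne₁₃ hu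
        rw [(twist_pow_n X hK' hT ht c).1, (twist_pow_n X hK' hT ht c').1])
      (fun u c₁ c₂ u' c₁' c₂' hu hu' ν ν' ⟨hK, m, ht⟩ ⟨hK', m', ht'⟩ b hb => by
        obtain ⟨hKa, hT⟩ := isTriUnit_betaFix V₁ V₃ V₂ hn0 hqn' hF hFk C Xα Xβ ne₁₃ hu
        obtain ⟨hKa', hT'⟩ := isTriUnit_betaFix V₁ V₃ V₂ hn0 hqn' hF hFk C Xα Xβ ne₁₃ hu'
        have e1 := (twist_betaFix V₁ V₃ V₂ hn0 hqn' hF hFk C Xα Xβ ne₁₃ hu ht).1
        have e2 := (twist_betaFix V₁ V₃ V₂ hn0 hqn' hF hFk C Xα Xβ ne₁₃ hu' ht').1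
        exact core_step' X hKa hKa' hT hT' ht ht' (b := 1) hb
          (fun c => by rw [e1 c, e2 c, one_mul]))
      lam hlam0 (fun c c' => by rw [(hpw c).1, (hpw c').1])
  obtain ⟨c, y, hc0, hy0, hzy⟩ := toric_decomp V₁ V₃ V₂ hn0 hqn' hF hFk C Xα Xβ ne₁₃ hzK hz htw
    hu₁ hu₂ t₁ t₂ hmu hlam
  exact ⟨u₁, u₂, c₁, c₂, d₁, d₂, c, y, hu₁, hu₂, hc0, hy0, hzy⟩

end Fermat.Agent.S59lib.LLsq
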