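/-
S59lib / LLsq / JSteps  (helper4)  --  the two reduction steps of the chain WITHOUT `q`-newness

Abstract chain context `X : S36lib.J.ChainCtx …` (level `M q²`, thick datum `D`, Kummer system `KS`).

* `fibre_unit_of_orders` : a Kummer function `u` whose orders `(w₁, w₂, w₃)` along the three components
  satisfy `(w₁, w₂, w₃) ≡ m · (1, e, 1) (mod n)` is `u' · y` with `u'` a Kummer FIBRE UNIT
  (all three valuations `= 1`) and `y ∈ Kˣ · (Fˣ)ⁿ`                     (the component group readout);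
* `exists_orders` : the orders exist;
* `triUnit_of_reductions` : a Kummer fibre unit whose three reductions are trivial Kummer functions
  (`IsConstMulPow`) is `z · y` with `z` a Kummer TRI-UNIT with constant reductions and
  `y ∈ (Fˣ)ⁿ`                                                            (the abelian readout);

These are the second halves of `S36lib.J.ChainCtx.exists_fibre_unit` / `exists_triUnit`; there the
hypotheses were derived from the triviality of the two norms (`q`-newness), here they are inputs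
(Hecke equivariance + non-Eisenstein for the orders; vanishing of the abelian classes of level `M`
for the reductions).
-/
import Fermat.Agent.S36lib.J.Chain

set_option autoImplicit false

noncomputable section

namespace Fermat.Agent.S59lib.LLsq

open AlgebraicCurve Module
open Fermat.Agent.S18lib Fermat.Agent.S36lib.Thick Fermat.Agent.S36lib.Norm Fermat.Agent.S36lib.J
open Fermat.Agent.LSb (HasValueAt)
open Fermat.Agent.LSc (IsConstMulPow)

variable {K : Type*} [Field K] {R : ValuationSubring K}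
variable {F : Type*} [Field F] [Algebra K F]
variable {F₁ F₂ F₃ : Type*} [Field F₁] [Field F₂] [Field F₃]
variable [Algebra (IsLocalRing.ResidueField R) F₁] [Algebra (IsLocalRing.ResidueField R) F₂]
variable [Algebra (IsLocalRing.ResidueField R) F₃]
variable {G : Type*} [Field G] [Algebra K G]
variable {G₁ G₂ : Type*} [Field G₁] [Field G₂]
variable [Algebra (IsLocalRing.ResidueField R) G₁] [Algebra (IsLocalRing.ResidueField R) G₂]
variable {D : ThickDatum R F F₁ F₂ F₃} {L : LowDatum R G G₁ G₂}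
variable {g g₁ g₂ g₃ g₁' g₂' n q : ℕ} {KS : KummerSystem D g n} {ND : NormData D L}

section Ctx

variable (X : ChainCtx D L g g₁ g₂ g₃ g₁' g₂' n q KS ND)

include X

/-- the orders of a non-zero function along the three components -/
theorem exists_orders {u : F} (hu0 : u ≠ 0) :
    ∃ w₁ w₂ w₃ : ℤ,
      D.V₁.O.valuation u = D.V₁.O.valuation (algebraMap K F D.π) ^ w₁ ∧
      D.V₂.O.valuation u = D.V₂.O.valuation D.ϖ ^ w₂ ∧
      D.V₃.O.valuation u = D.V₃.O.valuation (algebraMap K F D.π) ^ w₃ := by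
  have B := X.base
  obtain ⟨w₁, hw₁⟩ := gauss_exists_zpow B D.V₁ hu0
  obtain ⟨w₂, hw₂⟩ := ram_exists_zpow D.V₂ hu0
  obtain ⟨w₃, hw₃⟩ := gauss_exists_zpow B D.V₃ hu0
  exact ⟨w₁, w₂, w₃, hw₁, hw₂, hw₃⟩

/-- **Step 1 without `q`-newness** (component group readout). -/
theorem fibre_unit_of_orders {u : F} (hu : KS.IsKum u) {w₁ w₂ w₃ m : ℤ}
    (hw₁ : D.V₁.O.valuation u = D.V₁.O.valuation (algebraMap K F D.π) ^ w₁)
    (hw₂ : D.V₂.O.valuation u = D.V₂.O.valuation D.ϖ ^ w₂)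
    (hw₃ : D.V₃.O.valuation u = D.V₃.O.valuation (algebraMap K F D.π) ^ w₃)
    (c₁ : w₁ ≡ m [ZMOD n]) (c₂ : w₂ ≡ (D.e : ℤ) * m [ZMOD n]) (c₃ : w₃ ≡ m [ZMOD n]) :
    ∃ u' y : F, KS.IsKum u' ∧ D.V₁.O.valuation u' = 1 ∧ D.V₂.O.valuation u' = 1 ∧
      D.V₃.O.valuation u' = 1 ∧ IsConstPow K n y ∧ u = u' * y := by
  have B := X.base
  have hu0 : u ≠ 0 := KS.ne_zero u hu
  have hπF := X.πF_ne_zero
  have hϖ := X.ϖ_ne_zero
  obtain ⟨w₁', e₁⟩ : ∃ w₁' : ℤ, w₁ = m + n * w₁' := by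
    obtain ⟨k, hk⟩ := (Int.modEq_iff_dvd.1 c₁.symm)
    exact ⟨k, by linarith⟩
  obtain ⟨w₂', e₂⟩ : ∃ w₂' : ℤ, w₂ = (D.e : ℤ) * m + n * w₂' := by
    obtain ⟨k, hk⟩ := (Int.modEq_iff_dvd.1 c₂.symm)
    exact ⟨k, by linarith⟩
  obtain ⟨w₃', e₃⟩ : ∃ w₃' : ℤ, w₃ = m + n * w₃' := by
    obtain ⟨k, hk⟩ := (Int.modEq_iff_dvd.1 c₃.symm)
    exact ⟨k, by linarith⟩
  obtain ⟨g₀, hg₀, hg₁, hg₂, hg₃⟩ := exists_valuation_eq₃ X.arch₁ X.arch₂ X.arch₃ X.top₁ X.top₂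
    X.top₃ X.ne₁₂ X.ne₁₃ X.ne₂₃ (zpow_ne_zero w₁' hπF) (zpow_ne_zero w₂' hϖ) (zpow_ne_zero w₃' hπF)
  have hπm : D.π ^ m ≠ 0 := zpow_ne_zero m B.π_ne_zero
  set y : F := algebraMap K F D.π ^ m * g₀ ^ n with hy
  have hyP : IsConstPow K n y := ⟨D.π ^ m, g₀, hπm, hg₀, by rw [hy, map_zpow₀]⟩
  have hy0 : y ≠ 0 := hyP.ne_zero
  set u' : F := u * y⁻¹ with hu'
  have huy : u = u' * y := by
    rw [hu', mul_assoc, inv_mul_cancel₀ hy0, mul_one]
  have hyK : KS.IsKum y := ChainCtx.isKum_of_isConstPow hyP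
  have hu'K : KS.IsKum u' := KS.mul _ _ hu (KS.inv _ hyK)
  refine ⟨u', y, hu'K, ?_, ?_, ?_, hyP, huy⟩
  · -- `V₁`
    rw [hu', map_mul, map_inv₀, hy, map_mul, map_pow, map_zpow₀ D.V₁.O.valuation, hg₁,
      map_zpow₀ D.V₁.O.valuation, hw₁]
    have := zpow_calc ((map_ne_zero D.V₁.O.valuation).2 hπF) w₁ m w₁' 1 n
      (by push_cast; linarith)
    rwa [pow_one] at this
  · -- `V₂`
    rw [hu', map_mul, map_inv₀, hy, map_mul, map_pow, map_zpow₀ D.V₂.O.valuation, hg₂,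
      map_zpow₀ D.V₂.O.valuation, hw₂, X.val₂_π, ← zpow_natCast (D.V₂.O.valuation D.ϖ) D.e,
      ← zpow_mul]
    have := zpow_calc ((map_ne_zero D.V₂.O.valuation).2 hϖ) w₂ ((D.e : ℤ) * m) w₂' 1 n
      (by push_cast; linarith)
    rwa [pow_one] at this
  · -- `V₃`
    rw [hu', map_mul, map_inv₀, hy, map_mul, map_pow, map_zpow₀ D.V₃.O.valuation, hg₃,
      map_zpow₀ D.V₃.O.valuation, hw₃]
    have := zpow_calc ((map_ne_zero D.V₃.O.valuation).2 hπF) w₃ m w₃' 1 n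
      (by push_cast; linarith)
    rwa [pow_one] at this

/-- **Step 2 without `q`-newness** (abelian readout): a Kummer fibre unit whose three reductions are
trivial Kummer functions is a tri-unit with constant reductions times an `n`-th power. -/
theorem triUnit_of_reductions {u' : F} (hK : KS.IsKum u') (h₁ : D.V₁.O.valuation u' = 1)
    (h₂ : D.V₂.O.valuation u' = 1) (h₃ : D.V₃.O.valuation u' = 1)
    (r₁ : IsConstMulPow (A := R) n (D.V₁.redF u')) (r₂ : IsConstMulPow (A := R) n (D.red₂ u'))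
    (r₃ : IsConstMulPow (A := R) n (D.V₃.redF u')) :
    ∃ (z x : F) (b₁ b₂ b₃ : IsLocalRing.ResidueField R), KS.IsKum z ∧ IsTriUnit D z b₁ b₂ b₃ ∧
      x ≠ 0 ∧ u' = z * x ^ n := by
  obtain ⟨c₁, s₁, hc₁, hs₁, e₁⟩ := r₁
  obtain ⟨c₂, s₂, hc₂, hs₂, e₂⟩ := r₂
  obtain ⟨c₃, s₃, hc₃, hs₃, e₃⟩ := r₃
  have hr₁ : (P₁ D).redF u' ≠ 0 := place_redF_ne_zero_of_valuation_eq_one (P₁ D) h₁
  have hr₂ : (P₂ D).redF u' ≠ 0 := place_redF_ne_zero_of_valuation_eq_one (P₂ D) h₂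
  have hr₃ : (P₃ D).redF u' ≠ 0 := place_redF_ne_zero_of_valuation_eq_one (P₃ D) h₃
  obtain ⟨A₁, hA₁, rA₁⟩ := (P₁ D).exists_redF_eq s₁
  obtain ⟨A₂, hA₂, rA₂⟩ := (P₂ D).exists_redF_eq s₂
  obtain ⟨A₃, hA₃, rA₃⟩ := (P₃ D).exists_redF_eq s₃
  obtain ⟨x, hx₁, hx₂, hx₃⟩ := exists_approx₃ X.arch₁ X.arch₂ X.arch₃ X.top₁ X.top₂ X.top₃
    X.ne₁₂ X.ne₁₃ X.ne₂₃ A₁ A₂ A₃
  have rx₁ : (P₁ D).redF x = s₁ := by rw [(P₁ D).redF_eq_of_sub_lt hA₁ hx₁, rA₁]
  have rx₂ : (P₂ D).redF x = s₂ := by rw [(P₂ D).redF_eq_of_sub_lt hA₂ hx₂, rA₂]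
  have rx₃ : (P₃ D).redF x = s₃ := by rw [(P₃ D).redF_eq_of_sub_lt hA₃ hx₃, rA₃]
  have nx₁ : (P₁ D).redF x ≠ 0 := by rw [rx₁]; exact hs₁
  have nx₂ : (P₂ D).redF x ≠ 0 := by rw [rx₂]; exact hs₂
  have nx₃ : (P₃ D).redF x ≠ 0 := by rw [rx₃]; exact hs₃
  have hx0 : x ≠ 0 := by
    rintro rfl
    exact nx₁ (P₁ D).redF_zero
  have hy0 : x ^ n ≠ 0 := pow_ne_zero n hx0
  set z : F := u' * (x ^ n)⁻¹ with hz
  have huz : u' = z * x ^ n := by
    rw [hz, mul_assoc, inv_mul_cancel₀ hy0, mul_one]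
  have hzK : KS.IsKum z := KS.mul _ _ hK (KS.inv _ (KS.npow x hx0))
  have hz' : z = u' ^ 1 * (x ^ n)⁻¹ := by rw [pow_one]
  refine ⟨z, x, c₁, c₂, c₃, hzK, ⟨hc₁, hc₂, hc₃, ?_, ?_, ?_⟩, hx0, huz⟩
  · rw [red₁_eq, hz', place_redF_pow_mul_inv_pow (P₁ D) hr₁ nx₁, rx₁, pow_one, ← red₁_eq, e₁,
      mul_inv_cancel_right₀ (pow_ne_zero _ hs₁)]
  · rw [red₂_eq, hz', place_redF_pow_mul_inv_pow (P₂ D) hr₂ nx₂, rx₂, pow_one, ← red₂_eq, e₂,
      mul_inv_cancel_right₀ (pow_ne_zero _ hs₂)]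
  · rw [red₃_eq, hz', place_redF_pow_mul_inv_pow (P₃ D) hr₃ nx₃, rx₃, pow_one, ← red₃_eq, e₃,
      mul_inv_cancel_right₀ (pow_ne_zero _ hs₃)]

end Ctx

end Fermat.Agent.S59lib.LLsq
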