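/-
S59lib / LLsq / MidDivTools  (helper4)

Divisor bookkeeping for the TWISTED middle targets of the brick `MidDiv` (Case C of the level
lowering `q² → q`): on a curve all of whose places are rational, for a divisor `o` of degree `0`
(`= div w`, `w = red₂ z`), a divisor `Om` vanishing at the marked points `x c` and `n e > 0`:

* `fracDiv n o = ⌊o / n⌋` with `n · deg ⌊o/n⌋ ≤ deg o - 1` as soon as ONE place has `n ∤ o_v`;
* `twDiv x n e j o Om = ⌊(e · o_off + n j · Om) / (n e)⌋ + ⌊o_on / n⌋` with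
  `e · deg (twDiv j) ≤ j · deg Om` (when `deg o = 0`) and
  `2 Σ_{0 < j < e} deg (twDiv j) ≤ (e - 1) deg Om`.
-/
import Mathlib
import Fermat.Agent.S36lib.Thick.DivTools

set_option autoImplicit false

noncomputable section

namespace Fermat.Agent.S59lib.LLsq

open AlgebraicCurve Fermat.Agent.S18lib.Cech
open Fermat.Agent.S36lib.Thick

namespace MidDiv

/-! ### integer arithmetic -/

theorem mul_ediv_le_sub_one {n : ℕ} (hn : 0 < n) {o : ℤ} (h : ¬ (n : ℤ) ∣ o) :
    (n : ℤ) * (o / (n : ℤ)) ≤ o - 1 := by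
  have hn' : (0 : ℤ) < n := by exact_mod_cast hn
  have h1 := Int.emod_add_mul_ediv o n
  have h2 : 0 < o % (n : ℤ) :=
    (Int.emod_pos_of_not_dvd h).resolve_left (by exact_mod_cast hn.ne')
  linarith

theorem add_mul_ediv_self {n : ℕ} (hn : 0 < n) (o κ : ℤ) :
    (o + (n : ℤ) * κ) / (n : ℤ) = o / (n : ℤ) + κ := by
  have hn' : (n : ℤ) ≠ 0 := by exact_mod_cast hn.ne'
  exact Int.add_mul_ediv_left o κ hn'

theorem mul_ediv_mul_cancel {n e : ℕ} (he : 0 < e) (o : ℤ) :
    ((e : ℤ) * o) / (((n * e : ℕ) : ℤ)) = o / (n : ℤ) := by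
  have he' : (0 : ℤ) < e := by exact_mod_cast he
  have : ((n * e : ℕ) : ℤ) = (e : ℤ) * n := by push_cast; ring
  rw [this]
  exact Int.mul_ediv_mul_of_pos o n he'

variable {k F : Type*} [Field k] [Field F] [Algebra k F]

/-! ### `⌊o / n⌋` -/

/-- the divisor `⌊o / n⌋` -/
def fracDiv (n : ℕ) (o : Divisor k F) : Divisor k F := floorDiv 1 n o

theorem fracDiv_apply (n : ℕ) (o : Divisor k F) (v : Place k F) :
    fracDiv n o v = o v / (n : ℤ) := by
  rw [fracDiv, floorDiv_apply, Nat.cast_one, one_mul]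

theorem mul_degree_fracDiv_le (hdeg : ∀ v : Place k F, v.deg = 1) {n : ℕ} (hn : 0 < n)
    (o : Divisor k F) : (n : ℤ) * Divisor.degree (fracDiv n o) ≤ Divisor.degree o := by
  have := mul_degree_floorDiv_le hdeg hn 1 o
  simpa [fracDiv] using this

/-- **the gain**: one place with `n ∤ o_v` costs one unit of degree -/
theorem mul_degree_fracDiv_le_sub_one (hdeg : ∀ v : Place k F, v.deg = 1) {n : ℕ} (hn : 0 < n)
    (o : Divisor k F) {v₀ : Place k F} (hv₀ : ¬ (n : ℤ) ∣ o v₀) :
    (n : ℤ) * Divisor.degree (fracDiv n o) ≤ Divisor.degree o - 1 := by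
  have hn' : (n : ℤ) ≠ 0 := by exact_mod_cast hn.ne'
  have hmem : v₀ ∈ o.support := by
    rw [Finsupp.mem_support_iff]
    intro h0
    exact hv₀ (by rw [h0]; exact dvd_zero _)
  have hsub : (fracDiv n o).support ⊆ o.support := support_floorDiv_subset 1 n o
  rw [degree_eq_sum_of_subset hdeg _ hsub, degree_eq_sum_of_subset hdeg o (Finset.Subset.refl _),
    Finset.mul_sum]
  have hlt : ∑ v ∈ o.support, (n : ℤ) * fracDiv n o v < ∑ v ∈ o.support, o v := by
    refine Finset.sum_lt_sum (fun v _ => ?_) ⟨v₀, hmem, ?_⟩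
    · rw [fracDiv_apply, mul_comm]
      exact Int.ediv_mul_le _ hn'
    · rw [fracDiv_apply]
      have := mul_ediv_le_sub_one hn hv₀
      linarith
  linarith

/-! ### the twisted layer divisors -/

section Pts

variable {s : ℕ} (x : Fin s → Place k F)

/-- the divisor `⌊(e · o_off + n j · Om) / (n e)⌋ + ⌊o_on / n⌋` -/
def twDiv (n e j : ℕ) (o Om : Divisor k F) : Divisor k F :=
  floorDiv 1 (n * e) (e • offPts x o + (n * j) • Om) + fracDiv n (onPts x o)

theorem twDiv_apply_of_ne (n e j : ℕ) (o Om : Divisor k F) {v : Place k F}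
    (hv : ∀ c, x c ≠ v) :
    twDiv x n e j o Om v = ((e : ℤ) * o v + ((n * j : ℕ) : ℤ) * Om v) / ((n * e : ℕ) : ℤ) := by
  rw [twDiv, Finsupp.add_apply, floorDiv_apply, fracDiv_apply, onPts_apply_of_ne x o hv,
    Int.zero_ediv, add_zero, Finsupp.add_apply, Finsupp.smul_apply, Finsupp.smul_apply,
    offPts_apply_of_ne x o hv, nsmul_eq_mul, nsmul_eq_mul, Nat.cast_one, one_mul]

theorem twDiv_apply_self (n e j : ℕ) (o : Divisor k F) {Om : Divisor k F}
    (hOm : ∀ c, Om (x c) = 0) (c : Fin s) :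
    twDiv x n e j o Om (x c) = o (x c) / (n : ℤ) := by
  rw [twDiv, Finsupp.add_apply, floorDiv_apply, fracDiv_apply, onPts_apply_self,
    Finsupp.add_apply, Finsupp.smul_apply, Finsupp.smul_apply, offPts_apply_self, hOm,
    smul_zero, smul_zero, add_zero, mul_zero, Int.zero_ediv, zero_add]

variable {x}

/-- `n e · deg (twDiv j) ≤ e · deg o + n j · deg Om` -/
theorem mul_degree_twDiv_le (hdeg : ∀ v : Place k F, v.deg = 1)
    {n e : ℕ} (hn : 0 < n) (he : 0 < e) (j : ℕ) (o Om : Divisor k F) :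
    ((n * e : ℕ) : ℤ) * Divisor.degree (twDiv x n e j o Om) ≤
      (e : ℤ) * Divisor.degree o + ((n * j : ℕ) : ℤ) * Divisor.degree Om := by
  have hne : 0 < n * e := Nat.mul_pos hn he
  have h1 := mul_degree_floorDiv_le hdeg hne 1 (e • offPts x o + (n * j) • Om)
  have h2 := mul_degree_fracDiv_le hdeg hn (onPts x o)
  have h3 := congrArg Divisor.degree (offPts_add_onPts x o)
  rw [map_add] at h3
  rw [twDiv, map_add, mul_add]
  rw [map_add, map_nsmul, map_nsmul, nsmul_eq_mul, nsmul_eq_mul, Nat.cast_one, one_mul] at h1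
  have he' : (0 : ℤ) ≤ e := Int.natCast_nonneg e
  have h4 : ((n * e : ℕ) : ℤ) * Divisor.degree (fracDiv n (onPts x o)) ≤
      (e : ℤ) * Divisor.degree (onPts x o) := by
    have : ((n * e : ℕ) : ℤ) = (e : ℤ) * n := by push_cast; ring
    rw [this, mul_assoc]
    exact mul_le_mul_of_nonneg_left h2 he'
  have h5 : (e : ℤ) * Divisor.degree o =
      (e : ℤ) * Divisor.degree (offPts x o) + (e : ℤ) * Divisor.degree (onPts x o) := by
    rw [← h3]; ring
  linarith

/-- `e · deg (twDiv j) ≤ j · deg Om` when `deg o = 0` -/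
theorem mul_degree_twDiv_le' (hdeg : ∀ v : Place k F, v.deg = 1)
    {n e : ℕ} (hn : 0 < n) (he : 0 < e) (j : ℕ) {o : Divisor k F} (ho : Divisor.degree o = 0)
    (Om : Divisor k F) :
    (e : ℤ) * Divisor.degree (twDiv x n e j o Om) ≤ (j : ℤ) * Divisor.degree Om := by
  have h := mul_degree_twDiv_le (x := x) hdeg hn he j o Om
  rw [ho, mul_zero, zero_add] at h
  have hn' : (0 : ℤ) < n := by exact_mod_cast hn
  have h1 : (n : ℤ) * ((e : ℤ) * Divisor.degree (twDiv x n e j o Om)) ≤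
      (n : ℤ) * ((j : ℤ) * Divisor.degree Om) := by
    push_cast at h
    linarith [h]
  exact le_of_mul_le_mul_left h1 hn'

/-- `2 Σ_{0 < j < e} deg (twDiv j) ≤ (e - 1) deg Om` when `deg o = 0` -/
theorem two_mul_sum_degree_twDiv_le (hdeg : ∀ v : Place k F, v.deg = 1)
    {n e : ℕ} (hn : 0 < n) (he : 0 < e) {o : Divisor k F}
    (ho : Divisor.degree o = 0) (Om : Divisor k F) :
    2 * ∑ i ∈ Finset.range (e - 1), Divisor.degree (twDiv x n e (i + 1) o Om) ≤
      ((e : ℤ) - 1) * Divisor.degree Om := by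
  have key : ∀ m : ℕ, 2 * (e : ℤ) * ∑ i ∈ Finset.range m,
      Divisor.degree (twDiv x n e (i + 1) o Om) ≤ ((m : ℤ) * (m + 1)) * Divisor.degree Om := by
    intro m
    induction m with
    | zero => simp
    | succ m ih =>
      rw [Finset.sum_range_succ, mul_add]
      have := mul_degree_twDiv_le' (x := x) hdeg hn he (m + 1) ho Om
      push_cast at this ⊢
      nlinarith [this, ih]
  have he' : (0 : ℤ) < e := by exact_mod_cast he
  have h := key (e - 1)
  have hcast : ((e - 1 : ℕ) : ℤ) = (e : ℤ) - 1 := by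
    have : 1 ≤ e := he
    push_cast [this]; ring
  rw [hcast] at h
  have h1 : (e : ℤ) * (2 * ∑ i ∈ Finset.range (e - 1),
      Divisor.degree (twDiv x n e (i + 1) o Om)) ≤
      (e : ℤ) * (((e : ℤ) - 1) * Divisor.degree Om) := by
    have : ((e : ℤ) - 1) * ((e : ℤ) - 1 + 1) * Divisor.degree Om =
        (e : ℤ) * (((e : ℤ) - 1) * Divisor.degree Om) := by ring
    rw [this] at h
    linarith [h]
  exact le_of_mul_le_mul_left h1 he'

end Pts

end MidDiv

end Fermat.Agent.S59lib.LLsq
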