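/-
S59lib / LLsq / MidDiv  (helper4)

**Brick `MidDiv` (Case C of the level lowering `q² → q`, `p ∣ q - 1`).**  Abstract thick datum
(`S36lib/Thick/Datum`): let `z` be a Kummer function (`n ∣ div z` on the generic fibre, encoded by a
`KummerFamily`), a unit on the three components whose OUTER reductions `red₁ z`, `red₃ z` are
nonzero constants, `n` prime to the residue characteristic.  Then the divisor of the MIDDLE
reduction `w = red₂ z` is divisible by `n`: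

  `midDiv : ∀ x : Place k F₂, (n : ℤ) ∣ x.ord (D.red₂ z)`.

Proof: the COUNT of `S36lib/Thick` with TWISTED middle targets.  For `h ∈ 𝓔 a b` the power trick
(`hⁿ z ∈ 𝓛 (n a) (n b)`, symbols `(symbol of h)ⁿ · w`) puts the symbols of `h`
* at level `0` in `L(⌊div w / n⌋ + D̄₂)`,
* at level `1` in the (twisted) nodal space of the outer pair, exactly as for a tri-unit,
* at level `j + 1` (`0 < j < e`) in `L(A_j + D̄₂)`, `A_j = ⌊(e · div w + n j · Om)/(n e)⌋` off the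
  triple points and `⌊ord w / n⌋ + ord κ` at the triple points.
Since `deg (div w) = 0` the degrees of the `A_j` obey the bound of the untwisted `Wd j`, while
`n · deg ⌊div w / n⌋ ≤ -1` as soon as one place has `n ∤ ord w`; then the targets have total
dimension `< a d₁ + b d₂ + 1 - g ≤ dim 𝓔 a b ≤ Σ dim (symbol images)`: contradiction.
-/
import Fermat.Agent.S59lib.LLsq.MidDivTools
import Fermat.Agent.S36lib.Thick.Struct
import Fermat.Agent.S36lib.Thick.Count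

set_option autoImplicit false
set_option linter.unusedSectionVars false

noncomputable section

namespace Fermat.Agent.S59lib.LLsq

open AlgebraicCurve Module
open Fermat.Agent.S36lib.Thick
open Fermat.Agent.LSb (HasValueAt)
open Fermat.Agent.LSb.Core (lin2 lin2_apply nodalSpace GluedAt VanishAt valAt)
open Fermat.Agent.S18lib.Cech (mem_rr_of_ne ord_pow ord_const)

variable {K : Type*} [Field K] {R : ValuationSubring K}
variable {F : Type*} [Field F] [Algebra K F]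
variable {F₁ F₂ F₃ : Type*} [Field F₁] [Field F₂] [Field F₃]
variable [Algebra (IsLocalRing.ResidueField R) F₁] [Algebra (IsLocalRing.ResidueField R) F₂]
variable [Algebra (IsLocalRing.ResidueField R) F₃]

local notation "k" => IsLocalRing.ResidueField R

/-- `z` is a unit on the three components whose OUTER reductions are the nonzero constants
`b₁`, `b₃` -/
structure IsOuterUnit (D : ThickDatum R F F₁ F₂ F₃) (z : F)
    (b₁ b₃ : IsLocalRing.ResidueField R) : Prop where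
  b₁_ne : b₁ ≠ 0
  b₃_ne : b₃ ≠ 0
  mem_O : z ∈ D.O
  red₁ : D.V₁.redF z = algebraMap (IsLocalRing.ResidueField R) F₁ b₁
  red₃ : D.V₃.redF z = algebraMap (IsLocalRing.ResidueField R) F₃ b₃
  red₂_ne : D.red₂ z ≠ 0

namespace MidDiv

variable {D : ThickDatum R F F₁ F₂ F₃} {g g₁ g₂ g₃ : ℕ} (C : ThickCtx D g g₁ g₂ g₃)

/-! ### the twisted middle divisors -/

/-- `div w`, `w = red₂ z` -/
def wDiv (z : F) : Divisor k F₂ := divOf C.hF₂.hasPrincipalDivisors (D.red₂ z)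

/-- the level `0` twist `⌊div w / n⌋` -/
def A0 (n : ℕ) (z : F) : Divisor k F₂ := fracDiv n (wDiv C z)

/-- the level `j + 1` twist -/
def Aj (n : ℕ) (z : F) (j : ℕ) : Divisor k F₂ :=
  twDiv D.x₂ n D.e j (wDiv C z) C.Om + C.Mx

theorem wDiv_apply {z : F} (hw : D.red₂ z ≠ 0) (v : Place k F₂) :
    wDiv C z v = v.ord (D.red₂ z) := divOf_apply _ hw v

theorem degree_wDiv (z : F) : Divisor.degree (wDiv C z) = 0 := degree_divOf _ _

theorem A0_apply (n : ℕ) {z : F} (hw : D.red₂ z ≠ 0) (v : Place k F₂) :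
    A0 C n z v = v.ord (D.red₂ z) / (n : ℤ) := by
  rw [A0, fracDiv_apply, wDiv_apply C hw]

theorem Om_apply_self (c : Fin D.s) : C.Om (D.x₂ c) = 0 := offPts_apply_self _ _ c

theorem Om_apply_of_ne {v : Place k F₂} (hv : ∀ c, D.x₂ c ≠ v) : C.Om v = v.ord C.κ := by
  rw [ThickCtx.Om, offPts_apply_of_ne _ _ hv, divOf_apply _ C.κ_ne_zero]

theorem Mx_apply_self (c : Fin D.s) : C.Mx (D.x₂ c) = (D.x₂ c).ord C.κ := by
  rw [ThickCtx.Mx, onPts_apply_self, divOf_apply _ C.κ_ne_zero]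

theorem Mx_apply_of_ne {v : Place k F₂} (hv : ∀ c, D.x₂ c ≠ v) : C.Mx v = 0 := by
  rw [ThickCtx.Mx, onPts_apply_of_ne _ _ hv]

theorem Aj_apply_self (n : ℕ) {z : F} (hw : D.red₂ z ≠ 0) (j : ℕ) (c : Fin D.s) :
    Aj C n z j (D.x₂ c) = (D.x₂ c).ord (D.red₂ z) / (n : ℤ) + (D.x₂ c).ord C.κ := by
  rw [Aj, Finsupp.add_apply, twDiv_apply_self D.x₂ n D.e j _ (Om_apply_self C) c,
    wDiv_apply C hw, Mx_apply_self]

theorem Aj_apply_of_ne (n : ℕ) {z : F} (hw : D.red₂ z ≠ 0) (j : ℕ) {v : Place k F₂}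
    (hv : ∀ c, D.x₂ c ≠ v) :
    Aj C n z j v = ((D.e : ℤ) * v.ord (D.red₂ z) + ((n * j : ℕ) : ℤ) * v.ord C.κ) /
      ((n * D.e : ℕ) : ℤ) := by
  rw [Aj, Finsupp.add_apply, twDiv_apply_of_ne D.x₂ n D.e j _ _ hv, wDiv_apply C hw,
    Om_apply_of_ne C hv, Mx_apply_of_ne C hv, add_zero]

/-! ### the power trick -/

section Incl

variable {n : ℕ} (hn : (n : IsLocalRing.ResidueField R) ≠ 0) {z : F} (E : KummerFamily D g n z)
variable {b₁ b₃ : IsLocalRing.ResidueField R} (hz : IsOuterUnit D z b₁ b₃)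

include C hn hz

/-- `hⁿ z ∈ 𝓛 (n a) (n b)` for `h ∈ 𝓔 a b` -/
theorem pow_mem {a b : ℕ} {h : F} (hh : h ∈ E.𝓔 a b) :
    h ^ n * z ∈ D.𝓛 (n * a) (n * b) := by
  have hn0 : n ≠ 0 := Struct.ne_zero_of_natCast_ne_zero hn
  have hf := E.mixed_mem hh hh
  have hpow : h * h ^ (n - 1) = h ^ n := by
    rw [← pow_succ', Nat.sub_add_cancel (Nat.pos_of_ne_zero hn0)]
  rw [hpow] at hf
  have e : ∀ a : ℕ, a + (n - 1) * a = n * a := by
    intro a
    obtain ⟨m, rfl⟩ : ∃ m, n = m + 1 := ⟨n - 1, by omega⟩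
    rw [Nat.add_sub_cancel]; ring
  rwa [e, e] at hf

/-- `hⁿ z ∈ I(n α, n β, n γ)` for `h ∈ I(α, β, γ)` -/
theorem pow_I {α β γ : ℤ} {h : F} (hI : C.I α β γ h) :
    C.I (n * α) (n * β) (n * γ) (h ^ n * z) :=
  (hI.pow n).mul_mem_O hz.mem_O

/-! ### level `0` -/

/-- **level `0`**: `red₂ h ∈ L(⌊div w / n⌋ + D̄₂ a b)` for `h ∈ 𝓔 a b ∩ O` -/
theorem red₂_mem {a b : ℕ} {h : F} (hh : h ∈ E.𝓔 a b) (hO : h ∈ D.O) :
    D.red₂ h ∈ riemannRochSpace (A0 C n z + D.chartDiv₂ a b) := by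
  have hn0 : n ≠ 0 := Struct.ne_zero_of_natCast_ne_zero hn
  have hnpos : 0 < n := Nat.pos_of_ne_zero hn0
  rcases eq_or_ne (D.red₂ h) 0 with h0 | h0
  · rw [h0]; exact Submodule.zero_mem _
  obtain ⟨h1, h2, h3⟩ := ThickDatum.mem_O.1 hO
  obtain ⟨z1, z2, z3⟩ := ThickDatum.mem_O.1 hz.mem_O
  have hf := pow_mem C hn E hz hh
  have hfO : h ^ n * z ∈ D.O := D.O.mul_mem (D.O.pow_mem hO n) hz.mem_O
  have hch := C.chart₂ _ _ _ hf hfO
  rw [Twist.red₂_mul D (D.V₂.O.pow_mem h2 n) z2, Twist.red₂_pow D h2] at hch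
  have hw := hz.red₂_ne
  have hne : D.red₂ h ^ n * D.red₂ z ≠ 0 := mul_ne_zero (pow_ne_zero _ h0) hw
  rw [mem_rr_of_ne h0]
  intro v
  have := (mem_rr_of_ne hne).1 hch v
  rw [v.ord_mul (pow_ne_zero _ h0) hw, ord_pow, C.chartDiv₂_mul] at this
  rw [Finsupp.add_apply, A0_apply C n hw]
  have h4 : -(v.ord (D.red₂ z)) ≤ (n : ℤ) * (v.ord (D.red₂ h) + D.chartDiv₂ a b v) := by
    linarith
  have := neg_ediv_le_of_le_mul hnpos h4
  linarith

/-! ### level `1`: the outer pair (as for a tri-unit) -/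

/-- for `h ∈ 𝓔 a b ∩ I(0,1,0)` the outer symbols `ψ_i = red_i (h / ϖ)` lie in
`L(B_i + D̄_i a b)`, are regular at the triple points and `b₁ ψ₁(x₁ c)ⁿ = b₃ ψ₃(x₃ c)ⁿ`. -/
theorem outer {a b : ℕ} {h : F} (hh : h ∈ E.𝓔 a b) (hI : C.I 0 1 0 h) :
    D.V₁.redF (h * D.ϖ⁻¹) ∈ riemannRochSpace (C.B₁ + D.chartDiv₁ a b) ∧
    D.V₃.redF (h * D.ϖ⁻¹) ∈ riemannRochSpace (C.B₃ + D.chartDiv₃ a b) ∧
    ∀ c, D.V₁.redF (h * D.ϖ⁻¹) ∈ (D.x₁ c).toValuationSubring ∧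
      D.V₃.redF (h * D.ϖ⁻¹) ∈ (D.x₃ c).toValuationSubring ∧
      b₁ * valAt (D.x₁ c) (D.V₁.redF (h * D.ϖ⁻¹)) ^ n =
        b₃ * valAt (D.x₃ c) (D.V₃.redF (h * D.ϖ⁻¹)) ^ n := by
  have hn0 : n ≠ 0 := Struct.ne_zero_of_natCast_ne_zero hn
  obtain ⟨z1, z2, z3⟩ := ThickDatum.mem_O.1 hz.mem_O
  have hf := pow_mem C hn E hz hh
  have hI' : C.I 0 ((n : ℕ) : ℤ) 0 (h ^ n * z) := by
    have := pow_I C hn hz hI
    simpa using this
  have hy₁ : h * D.ϖ⁻¹ ∈ D.V₁.O :=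
    D.V₁.O.mul_mem _ _ ((C.W₁.ge_zero_iff).1 hI.1) C.unif_inv_mem₁
  have hy₃ : h * D.ϖ⁻¹ ∈ D.V₃.O :=
    D.V₃.O.mul_mem _ _ ((C.W₃.ge_zero_iff).1 hI.2.2) C.unif_inv_mem₃
  have e0 : h ^ n * z * D.ϖ ^ (-((n : ℕ) : ℤ)) = (h * D.ϖ⁻¹) ^ n * z := by
    rw [zpow_neg, zpow_natCast, mul_pow, inv_pow]; ring
  have e₁ : D.V₁.redF (h ^ n * z * D.ϖ ^ (-((n : ℕ) : ℤ))) =
      D.V₁.redF (h * D.ϖ⁻¹) ^ n * algebraMap k F₁ b₁ := by
    rw [e0, D.V₁.redF_mul (D.V₁.O.pow_mem hy₁ n) z1, D.V₁.redF_pow hy₁, hz.red₁]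
  have e₃ : D.V₃.redF (h ^ n * z * D.ϖ ^ (-((n : ℕ) : ℤ))) =
      D.V₃.redF (h * D.ϖ⁻¹) ^ n * algebraMap k F₃ b₃ := by
    rw [e0, D.V₃.redF_mul (D.V₃.O.pow_mem hy₃ n) z3, D.V₃.redF_pow hy₃, hz.red₃]
  obtain ⟨m1, m3, hg⟩ := C.outer_mem hf hI'
  simp only at m1 m3
  rw [e₁] at m1
  rw [e₃] at m3
  refine ⟨Struct.mem_rr_of_pow_mul_const hn0 (fun v => ?_) hz.b₁_ne m1,
    Struct.mem_rr_of_pow_mul_const hn0 (fun v => ?_) hz.b₃_ne m3, fun c => ?_⟩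
  · rw [Finsupp.add_apply, Finsupp.add_apply, Finsupp.smul_apply, nsmul_eq_mul, C.chartDiv₁_mul]
    ring
  · rw [Finsupp.add_apply, Finsupp.add_apply, Finsupp.smul_apply, nsmul_eq_mul, C.chartDiv₃_mul]
    ring
  · obtain ⟨γ, v1, v3⟩ := hg c
    simp only [Pi.one_apply, one_mul] at v1 v3
    rw [e₁] at v1
    rw [e₃] at v3
    obtain ⟨r1, q1⟩ := Twist.regular_of_pow_mul_const (C.hF₁.deg_eq_one _) hn0 hz.b₁_ne v1
    obtain ⟨r3, q3⟩ := Twist.regular_of_pow_mul_const (C.hF₃.deg_eq_one _) hn0 hz.b₃_ne v3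
    exact ⟨r1, r3, q1.trans q3.symm⟩

/-- criterion for the level one inclusion -/
theorem symImage_one_le_of {a b : ℕ} (ν : Fin D.s → k)
    (hν : ∀ h ∈ E.𝓔 a b, C.I 0 1 0 h → ∀ c, valAt (D.x₃ c) (D.V₃.redF (h * D.ϖ⁻¹)) =
      ν c * valAt (D.x₁ c) (D.V₁.redF (h * D.ϖ⁻¹))) :
    C.filtSys.symImage 1 (E.𝓔 a b) ≤ C.Tout ν a b := by
  rintro φ ⟨f, hf, hc, rfl⟩
  rw [ThickCtx.filtSys_𝔠, ThickCtx.chain_one, ThickCtx.mem_Isub] at hc
  rw [ThickCtx.filtSys_sy, ThickCtx.sy_one, C.mk_mem_Tout]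
  obtain ⟨m1, m3, hreg⟩ := outer C hn E hz hf hc
  refine ⟨m1, m3, fun c => ?_⟩
  obtain ⟨r1, r3, -⟩ := hreg c
  refine ⟨valAt (D.x₁ c) (D.V₁.redF (f * D.ϖ⁻¹)),
    hasValueAt_valAt _ (C.hF₁.deg_eq_one _) r1, ?_⟩
  have := hasValueAt_valAt _ (C.hF₃.deg_eq_one _) r3
  rw [hν f hf hc c] at this
  exact this

/-- **level `1`** -/
theorem exists_symImage_one_le (a b : ℕ) : ∃ ν : Fin D.s → k,
    C.filtSys.symImage 1 (E.𝓔 a b) ≤ C.Tout ν a b := by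
  have hn0 : n ≠ 0 := Struct.ne_zero_of_natCast_ne_zero hn
  set V : Submodule k (F₁ × F₃) :=
    (C.filtSys.symImage 1 (E.𝓔 a b)).comap (outEmb k F₁ F₂ F₃) with hV
  have hmem : ∀ φ ∈ V, ∃ h ∈ E.𝓔 a b, C.I 0 1 0 h ∧
      φ = (D.V₁.redF (h * D.ϖ⁻¹), D.V₃.redF (h * D.ϖ⁻¹)) := by
    rintro φ ⟨h, hh, hc, hφ⟩
    rw [ThickCtx.filtSys_𝔠, ThickCtx.chain_one, ThickCtx.mem_Isub] at hc
    rw [ThickCtx.filtSys_sy, ThickCtx.sy_one, outEmb_apply] at hφ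
    refine ⟨h, hh, hc, ?_⟩
    have h1 := congrArg (fun t : F₁ × F₂ × F₃ => t.1) hφ
    have h2 := congrArg (fun t : F₁ × F₂ × F₃ => t.2.2) hφ
    exact Prod.ext h1.symm h2.symm
  obtain ⟨ν, -, hν, -⟩ := exists_twist₂ D.x₁ D.x₃
    (fun c => C.hF₁.deg_eq_one _) (fun c => C.hF₃.deg_eq_one _) V
    (fun φ hφ c => by
      obtain ⟨h, hh, hI, rfl⟩ := hmem φ hφ
      exact ((outer C hn E hz hh hI).2.2 c).1)
    (fun φ hφ c => by
      obtain ⟨h, hh, hI, rfl⟩ := hmem φ hφ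
      exact ((outer C hn E hz hh hI).2.2 c).2.1)
    hn0 hz.b₁_ne hz.b₃_ne
    (fun φ hφ c => by
      obtain ⟨h, hh, hI, rfl⟩ := hmem φ hφ
      exact ((outer C hn E hz hh hI).2.2 c).2.2)
  refine ⟨ν, symImage_one_le_of C hn E hz ν fun h hh hI c => ?_⟩
  have hφ : (D.V₁.redF (h * D.ϖ⁻¹), D.V₃.redF (h * D.ϖ⁻¹)) ∈ V := by
    refine ⟨h, hh, ?_, ?_⟩
    · rw [ThickCtx.filtSys_𝔠, ThickCtx.chain_one, ThickCtx.mem_Isub]; exact hI
    · rw [ThickCtx.filtSys_sy, ThickCtx.sy_one, outEmb_apply]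
  exact hν _ hφ c

/-! ### the levels `j + 1`, `0 < j < e` -/

/-- **level `j + 1`**: for `h ∈ 𝓔 a b ∩ I(1,j,1)` (`0 < j < e`) the symbol `red₂ (h / ϖʲ)` lies in
`L(A_j + D̄₂ a b)`. -/
theorem mid_mem {a b j : ℕ} (hje : j < D.e) {h : F} (hh : h ∈ E.𝓔 a b)
    (hI : C.I 1 j 1 h) : C.W₂.sym j h ∈ riemannRochSpace (Aj C n z j + D.chartDiv₂ a b) := by
  have hn0 : n ≠ 0 := Struct.ne_zero_of_natCast_ne_zero hn
  have hnpos : 0 < n := Nat.pos_of_ne_zero hn0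
  rcases eq_or_ne (C.W₂.sym j h) 0 with h0 | h0
  · rw [h0]; exact Submodule.zero_mem _
  obtain ⟨z1, z2, z3⟩ := ThickDatum.mem_O.1 hz.mem_O
  have hw := hz.red₂_ne
  have hf := pow_mem C hn E hz hh
  have hI' : C.I ((n : ℕ) : ℤ) ((n * j : ℕ) : ℤ) ((n : ℕ) : ℤ) (h ^ n * z) := by
    have := pow_I C hn hz hI
    simpa using this
  have hβ : n * j ≤ D.e * n := by
    rw [mul_comm D.e n]; exact Nat.mul_le_mul_left n hje.le
  have hsym : C.W₂.sym ((n * j : ℕ) : ℤ) (h ^ n * z) = C.W₂.sym j h ^ n * D.red₂ z := by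
    have h1 := DVal.sym_mul_mem (hI.2.1.pow n) (show z ∈ C.W₂.O from z2)
    rw [DVal.sym_pow hI.2.1, C.W₂_redF] at h1
    have e : ((n * j : ℕ) : ℤ) = (n : ℤ) * (j : ℤ) := by push_cast; ring
    rw [e]; exact h1
  have hψ : C.W₂.sym ((n * j : ℕ) : ℤ) (h ^ n * z) ≠ 0 := by
    rw [hsym]; exact mul_ne_zero (pow_ne_zero _ h0) hw
  obtain ⟨h1, h2⟩ := C.mid_bounds hβ hf hI' hψ
  have hord : ∀ v : Place k F₂, v.ord (C.W₂.sym ((n * j : ℕ) : ℤ) (h ^ n * z)) =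
      (n : ℤ) * v.ord (C.W₂.sym j h) + v.ord (D.red₂ z) := by
    intro v
    rw [hsym, v.ord_mul (pow_ne_zero _ h0) hw, ord_pow]
  rw [mem_rr_of_ne h0]
  intro v
  rw [Finsupp.add_apply]
  by_cases hv : ∃ c, D.x₂ c = v
  · obtain ⟨c, rfl⟩ := hv
    rw [Aj_apply_self C n hw, C.chartDiv₂_x₂, add_zero]
    have := h2 c
    rw [hord] at this
    have h3 : -((D.x₂ c).ord (D.red₂ z) + (n : ℤ) * (D.x₂ c).ord C.κ) ≤
        (n : ℤ) * (D.x₂ c).ord (C.W₂.sym j h) := by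
      linarith
    have h4 := neg_ediv_le_of_le_mul hnpos h3
    rwa [add_mul_ediv_self hnpos] at h4
  · push Not at hv
    rw [Aj_apply_of_ne C n hw j hv]
    have h3 := h1 v
    rw [hord, C.chartDiv₂_mul] at h3
    have hne : 0 < n * D.e := Nat.mul_pos hnpos C.e_pos
    have h4 : -((D.e : ℤ) * v.ord (D.red₂ z) + ((n * j : ℕ) : ℤ) * v.ord C.κ) ≤
        ((n * D.e : ℕ) : ℤ) * (v.ord (C.W₂.sym j h) + D.chartDiv₂ a b v) := by
      push_cast at h3 ⊢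
      linarith
    have := neg_ediv_le_of_le_mul hne h4
    linarith

end Incl

/-! ### the twisted targets -/

/-- **the twisted symbol targets** -/
def T' (n : ℕ) (z : F) (ν : Fin D.s → k) (i a b : ℕ) : Submodule k (F₁ × F₂ × F₃) :=
  if i = 0 then D.Tmid (A0 C n z) a b else if i = 1 then C.Tout ν a b
  else D.Tmid (Aj C n z (i - 1)) a b

theorem T'_zero (n : ℕ) (z : F) (ν : Fin D.s → k) (a b : ℕ) :
    T' C n z ν 0 a b = D.Tmid (A0 C n z) a b := by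
  rw [T', if_pos rfl]

theorem T'_one (n : ℕ) (z : F) (ν : Fin D.s → k) (a b : ℕ) :
    T' C n z ν 1 a b = C.Tout ν a b := by
  rw [T', if_neg one_ne_zero, if_pos rfl]

theorem T'_add_two (n : ℕ) (z : F) (ν : Fin D.s → k) (j a b : ℕ) :
    T' C n z ν (j + 2) a b = D.Tmid (Aj C n z (j + 1)) a b := by
  rw [T', if_neg (by omega), if_neg (by omega)]; rfl

theorem finiteDimensional_T' (n : ℕ) (z : F) (ν : Fin D.s → k) (i a b : ℕ) :
    FiniteDimensional k (T' C n z ν i a b) := by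
  rcases i with _ | _ | j
  · rw [T'_zero]; exact C.finiteDimensional_Tmid _ a b
  · rw [T'_one]; exact C.finiteDimensional_Tout ν a b
  · rw [show (j + 1 + 1 : ℕ) = j + 2 from rfl, T'_add_two]
    exact C.finiteDimensional_Tmid _ a b

/-- **the twisted inclusions** -/
theorem exists_symImage_le {n : ℕ} (hn : (n : IsLocalRing.ResidueField R) ≠ 0) {z : F}
    (E : KummerFamily D g n z) {b₁ b₃ : IsLocalRing.ResidueField R}
    (hz : IsOuterUnit D z b₁ b₃) (a b : ℕ) : ∃ ν : Fin D.s → k,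
    ∀ i, i < D.e + 1 → C.filtSys.symImage i (E.𝓔 a b) ≤ T' C n z ν i a b := by
  obtain ⟨ν, h1⟩ := exists_symImage_one_le C hn E hz a b
  refine ⟨ν, fun i hi => ?_⟩
  rcases i with _ | _ | j
  · rintro φ ⟨f, hf, hc, rfl⟩
    rw [ThickCtx.filtSys_𝔠, ThickCtx.chain_zero, ThickCtx.mem_Isub, ThickCtx.I_zero_iff] at hc
    rw [ThickCtx.filtSys_sy, T'_zero, ThickCtx.sy_zero, ThickCtx.mk_mem_Tmid]
    exact red₂_mem C hn E hz hf hc
  · rw [T'_one]; exact h1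
  · rintro φ ⟨f, hf, hc, rfl⟩
    rw [show (j + 1 + 1 : ℕ) = j + 2 from rfl] at hi ⊢
    rw [ThickCtx.filtSys_𝔠, ThickCtx.chain_add_two, ThickCtx.mem_Isub] at hc
    rw [ThickCtx.filtSys_sy, T'_add_two, ThickCtx.sy_add_two, ThickCtx.mk_mem_Tmid]
    have e : ((j + 1 : ℕ) : ℤ) = (j : ℤ) + 1 := by push_cast; rfl
    have hI : C.I 1 ((j + 1 : ℕ) : ℤ) 1 f := by rw [e]; exact hc
    have := mid_mem C hn E hz (j := j + 1) (by omega) hf hI
    rwa [e] at this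

/-! ### the stable range and the dimension sum -/

/-- all the twisted targets are in the range of Riemann's theorem -/
def Stable' (n : ℕ) (z : F) (a b : ℕ) : Prop :=
  RRStable g₂ (A0 C n z) D.Q₁₂ D.Q₂₂ a b ∧
    NodStable g₁ g₃ D.s C.B₁ C.B₃ D.Q₁₁ D.Q₂₁ D.Q₁₃ D.Q₂₃ a b ∧
      ∀ j, 0 < j → j < D.e → RRStable g₂ (Aj C n z j) D.Q₁₂ D.Q₂₂ a b

theorem exists_stable' (n : ℕ) (z : F) :
    ∃ m₀ : ℕ, ∀ a b : ℕ, m₀ ≤ a ∨ m₀ ≤ b → Stable' C n z a b := by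
  obtain ⟨m₁, hm₁⟩ := exists_rrStable g₂ (A0 C n z) C.deg_Q₁₂_pos C.deg_Q₂₂_pos
  obtain ⟨m₂, hm₂⟩ := exists_nodStable g₁ g₃ D.s C.B₁ C.B₃ C.deg_Q₁₁_pos C.deg_Q₂₁_pos
    C.deg_Q₁₃_pos C.deg_Q₂₃_pos
  choose m hm using fun j : ℕ => exists_rrStable g₂ (Aj C n z j) C.deg_Q₁₂_pos C.deg_Q₂₂_pos
  refine ⟨max (max m₁ m₂) ((Finset.range D.e).sup m), fun a b hab => ⟨?_, ?_, fun j _ hje => ?_⟩⟩
  · exact hm₁ a b (hab.imp (le_trans ((le_max_left _ _).trans (le_max_left _ _)))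
      (le_trans ((le_max_left _ _).trans (le_max_left _ _))))
  · exact hm₂ a b (hab.imp (le_trans ((le_max_right _ _).trans (le_max_left _ _)))
      (le_trans ((le_max_right _ _).trans (le_max_left _ _))))
  · have hj : m j ≤ (Finset.range D.e).sup m := Finset.le_sup (Finset.mem_range.2 hje)
    exact hm j a b (hab.imp (le_trans (hj.trans (le_max_right _ _)))
      (le_trans (hj.trans (le_max_right _ _))))

theorem degree_Aj (n : ℕ) (z : F) (j : ℕ) :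
    Divisor.degree (Aj C n z j) =
      Divisor.degree (twDiv D.x₂ n D.e j (wDiv C z) C.Om) + Divisor.degree C.Mx := by
  rw [Aj, map_add]

/-- `2 Σ_{0 < j < e} deg A_j ≤ -2 s (e - 1)` -/
theorem two_mul_sum_degree_Aj_le {n : ℕ} (hn : 0 < n) (z : F) :
    2 * ∑ i ∈ Finset.range (D.e - 1), Divisor.degree (Aj C n z (i + 1)) ≤
      -2 * (D.s : ℤ) * ((D.e : ℤ) - 1) := by
  have h1 := two_mul_sum_degree_twDiv_le (x := D.x₂) C.hF₂.deg_eq_one hn C.e_pos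
    (degree_wDiv C z) C.Om
  have h2 := C.deg_Mx_le
  have he : (0 : ℤ) ≤ (D.e : ℤ) - 1 := by
    have : (1 : ℤ) ≤ D.e := by exact_mod_cast C.e_pos
    linarith
  have hsum : ∑ i ∈ Finset.range (D.e - 1), Divisor.degree (Aj C n z (i + 1)) =
      ∑ i ∈ Finset.range (D.e - 1),
        Divisor.degree (twDiv D.x₂ n D.e (i + 1) (wDiv C z) C.Om) +
        ((D.e : ℤ) - 1) * Divisor.degree C.Mx := by
    rw [Finset.sum_congr rfl fun i _ => degree_Aj C n z (i + 1), Finset.sum_add_distrib,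
      Finset.sum_const, Finset.card_range, nsmul_eq_mul]
    congr 2
    have : 1 ≤ D.e := C.e_pos
    push_cast [this]; ring
  rw [hsum, C.deg_Om_eq] at *
  nlinarith

/-- **the gain at level `0`** -/
theorem degree_A0_le {n : ℕ} (hn : 0 < n) {z : F} (hw : D.red₂ z ≠ 0) {v₀ : Place k F₂}
    (hv₀ : ¬ (n : ℤ) ∣ v₀.ord (D.red₂ z)) : Divisor.degree (A0 C n z) ≤ -1 := by
  have h := mul_degree_fracDiv_le_sub_one C.hF₂.deg_eq_one hn (wDiv C z) (v₀ := v₀)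
    (by rwa [wDiv_apply C hw])
  rw [degree_wDiv, zero_sub] at h
  have hn' : (0 : ℤ) < n := by exact_mod_cast hn
  by_contra hcon
  push Not at hcon
  have : (0 : ℤ) ≤ Divisor.degree (A0 C n z) := by omega
  rw [A0] at this
  nlinarith

theorem finrank_T'_zero {n : ℕ} {z : F} {a b : ℕ} (ν : Fin D.s → k) (h : Stable' C n z a b) :
    (finrank k (T' C n z ν 0 a b) : ℤ) =
      Divisor.degree (A0 C n z) + a * Divisor.degree D.Q₁₂ + b * Divisor.degree D.Q₂₂ + 1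
        - g₂ := by
  rw [T'_zero, ThickCtx.finrank_Tmid, finrank_rrFam C.hF₂ h.1]

theorem finrank_T'_one {n : ℕ} {z : F} {a b : ℕ} (ν : Fin D.s → k) (h : Stable' C n z a b) :
    (finrank k (T' C n z ν 1 a b) : ℤ) =
      (Divisor.degree C.B₁ + a * Divisor.degree D.Q₁₁ + b * Divisor.degree D.Q₂₁) +
        (Divisor.degree C.B₃ + a * Divisor.degree D.Q₁₃ + b * Divisor.degree D.Q₂₃) + 2 - g₁ - g₃
          - D.s := by
  rw [T'_one, C.finrank_Tout, finrank_nodFam C.hF₁ C.hF₃ C.x₃_injective ν C.B₁_apply_self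
    C.B₃_apply_self C.x₁_not_mem C.x₃_not_mem h.2.1]

theorem finrank_T'_add_two {n : ℕ} {z : F} {a b : ℕ} (ν : Fin D.s → k)
    (h : Stable' C n z a b) {j : ℕ} (hj : j + 1 < D.e) :
    (finrank k (T' C n z ν (j + 2) a b) : ℤ) =
      Divisor.degree (Aj C n z (j + 1)) + a * Divisor.degree D.Q₁₂ + b * Divisor.degree D.Q₂₂ + 1
        - g₂ := by
  rw [T'_add_two, ThickCtx.finrank_Tmid,
    finrank_rrFam C.hF₂ (h.2.2 (j + 1) (Nat.succ_pos j) hj)]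

/-- **the dimension sum with the gain**: if one place has `n ∤ ord w` the twisted targets have
total dimension `<` the Riemann bound of the generic fibre. -/
theorem sum_finrank_T'_le {n : ℕ} (hn : 0 < n) {z : F} (hw : D.red₂ z ≠ 0) {v₀ : Place k F₂}
    (hv₀ : ¬ (n : ℤ) ∣ v₀.ord (D.red₂ z)) {a b : ℕ} (ν : Fin D.s → k)
    (h : Stable' C n z a b) :
    ((∑ i ∈ Finset.range (D.e + 1), finrank k (T' C n z ν i a b) : ℕ) : ℤ) ≤
      a * D.d₁ + b * D.d₂ + 1 - g - 1 := by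
  obtain ⟨e', he'⟩ : ∃ e', D.e = e' + 1 := ⟨D.e - 1, (Nat.sub_add_cancel C.e_pos).symm⟩
  have hsplit : (∑ i ∈ Finset.range (D.e + 1), finrank k (T' C n z ν i a b) : ℕ) =
      (∑ j ∈ Finset.range e', finrank k (T' C n z ν (j + 2) a b)) +
        finrank k (T' C n z ν 1 a b) + finrank k (T' C n z ν 0 a b) := by
    rw [he', Finset.sum_range_succ', Finset.sum_range_succ']
  rw [hsplit]
  push_cast
  rw [finrank_T'_zero C ν h, finrank_T'_one C ν h]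
  have hmid : ∑ j ∈ Finset.range e', (finrank k (T' C n z ν (j + 2) a b) : ℤ) =
      ∑ j ∈ Finset.range e', Divisor.degree (Aj C n z (j + 1)) +
        (e' : ℤ) * (a * Divisor.degree D.Q₁₂ + b * Divisor.degree D.Q₂₂ + 1 - g₂) := by
    rw [Finset.sum_congr rfl fun j hj => finrank_T'_add_two C ν h
      (by rw [he']; exact Nat.succ_lt_succ (Finset.mem_range.1 hj))]
    have : ∀ j ∈ Finset.range e',
        Divisor.degree (Aj C n z (j + 1)) + a * Divisor.degree D.Q₁₂ + b * Divisor.degree D.Q₂₂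
          + 1 - (g₂ : ℤ) = Divisor.degree (Aj C n z (j + 1)) +
            (a * Divisor.degree D.Q₁₂ + b * Divisor.degree D.Q₂₂ + 1 - g₂) := fun j _ => by ring
    rw [Finset.sum_congr rfl this, Finset.sum_add_distrib, Finset.sum_const, Finset.card_range,
      nsmul_eq_mul]
  rw [hmid]
  have hW := two_mul_sum_degree_Aj_le C hn z
  have he1 : D.e - 1 = e' := by omega
  rw [he1] at hW
  have hA0 := degree_A0_le C hn hw hv₀
  have hB₁ := C.deg_B₁_le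
  have hB₃ := C.deg_B₃_le
  have hQ₁ := C.deg_Q₁_le
  have hQ₂ := C.deg_Q₂_le
  have hcount : ((g + D.e + 1 : ℕ) : ℤ) ≤ ((g₁ + D.e * g₂ + g₃ + D.s * (D.e + 2) : ℕ) : ℤ) :=
    Int.ofNat_le.2 C.count
  have hee : (D.e : ℤ) = e' + 1 := by exact_mod_cast he'
  rw [hee] at hW hQ₁ hQ₂
  push_cast at hcount
  rw [hee] at hcount
  have ha0 : (0 : ℤ) ≤ a := Int.natCast_nonneg a
  have hb0 : (0 : ℤ) ≤ b := Int.natCast_nonneg b
  nlinarith [mul_le_mul_of_nonneg_left hQ₁ ha0, mul_le_mul_of_nonneg_left hQ₂ hb0]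

end MidDiv

/-- **Brick `MidDiv`.**  For a Kummer function `z` (`n ∣ div z`, `n` prime to the residue
characteristic) which is a unit on the three components of a thick datum with CONSTANT outer
reductions, the divisor of the middle reduction `red₂ z` is divisible by `n`. -/
theorem midDiv {D : ThickDatum R F F₁ F₂ F₃} {g g₁ g₂ g₃ : ℕ} (C : ThickCtx D g g₁ g₂ g₃)
    {n : ℕ} (hn : (n : IsLocalRing.ResidueField R) ≠ 0) {z : F} (E : KummerFamily D g n z)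
    {b₁ b₃ : IsLocalRing.ResidueField R} (hb₁ : b₁ ≠ 0) (hb₃ : b₃ ≠ 0) (hzO : z ∈ D.O)
    (h₁ : D.V₁.redF z = algebraMap (IsLocalRing.ResidueField R) F₁ b₁)
    (h₃ : D.V₃.redF z = algebraMap (IsLocalRing.ResidueField R) F₃ b₃)
    (h₂ : D.red₂ z ≠ 0) :
    ∀ x : Place (IsLocalRing.ResidueField R) F₂, (n : ℤ) ∣ x.ord (D.red₂ z) := by
  classical
  have hz : IsOuterUnit D z b₁ b₃ := ⟨hb₁, hb₃, hzO, h₁, h₃, h₂⟩
  have hn0 : n ≠ 0 := Struct.ne_zero_of_natCast_ne_zero hn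
  have hnpos : 0 < n := Nat.pos_of_ne_zero hn0
  intro x
  by_contra hx
  obtain ⟨m, hm⟩ := MidDiv.exists_stable' C n z
  have hst : MidDiv.Stable' C n z m 0 := hm m 0 (Or.inl le_rfl)
  obtain ⟨ν, hle⟩ := MidDiv.exists_symImage_le C hn E hz m 0
  have := E.finiteDimensional m 0
  have hfdT : ∀ i, FiniteDimensional k (MidDiv.T' C n z ν i m 0) :=
    fun i => MidDiv.finiteDimensional_T' C n z ν i m 0
  have hfd : ∀ i < C.filtSys.N, FiniteDimensional k (C.filtSys.symImage i (E.𝓔 m 0)) := by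
    intro i hi
    have := hfdT i
    exact Submodule.finiteDimensional_of_le (hle i hi)
  have h1 := C.filtSys.finrank_le_sum (C.hasBasis (E.𝓔 m 0)) hfd
  have h2 : ∑ i ∈ Finset.range C.filtSys.N, finrank k (C.filtSys.symImage i (E.𝓔 m 0)) ≤
      ∑ i ∈ Finset.range (D.e + 1), finrank k (MidDiv.T' C n z ν i m 0) := by
    rw [ThickCtx.filtSys_N]
    refine Finset.sum_le_sum fun i hi => ?_
    have := hfdT i
    exact Submodule.finrank_mono (hle i (Finset.mem_range.1 hi))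
  have h3 := MidDiv.sum_finrank_T'_le C hnpos h₂ hx ν hst
  have h4 := E.riemann m 0
  have h5 : (finrank K (E.𝓔 m 0) : ℤ) ≤
      ((∑ i ∈ Finset.range (D.e + 1), finrank k (MidDiv.T' C n z ν i m 0) : ℕ) : ℤ) := by
    exact_mod_cast h1.trans h2
  linarith

/-- `midDiv` with the middle hypothesis in the form "`z` is a unit of `O₂`" (and `z ∈ O` derived
from the reductions). -/
theorem midDiv' {D : ThickDatum R F F₁ F₂ F₃} {g g₁ g₂ g₃ : ℕ} (C : ThickCtx D g g₁ g₂ g₃)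
    {n : ℕ} (hn : (n : IsLocalRing.ResidueField R) ≠ 0) {z : F} (E : KummerFamily D g n z)
    {b₁ b₃ : IsLocalRing.ResidueField R} (hb₁ : b₁ ≠ 0) (hb₃ : b₃ ≠ 0)
    (h₁ : D.V₁.redF z = algebraMap (IsLocalRing.ResidueField R) F₁ b₁)
    (h₃ : D.V₃.redF z = algebraMap (IsLocalRing.ResidueField R) F₃ b₃)
    (h₂ : D.V₂.O.valuation z = 1) :
    ∀ Q : Place (IsLocalRing.ResidueField R) F₂, (n : ℤ) ∣ Q.ord (D.red₂ z) := by
  have hz0 : z ≠ 0 := by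
    rintro rfl
    rw [map_zero] at h₂
    exact zero_ne_one h₂
  have m1 : z ∈ D.V₁.O := by
    have : C.W₁.redF z ≠ 0 := by
      rw [C.W₁_redF, h₁]; exact (map_ne_zero _).2 hb₁
    exact C.W₁.mem_of_redF_ne_zero this
  have m3 : z ∈ D.V₃.O := by
    have : C.W₃.redF z ≠ 0 := by
      rw [C.W₃_redF, h₃]; exact (map_ne_zero _).2 hb₃
    exact C.W₃.mem_of_redF_ne_zero this
  have m2 : z ∈ D.V₂.O := (ValuationSubring.valuation_le_one_iff _ _).1 h₂.le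
  have m2' : z⁻¹ ∈ D.V₂.O := by
    refine (ValuationSubring.valuation_le_one_iff _ _).1 ?_
    rw [map_inv₀, h₂, inv_one]
  have hr : D.red₂ z ≠ 0 := by
    rw [← C.W₂_redF]
    exact C.W₂.redF_ne_zero_of_mem_of_inv_mem hz0 m2 m2'
  exact midDiv C hn E hb₁ hb₃ (ThickDatum.mem_O.2 ⟨m1, m2, m3⟩) h₁ h₃ hr

end Fermat.Agent.S59lib.LLsq
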